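/-
S55 sprint, block (IV) FIRST INEQUALITY (helper2).  File 15: the local unit groups at unramified
primes are acyclic.  For a finite extension `E'` of `ℚ_q` inside `ℚ̄_q` with value group `q^ℤ`
(`UnramAt q E'`) and `τ ∈ G_q` of prime order `p` on `E'`: on `O' = {a ∈ E'ˣ, ‖a‖ = 1}`
`[O' ∩ ker(τ-1) : N O'] = 1` and `[O' ∩ ker N : (τ-1) O'] = 1`
(helper3's `IsUnramified.exists_norm_eq` + helper6's `hIdxSub_unitGroup`).
-/
import Mathlib
import Fermat.Agent.S55lib.FirstIneq.LocalCyclic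
import Fermat.Agent.S55lib.LocalUnr.UnramifiedCrit

set_option autoImplicit false

namespace Fermat.Agent.S55lib.FirstIneq

open Fermat.Agent.S55lib.LocalH Fermat.Agent.S55lib.LocalUnr IntermediateField
open scoped NormedField Valued

section General

variable {K L : Type*} [NontriviallyNormedField K] [IsUltrametricDist K] [ProperSpace K]
  [NontriviallyNormedField L] [IsUltrametricDist L] [ProperSpace L] [NormedAlgebra K L]
  [FiniteDimensional K L] [IsGalois K L]

/-- `e = 1` implies trivial inertia (converse of helper3's `ramIdx_eq_one_of_injective`). -/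
theorem injective_resGal_of_ramIdx_eq_one (h : ramIdx K L = 1) :
    Function.Injective (resGal K L) := by
  have hfin : Finite 𝓀[L] := finite_residue L
  have hcard : Nat.card (L ≃ₐ[K] L) = Nat.card (𝓀[L] ≃ₐ[𝓀[K]] 𝓀[L]) := by
    rw [IsGalois.card_aut_eq_finrank, card_gal_residue, finrank_eq_ramIdx_mul_resDeg, h, one_mul]
  have hfinG : Finite (L ≃ₐ[K] L) := inferInstance
  have hfinR : Finite (𝓀[L] ≃ₐ[𝓀[K]] 𝓀[L]) := inferInstance
  have := Fintype.ofFinite (L ≃ₐ[K] L)
  have := Fintype.ofFinite (𝓀[L] ≃ₐ[𝓀[K]] 𝓀[L])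
  rw [Nat.card_eq_fintype_card, Nat.card_eq_fintype_card] at hcard
  exact ((Fintype.bijective_iff_surjective_and_card _).mpr ⟨resGal_surjective K L, hcard⟩).1

theorem isUnramified_of_ramIdx_eq_one (h : ramIdx K L = 1) : IsUnramified K L :=
  isUnramified_of_injective (injective_resGal_of_ramIdx_eq_one h)

omit [NontriviallyNormedField L] [IsUltrametricDist L] [ProperSpace L] [NormedAlgebra K L]
  [FiniteDimensional K L] [IsGalois K L] in
/-- a normed local field all of whose nonzero norms are powers of `c = ‖x₀‖ < 1` has `c` as norm of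
its uniformizers. -/
theorem unifNorm_eq_of_forall_norm {c : ℝ} (hc0 : 0 < c) (hc1 : c < 1) (x₀ : K) (hx₀ : ‖x₀‖ = c)
    (hall : ∀ y : K, y ≠ 0 → ∃ n : ℤ, ‖y‖ = c ^ n) : unifNorm K = c := by
  have hπ := unif_isUniformizer K
  apply le_antisymm
  · obtain ⟨n, hn⟩ := hall (unif K) hπ.ne_zero
    have hlt : c ^ n < 1 := hn ▸ hπ.norm_lt_one
    have hn1 : 1 ≤ n := by
      by_contra hcon
      have hn0 : n ≤ 0 := by omega
      have : 1 ≤ c ^ n := by
        obtain ⟨m, rfl⟩ : ∃ m : ℕ, n = -(m : ℤ) := ⟨(-n).toNat, by omega⟩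
        rw [zpow_neg, zpow_natCast]
        exact (one_le_inv₀ (pow_pos hc0 m)).mpr (pow_le_one₀ hc0.le hc1.le)
      linarith
    show ‖unif K‖ ≤ c
    rw [hn]
    calc c ^ n ≤ c ^ (1 : ℤ) := zpow_le_zpow_right_of_le_one₀ hc0 hc1.le hn1
      _ = c := zpow_one c
  · show c ≤ ‖unif K‖
    rw [← hx₀]
    exact hπ.2 x₀ (hx₀ ▸ hc1)

omit [FiniteDimensional K L] [IsGalois K L] in
theorem ramIdx_eq_one_of_unifNorm_eq (h : unifNorm K = unifNorm L) : ramIdx K L = 1 := by
  have hpow := unifNorm_eq_pow K L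
  rw [h] at hpow
  have hpos := ramIdx_pos K L
  by_contra hne
  have h2 : 1 < ramIdx K L := by omega
  have := pow_lt_self_of_lt_one₀ (unifNorm_pos L) (unifNorm_lt_one L) h2
  rw [← hpow] at this
  exact lt_irrefl _ this

end General

section Padic

variable (q : ℕ) [Fact q.Prime]

/-- `E'/ℚ_q` has ramification index `1`: the value group of `E'` is `q^ℤ`. -/
def UnramAt (E' : IntermediateField ℚ_[q] (PadicAlgCl q)) : Prop :=
  ∀ y ∈ E', y ≠ 0 → ∃ n : ℤ, ‖y‖ = (q : ℝ) ^ n

theorem norm_natCast_padicAlgCl : ‖(q : PadicAlgCl q)‖ = (q : ℝ)⁻¹ := by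
  have h : (q : PadicAlgCl q) = algebraMap ℚ_[q] (PadicAlgCl q) (q : ℚ_[q]) := by
    rw [map_natCast]
  rw [h, norm_algebraMap', Padic.norm_p]

variable {q}

theorem UnramAt.exists_inv_zpow {E' : IntermediateField ℚ_[q] (PadicAlgCl q)} (h : UnramAt q E')
    {y : PadicAlgCl q} (hy : y ∈ E') (hy0 : y ≠ 0) : ∃ n : ℤ, ‖y‖ = ((q : ℝ)⁻¹) ^ n := by
  obtain ⟨n, hn⟩ := h y hy hy0
  exact ⟨-n, by rw [hn, inv_zpow', neg_neg]⟩

variable (E' : IntermediateField ℚ_[q] (PadicAlgCl q)) [FiniteDimensional ℚ_[q] E']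

theorem inv_q_pos : (0 : ℝ) < (q : ℝ)⁻¹ :=
  inv_pos.mpr (Nat.cast_pos.mpr (Fact.out : q.Prime).pos)

theorem inv_q_lt_one : ((q : ℝ)⁻¹) < 1 :=
  inv_lt_one_of_one_lt₀ (by exact_mod_cast (Fact.out : q.Prime).one_lt)

theorem unifNorm_eq_of_unramAt (h : UnramAt q E') : unifNorm E' = (q : ℝ)⁻¹ := by
  refine unifNorm_eq_of_forall_norm inv_q_pos inv_q_lt_one (q : E') ?_ ?_
  · exact norm_natCast_padicAlgCl q
  · intro y hy0
    refine h.exists_inv_zpow y.2 ?_
    intro h0
    exact hy0 (Subtype.ext h0)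

omit [FiniteDimensional ℚ_[q] E'] in
theorem unifNorm_intermediate_eq_of_unramAt (h : UnramAt q E') (F : IntermediateField ℚ_[q] E')
    [ProperSpace F] : unifNorm F = (q : ℝ)⁻¹ := by
  refine unifNorm_eq_of_forall_norm inv_q_pos inv_q_lt_one (q : F) ?_ ?_
  · exact norm_natCast_padicAlgCl q
  · intro y hy0
    refine h.exists_inv_zpow (y : E').2 ?_
    intro h0
    exact hy0 (Subtype.ext (Subtype.ext h0))

end Padic

section NormedUnits

variable (L : Type) [NontriviallyNormedField L] [IsUltrametricDist L] [ProperSpace L]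

theorem mem_unitGroup_normedIntegers (x : Lˣ) :
    x ∈ (normedIntegers L).unitGroup ↔ ‖(x : L)‖ = 1 := by
  rw [ValuationSubring.mem_unitGroup_iff]
  constructor
  · intro h
    have h1 : (x : L) ∈ normedIntegers L := by
      rw [← ValuationSubring.valuation_le_one_iff, h]
    have h2 : ((x⁻¹ : Lˣ) : L) ∈ normedIntegers L := by
      rw [← ValuationSubring.valuation_le_one_iff, Units.val_inv_eq_inv_val, map_inv₀, h, inv_one]
    rw [mem_normedIntegers] at h1 h2
    rw [Units.val_inv_eq_inv_val, norm_inv] at h2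
    have hpos : 0 < ‖(x : L)‖ := norm_pos_iff.mpr x.ne_zero
    have h3 : 1 ≤ ‖(x : L)‖ := by
      rw [inv_le_one₀ hpos] at h2
      exact h2
    exact le_antisymm h1 h3
  · intro h
    have h1 : (x : L) ∈ normedIntegers L := by
      rw [mem_normedIntegers, h]
    have h2 : ((x : L))⁻¹ ∈ normedIntegers L := by
      rw [mem_normedIntegers, norm_inv, h, inv_one]
    rw [← ValuationSubring.valuation_le_one_iff] at h1 h2
    rw [map_inv₀] at h2
    have hne : (normedIntegers L).valuation (x : L) ≠ 0 := by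
      rw [Valuation.ne_zero_iff]
      exact x.ne_zero
    have h3 : 1 ≤ (normedIntegers L).valuation (x : L) := by
      rw [inv_le_one₀ (zero_lt_iff.mpr hne)] at h2
      exact h2
    exact le_antisymm h1 h3

end NormedUnits

section Units

variable {q : ℕ} [Fact q.Prime]
variable (E' : IntermediateField ℚ_[q] (PadicAlgCl q)) [FiniteDimensional ℚ_[q] E']
  (τ : GalQq q) (hst : ∀ x ∈ E', τ x ∈ E')

instance properSpace_fixK : ProperSpace (fixK q E' τ hst) :=
  properSpace_of_finiteDimensional _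

theorem isUnramified_fixK (h : UnramAt q E') : IsUnramified (fixK q E' τ hst) E' := by
  apply isUnramified_of_ramIdx_eq_one
  apply ramIdx_eq_one_of_unifNorm_eq
  rw [unifNorm_intermediate_eq_of_unramAt E' h, unifNorm_eq_of_unramAt E' h]

theorem norm_gal_fixK (ρ : E' ≃ₐ[fixK q E' τ hst] E') (x : E') : ‖ρ x‖ = ‖x‖ :=
  norm_algEquiv ℚ_[q] E' (restrK q E' τ hst ρ) x

/-- at an unramified prime every unit of the fixed field is a norm of a unit. -/
theorem hIdxSub_unitGroup_H0 (h : UnramAt q E') :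
    hIdxSub (dHom (sigK q E' τ hst)) (nmHom (fixK q E' τ hst) E')
      (normedIntegers E').unitGroup = 1 := by
  have hσ := sigK_generates q E' τ hst
  unfold hIdxSub
  rw [Subgroup.relIndex_eq_one]
  intro x hx
  obtain ⟨hxU, hxker⟩ := Subgroup.mem_inf.mp hx
  rw [ker_dHom hσ] at hxker
  obtain ⟨u, rfl⟩ := hxker
  rw [mem_unitGroup_normedIntegers] at hxU
  have hu : ‖(u : fixK q E' τ hst)‖ = 1 := hxU
  obtain ⟨y, hy1, hyN⟩ := (isUnramified_fixK E' τ hst h).exists_norm_eq (u : fixK q E' τ hst) hu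
  have hy0 : y ≠ 0 := by
    intro h0
    rw [h0, norm_zero] at hy1
    exact zero_ne_one hy1
  refine ⟨Units.mk0 y hy0, ?_, ?_⟩
  · rw [SetLike.mem_coe, mem_unitGroup_normedIntegers]
    exact hy1
  · apply Units.ext
    rw [coe_nmHom]
    show algebraMap _ _ (Algebra.norm _ y) = algebraMap _ _ (u : fixK q E' τ hst)
    rw [hyN]

/-- at an unramified prime `H¹` of the units vanishes. -/
theorem hIdxSub_unitGroup_H1 (h : UnramAt q E') :
    hIdxSub (nmHom (fixK q E' τ hst) E') (dHom (sigK q E' τ hst))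
      (normedIntegers E').unitGroup = 1 := by
  have hσ := sigK_generates q E' τ hst
  have hG : GalStable (K := fixK q E' τ hst) (normedIntegers E') :=
    galStable_normedIntegers (norm_gal_fixK E' τ hst)
  rw [← (hIdxSub_unitGroup hG hσ).1]
  exact hIdxSub_unitGroup_H0 E' τ hst h

end Units

section Transport

variable {G E : Type*} [CommGroup G] [CommGroup E]

/-- the Herbrand index of the image of a subgroup under an injective equivariant homomorphism. -/
theorem hIdxSub_map (j : E →* G) (hj : Function.Injective j) (f g : G →* G) (fE gE : E →* E)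
    (hf : ∀ x, j (fE x) = f (j x)) (hg : ∀ x, j (gE x) = g (j x)) (B : Subgroup E) :
    hIdxSub f g (B.map j) = hIdxSub fE gE B := by
  unfold hIdxSub
  have h1 : (B.map j).map g = (B.map gE).map j := by
    ext y
    constructor
    · rintro ⟨_, ⟨x, hx, rfl⟩, rfl⟩
      exact ⟨gE x, ⟨x, hx, rfl⟩, hg x⟩
    · rintro ⟨_, ⟨x, hx, rfl⟩, rfl⟩
      exact ⟨j x, ⟨x, hx, rfl⟩, (hg x).symm⟩
  have h2 : B.map j ⊓ f.ker = (B ⊓ fE.ker).map j := by
    ext y
    constructor
    · rintro ⟨⟨x, hx, rfl⟩, hy⟩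
      refine ⟨x, ⟨hx, ?_⟩, rfl⟩
      apply MonoidHom.mem_ker.mpr
      apply hj
      rw [hf, map_one]
      exact hy
    · rintro ⟨x, ⟨hx, hx'⟩, rfl⟩
      refine ⟨⟨x, hx, rfl⟩, ?_⟩
      have hx'' : fE x = 1 := MonoidHom.mem_ker.mp hx'
      show f (j x) = 1
      rw [← hf, hx'', map_one]
  rw [h1, h2, Subgroup.relIndex_map_map_of_injective _ _ hj]

end Transport

section Final

variable (q : ℕ) [Fact q.Prime]

/-- the units of norm one of `ℚ̄_q` lying in an intermediate field. -/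
def intUnitsOf (E' : IntermediateField ℚ_[q] (PadicAlgCl q)) : Subgroup (PadicAlgCl q)ˣ where
  carrier := {a | (a : PadicAlgCl q) ∈ E' ∧ ‖(a : PadicAlgCl q)‖ = 1}
  one_mem' := ⟨E'.one_mem, by simp⟩
  mul_mem' := fun {a b} ha hb => ⟨E'.mul_mem ha.1 hb.1, by
    rw [Units.val_mul, norm_mul, ha.2, hb.2, mul_one]⟩
  inv_mem' := fun {a} ha => ⟨by
    rw [Units.val_inv_eq_inv_val]
    exact E'.inv_mem ha.1, by
    rw [Units.val_inv_eq_inv_val, norm_inv, ha.2, inv_one]⟩

theorem mem_intUnitsOf {E' : IntermediateField ℚ_[q] (PadicAlgCl q)} {a : (PadicAlgCl q)ˣ} :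
    a ∈ intUnitsOf q E' ↔ (a : PadicAlgCl q) ∈ E' ∧ ‖(a : PadicAlgCl q)‖ = 1 := Iff.rfl

variable (E' : IntermediateField ℚ_[q] (PadicAlgCl q)) [FiniteDimensional ℚ_[q] E']

theorem map_unitGroup_unitsIncl :
    (normedIntegers E').unitGroup.map (unitsIncl q E') = intUnitsOf q E' := by
  ext a
  rw [mem_intUnitsOf]
  constructor
  · rintro ⟨x, hx, rfl⟩
    rw [SetLike.mem_coe, mem_unitGroup_normedIntegers] at hx
    exact ⟨(x : E').2, hx⟩
  · rintro ⟨ha, ha1⟩
    have hmem : a ∈ (unitsIncl q E').range := by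
      rw [range_unitsIncl]
      exact ha
    obtain ⟨x, rfl⟩ := hmem
    refine ⟨x, ?_, rfl⟩
    rw [SetLike.mem_coe, mem_unitGroup_normedIntegers]
    exact ha1

/-- **Local units at an unramified prime are acyclic** for a cyclic group of prime order. -/
theorem unitsAcyclic_local (p : ℕ) [Fact p.Prime] (τ : GalQq q) (hst : ∀ x ∈ E', τ x ∈ E')
    (hpow : ∀ x ∈ E', (τ ^ p) x = x) (hne : ∃ x ∈ E', τ x ≠ x) (h : UnramAt q E') :
    hIdxSub (dOp (rhoQ q τ).toMonoidHom) (nOp p (rhoQ q τ).toMonoidHom) (intUnitsOf q E') = 1 ∧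
    hIdxSub (nOp p (rhoQ q τ).toMonoidHom) (dOp (rhoQ q τ).toMonoidHom) (intUnitsOf q E') = 1 := by
  have hd := unitsIncl_dHom q E' τ hst
  have hn := unitsIncl_nmHom q E' τ hst p hpow hne
  rw [← map_unitGroup_unitsIncl]
  constructor
  · rw [hIdxSub_map (unitsIncl q E') (unitsIncl_injective q E') _ _ (dHom (sigK q E' τ hst))
      (nmHom (fixK q E' τ hst) E') hd hn]
    exact hIdxSub_unitGroup_H0 E' τ hst h
  · rw [hIdxSub_map (unitsIncl q E') (unitsIncl_injective q E') _ _ (nmHom (fixK q E' τ hst) E')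
      (dHom (sigK q E' τ hst)) hn hd]
    exact hIdxSub_unitGroup_H1 E' τ hst h

theorem unifNorm_padic : unifNorm ℚ_[q] = (q : ℝ)⁻¹ := by
  refine unifNorm_eq_of_forall_norm inv_q_pos inv_q_lt_one (q : ℚ_[q]) Padic.norm_p ?_
  intro y hy0
  refine ⟨y.valuation, ?_⟩
  rw [Padic.norm_eq_zpow_neg_valuation hy0, inv_zpow', ]

/-- helper3's `IsUnramified ℚ_q E'` (for `E'/ℚ_q` Galois) implies `UnramAt q E'`. -/
theorem unramAt_of_isUnramified [IsGalois ℚ_[q] E'] (h : IsUnramified ℚ_[q] E') :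
    UnramAt q E' := by
  intro y hy hy0
  have hy0' : (⟨y, hy⟩ : E') ≠ 0 := fun h0 => hy0 (congrArg Subtype.val h0)
  have h1 := norm_eq_zpow_ord (K := E') hy0'
  rw [h.unifNorm_eq, unifNorm_padic] at h1
  refine ⟨-ord E' (⟨y, hy⟩ : E'), ?_⟩
  rw [zpow_neg, ← inv_zpow]
  exact h1

end Final

end Fermat.Agent.S55lib.FirstIneq
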