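/-
S55 sprint, block (IV) FIRST INEQUALITY (helper2).  File 19: the local units at an unramified prime,
for an ARBITRARY automorphism `c` of a finite extension `E` of `ℚ_q` (any order): with
`n = orderOf c` and `U_E` the units of norm one,
`c u = u ⇒ u = ∏_{i<n} c^i w` and `∏_{i<n} c^i u = 1 ⇒ u = c w / w`, `w ∈ U_E`
(the two elementwise facts needed for the cohomological triviality of `U_E`, helper5's (H-b)).
-/
import Mathlib
import Fermat.Agent.S55lib.FirstIneq.UnitsLocal

set_option autoImplicit false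

namespace Fermat.Agent.S55lib.FirstIneq

open Fermat.Agent.S55lib.LocalH Fermat.Agent.S55lib.LocalUnr IntermediateField

section Generator

variable {K L : Type} [Field K] [Field L] [Algebra K L] [FiniteDimensional K L] [IsGalois K L]

/-- the norm as the product over the powers of a generator. -/
theorem nmHom_eq_nOp {σ : L ≃ₐ[K] L} (hσ : ∀ τ : L ≃ₐ[K] L, τ ∈ Subgroup.zpowers σ) :
    nmHom K L = nOp (orderOf σ) (unitsAut σ) := by
  classical
  refine MonoidHom.ext fun x => ?_
  rw [nmHom_apply, nOp_apply]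
  have hinj : Set.InjOn (fun i : ℕ => σ ^ i) (Finset.range (orderOf σ) : Set ℕ) := by
    intro i hi j hj hij
    exact pow_injOn_Iio_orderOf (Finset.mem_range.mp hi) (Finset.mem_range.mp hj) hij
  have himg : (Finset.range (orderOf σ)).image (fun i : ℕ => σ ^ i) = Finset.univ := by
    apply Finset.eq_univ_of_card
    rw [Finset.card_image_of_injOn hinj, Finset.card_range, ← Nat.card_eq_fintype_card,
      orderOf_eq_card_of_forall_mem_zpowers hσ]
  rw [← himg, Finset.prod_image hinj]
  have hpow : ∀ (i : ℕ) (y : Lˣ), unitsAut (σ ^ i) y = ((unitsAut σ)^[i]) y := by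
    intro i
    induction i with
    | zero => intro y; rfl
    | succ i ih =>
      intro y
      rw [Function.iterate_succ_apply, ← ih, pow_succ]
      rfl
  exact Finset.prod_congr rfl fun i _ => hpow i x

end Generator

section LocalUnits

variable {q : ℕ} [Fact q.Prime]
variable (E : IntermediateField ℚ_[q] (PadicAlgCl q)) [FiniteDimensional ℚ_[q] E]

/-- every automorphism of a normal finite extension of `ℚ_q` inside `ℚ̄_q` is the restriction of an
element of `G_q`. -/
theorem exists_resAut_eq [Normal ℚ_[q] E] (c : E ≃ₐ[ℚ_[q]] E) :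
    ∃ (τ : GalQq q) (hst : ∀ x ∈ E, τ x ∈ E), resAut q E τ hst = c := by
  have hcomm : ∀ x : E, (c.liftNormal (PadicAlgCl q)) (x : PadicAlgCl q) = ((c x : E) : PadicAlgCl q) :=
    fun x => c.liftNormal_commutes (PadicAlgCl q) x
  refine ⟨c.liftNormal (PadicAlgCl q), ?_, ?_⟩
  · intro x hx
    rw [hcomm ⟨x, hx⟩]
    exact (c ⟨x, hx⟩).2
  · refine AlgEquiv.ext fun x => Subtype.ext ?_
    rw [coe_resAut_apply]
    exact hcomm x

/-- a finite Galois extension of `ℚ_q` which is unramified (all norms powers of `q`) has cyclic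
Galois group. -/
theorem isCyclic_of_unramAt [IsGalois ℚ_[q] E] (h : UnramAt q E) : IsCyclic (E ≃ₐ[ℚ_[q]] E) := by
  have h1 : IsUnramified ℚ_[q] E := by
    apply isUnramified_of_ramIdx_eq_one
    apply ramIdx_eq_one_of_unifNorm_eq
    rw [unifNorm_padic, unifNorm_eq_of_unramAt E h]
  exact h1.isCyclic

variable (τ : GalQq q) (hst : ∀ x ∈ E, τ x ∈ E)

theorem unitsAut_sigK : unitsAut (sigK q E τ hst) = unitsAut (resAut q E τ hst) := rfl

theorem orderOf_sigK_eq : orderOf (sigK q E τ hst) = orderOf (resAut q E τ hst) := by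
  rw [← restrK_sigK q E τ hst]
  exact (orderOf_injective (restrK q E τ hst) (restrK_injective q E τ hst) _).symm

theorem dHom_sigK : dHom (sigK q E τ hst) = dOp (unitsAut (resAut q E τ hst)) := rfl

theorem nmHom_fixK : nmHom (fixK q E τ hst) E =
    nOp (orderOf (resAut q E τ hst)) (unitsAut (resAut q E τ hst)) := by
  rw [nmHom_eq_nOp (sigK_generates q E τ hst), orderOf_sigK_eq, unitsAut_sigK]

end LocalUnits

section Elementwise

variable {q : ℕ} [Fact q.Prime]
variable (E : IntermediateField ℚ_[q] (PadicAlgCl q)) [FiniteDimensional ℚ_[q] E] [Normal ℚ_[q] E]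

/-- **`Ĥ⁰` of the local units at an unramified prime vanishes, elementwise**: a unit fixed by `c`
is the `⟨c⟩`-norm of a unit. -/
theorem exists_unit_nOp_eq (h : UnramAt q E) (c : E ≃ₐ[ℚ_[q]] E) (u : (E)ˣ) (hu : ‖(u : E)‖ = 1)
    (hcu : unitsAut c u = u) :
    ∃ w : (E)ˣ, ‖(w : E)‖ = 1 ∧ nOp (orderOf c) (unitsAut c) w = u := by
  obtain ⟨τ, hst, rfl⟩ := exists_resAut_eq E c
  have h0 := hIdxSub_unitGroup_H0 E τ hst h
  unfold hIdxSub at h0
  rw [Subgroup.relIndex_eq_one] at h0
  have hmem : u ∈ (normedIntegers E).unitGroup ⊓ (dHom (sigK q E τ hst)).ker := by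
    refine Subgroup.mem_inf.mpr ⟨(mem_unitGroup_normedIntegers E u).mpr hu, ?_⟩
    rw [MonoidHom.mem_ker, dHom_sigK, dOp_apply, hcu, div_self']
  obtain ⟨w, hw, hwu⟩ := h0 hmem
  refine ⟨w, (mem_unitGroup_normedIntegers E w).mp hw, ?_⟩
  rw [← nmHom_fixK]
  exact hwu

/-- **`H¹` of the local units at an unramified prime vanishes, elementwise**: a unit of
`⟨c⟩`-norm one is `c w / w` for a unit `w`. -/
theorem exists_unit_dOp_eq (h : UnramAt q E) (c : E ≃ₐ[ℚ_[q]] E) (u : (E)ˣ) (hu : ‖(u : E)‖ = 1)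
    (hN : nOp (orderOf c) (unitsAut c) u = 1) :
    ∃ w : (E)ˣ, ‖(w : E)‖ = 1 ∧ unitsAut c w / w = u := by
  obtain ⟨τ, hst, rfl⟩ := exists_resAut_eq E c
  have h1 := hIdxSub_unitGroup_H1 E τ hst h
  unfold hIdxSub at h1
  rw [Subgroup.relIndex_eq_one] at h1
  have hmem : u ∈ (normedIntegers E).unitGroup ⊓ (nmHom (fixK q E τ hst) E).ker := by
    refine Subgroup.mem_inf.mpr ⟨(mem_unitGroup_normedIntegers E u).mpr hu, ?_⟩
    rw [MonoidHom.mem_ker, nmHom_fixK]
    exact hN
  obtain ⟨w, hw, hwu⟩ := h1 hmem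
  exact ⟨w, (mem_unitGroup_normedIntegers E w).mp hw, hwu⟩

end Elementwise

end Fermat.Agent.S55lib.FirstIneq
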