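/-
S55 sprint, block (IV) FIRST INEQUALITY (helper2).  File 20: the local units at an unramified prime
in the form needed for their cohomological triviality (helper5's (H-b)): on `Dev.fieldUnits E`
(the units of norm one of a finite normal `E/ℚ_q` inside `ℚ̄_q`, all of whose norms are powers of
`q`), for every automorphism `c` of `E`:
`∏_{i<ord c} c^i • u = 1 ⇒ u = c • w / w`, and `c • u = u ⇒ u = ∏_{i<ord c} c^i • w`.
-/
import Mathlib
import Fermat.Agent.S55lib.FirstIneq.UnitsCyclic
import Fermat.Agent.S55lib.Dev.UnitsShapiro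

set_option autoImplicit false

namespace Fermat.Agent.S55lib.FirstIneq

open Fermat.Agent.S55lib.LocalH Fermat.Agent.S55lib.LocalUnr IntermediateField
open Fermat.Agent.S55lib.Dev

section Generic

variable {G A : Type*} [Group G] [CommGroup A] [MulDistribMulAction G A]

/-- the product over a finite cyclic subgroup as a product over the powers of a generator. -/
theorem prod_subgroup_smul_eq_prod_range (D' : Subgroup G) [Fintype D'] (c : G) (hc : c ∈ D')
    (hgen : ∀ h ∈ D', h ∈ Subgroup.zpowers c) (u : A) :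
    ∏ h : D', (h : G) • u = ∏ i ∈ Finset.range (orderOf c), c ^ i • u := by
  classical
  have hinj : Set.InjOn (fun i : ℕ => (⟨c ^ i, pow_mem hc i⟩ : D'))
      (Finset.range (orderOf c) : Set ℕ) := by
    intro i hi j hj hij
    exact pow_injOn_Iio_orderOf (Finset.mem_range.mp hi) (Finset.mem_range.mp hj)
      (congrArg Subtype.val hij)
  have hD : D' = Subgroup.zpowers c := by
    apply le_antisymm
    · exact fun h hh => hgen h hh
    · rw [Subgroup.zpowers_le]
      exact hc
  have hcard : Fintype.card D' = orderOf c := by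
    rw [← Nat.card_eq_fintype_card, hD, Nat.card_zpowers]
  have himg : (Finset.range (orderOf c)).image (fun i : ℕ => (⟨c ^ i, pow_mem hc i⟩ : D')) =
      Finset.univ := by
    apply Finset.eq_univ_of_card
    rw [Finset.card_image_of_injOn hinj, Finset.card_range, hcard]
  rw [← himg, Finset.prod_image hinj]

end Generic

section FieldUnits

variable {q : ℕ} [Fact q.Prime]
variable (E : IntermediateField ℚ_[q] (PadicAlgCl q)) [FiniteDimensional ℚ_[q] E] [Normal ℚ_[q] E]

omit [FiniteDimensional ℚ_[q] E] in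
theorem coe_smul_fieldUnits (c : E ≃ₐ[ℚ_[q]] E) (u : fieldUnits E) :
    ((c • u : fieldUnits E) : (E)ˣ) = unitsAut c (u : (E)ˣ) := rfl

omit [FiniteDimensional ℚ_[q] E] [Normal ℚ_[q] E] in
theorem unitsAut_pow_apply (c : E ≃ₐ[ℚ_[q]] E) (i : ℕ) (y : (E)ˣ) :
    unitsAut (c ^ i) y = ((unitsAut c)^[i]) y := by
  induction i generalizing y with
  | zero => rfl
  | succ i ih =>
    rw [Function.iterate_succ_apply, ← ih, pow_succ]
    rfl

omit [FiniteDimensional ℚ_[q] E] in
theorem coe_prod_smul_fieldUnits (c : E ≃ₐ[ℚ_[q]] E) (n : ℕ) (u : fieldUnits E) :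
    ((∏ i ∈ Finset.range n, c ^ i • u : fieldUnits E) : (E)ˣ) =
      nOp n (unitsAut c) (u : (E)ˣ) := by
  rw [nOp_apply, SubmonoidClass.coe_finsetProd]
  exact Finset.prod_congr rfl fun i _ => unitsAut_pow_apply E c i _

/-- **`H¹` of the local units vanishes** (elementwise, on `Dev.fieldUnits`). -/
theorem fieldUnits_exists_smul_div_eq (hE : UnramAt q E) (c : E ≃ₐ[ℚ_[q]] E) (u : fieldUnits E)
    (hN : ∏ i ∈ Finset.range (orderOf c), c ^ i • u = 1) :
    ∃ w : fieldUnits E, c • w / w = u := by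
  have hu : ‖((u : (E)ˣ) : E)‖ = 1 := u.2
  have hN' : nOp (orderOf c) (unitsAut c) (u : (E)ˣ) = 1 := by
    rw [← coe_prod_smul_fieldUnits, hN]
    rfl
  obtain ⟨w, hw, hwu⟩ := exists_unit_dOp_eq E hE c u hu hN'
  exact ⟨⟨w, hw⟩, Subtype.ext hwu⟩

/-- **`Ĥ⁰` of the local units vanishes** (elementwise, on `Dev.fieldUnits`). -/
theorem fieldUnits_exists_prod_smul_eq (hE : UnramAt q E) (c : E ≃ₐ[ℚ_[q]] E) (u : fieldUnits E)
    (hcu : c • u = u) :
    ∃ w : fieldUnits E, ∏ i ∈ Finset.range (orderOf c), c ^ i • w = u := by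
  have hu : ‖((u : (E)ˣ) : E)‖ = 1 := u.2
  have hcu' : unitsAut c (u : (E)ˣ) = u := congrArg Subtype.val hcu
  obtain ⟨w, hw, hwu⟩ := exists_unit_nOp_eq E hE c u hu hcu'
  refine ⟨⟨w, hw⟩, Subtype.ext ?_⟩
  rw [coe_prod_smul_fieldUnits]
  exact hwu

/-- the Galois group of `E/ℚ_q` is cyclic when `E` is unramified. -/
theorem isCyclic_aut_of_unramAt (hE : UnramAt q E) : IsCyclic (E ≃ₐ[ℚ_[q]] E) := by
  have : IsGalois ℚ_[q] E := IsGalois.mk
  exact isCyclic_of_unramAt E hE

end FieldUnits

end Fermat.Agent.S55lib.FirstIneq
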