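/-
S55 sprint, block (IV) FIRST INEQUALITY (helper2).  File 13: the local hypothesis `LocalCyclic q p`
of `first_inequality_Jq` is a THEOREM: for a finite extension `E'` of `ℚ_q` inside `ℚ̄_q` and
`τ ∈ G_q` inducing an automorphism of prime order `p` of `E'`, with `K := E'^τ`:
`[Kˣ : N E'ˣ] = p` (helper6's `normed_relIndex_range_nmHom`, on helper3's normed local field
instances for `E'`) and Hilbert 90 (`ker_nmHom`), transported to `(ℚ̄_q)ˣ` by `hIdxSub_range`.
-/
import Mathlib
import Fermat.Agent.S55lib.FirstIneq.Inst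
import Fermat.Agent.S55lib.LocalH.Normed
import Fermat.Agent.S55lib.LocalUnr.Padic

set_option autoImplicit false

namespace Fermat.Agent.S55lib.FirstIneq

open Fermat.Agent.S55lib.LocalH Fermat.Agent.S55lib.LocalUnr IntermediateField

variable (q : ℕ) [Fact q.Prime]

section Restriction

variable (E' : IntermediateField ℚ_[q] (PadicAlgCl q)) [FiniteDimensional ℚ_[q] E']
  (τ : GalQq q) (hst : ∀ x ∈ E', τ x ∈ E')

/-- the restriction of `τ ∈ G_q` to a `τ`-stable finite extension `E'` of `ℚ_q`. -/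
noncomputable def resAut : E' ≃ₐ[ℚ_[q]] E' :=
  AlgEquiv.ofBijective
    (((τ : PadicAlgCl q →ₐ[ℚ_[q]] PadicAlgCl q).comp E'.val).codRestrict E'.toSubalgebra
      (fun x => hst x x.2))
    (AlgHom.bijective _)

theorem coe_resAut_apply (x : E') : ((resAut q E' τ hst x : E') : PadicAlgCl q) = τ x := rfl

theorem coe_resAut_pow_apply (i : ℕ) (x : E') :
    (((resAut q E' τ hst ^ i) x : E') : PadicAlgCl q) = (τ ^ i) x := by
  induction i generalizing x with
  | zero => rfl
  | succ i ih =>
    rw [pow_succ, pow_succ, AlgEquiv.mul_apply, AlgEquiv.mul_apply, ih, coe_resAut_apply]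

end Restriction

section Cyclic

variable (E' : IntermediateField ℚ_[q] (PadicAlgCl q)) [FiniteDimensional ℚ_[q] E']
  (τ : GalQq q) (hst : ∀ x ∈ E', τ x ∈ E')

/-- the fixed field of the restriction of `τ` to `E'`. -/
noncomputable def fixK : IntermediateField ℚ_[q] E' :=
  fixedField (Subgroup.zpowers (resAut q E' τ hst))

instance fixK_isGalois : IsGalois (fixK q E' τ hst) E' :=
  IsGalois.of_fixed_field E' (Subgroup.zpowers (resAut q E' τ hst))

/-- the restriction of `τ` as an automorphism of `E'` over its fixed field. -/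
noncomputable def sigK : E' ≃ₐ[fixK q E' τ hst] E' :=
  { (resAut q E' τ hst).toRingEquiv with
    commutes' := fun k => by
      have hk : (k : E') ∈ fixedField (Subgroup.zpowers (resAut q E' τ hst)) := k.2
      rw [mem_fixedField_iff] at hk
      exact hk _ (Subgroup.mem_zpowers _) }

theorem sigK_apply (x : E') : sigK q E' τ hst x = resAut q E' τ hst x := rfl

/-- restriction of scalars from the fixed field, as a group homomorphism. -/
noncomputable def restrK : (E' ≃ₐ[fixK q E' τ hst] E') →* (E' ≃ₐ[ℚ_[q]] E') :=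
  MonoidHom.mk' (fun ρ => ρ.restrictScalars ℚ_[q]) (fun _ _ => rfl)

theorem restrK_apply (ρ : E' ≃ₐ[fixK q E' τ hst] E') (x : E') : restrK q E' τ hst ρ x = ρ x := rfl

theorem restrK_injective : Function.Injective (restrK q E' τ hst) := by
  intro a b hab
  refine AlgEquiv.ext fun x => ?_
  have := congrArg (fun ρ : E' ≃ₐ[ℚ_[q]] E' => ρ x) hab
  exact this

theorem restrK_sigK : restrK q E' τ hst (sigK q E' τ hst) = resAut q E' τ hst :=
  AlgEquiv.ext fun _ => rfl

theorem sigK_generates (ρ : E' ≃ₐ[fixK q E' τ hst] E') :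
    ρ ∈ Subgroup.zpowers (sigK q E' τ hst) := by
  have h1 : restrK q E' τ hst ρ ∈ (fixK q E' τ hst).fixingSubgroup := by
    rw [IntermediateField.mem_fixingSubgroup_iff]
    intro x hx
    exact ρ.commutes ⟨x, hx⟩
  unfold fixK at h1
  rw [fixingSubgroup_fixedField] at h1
  obtain ⟨k, hk⟩ := Subgroup.mem_zpowers_iff.mp h1
  refine Subgroup.mem_zpowers_iff.mpr ⟨k, ?_⟩
  apply restrK_injective
  rw [map_zpow, restrK_sigK]
  exact hk

section Order

variable (p : ℕ)

theorem sigK_pow (hpow : ∀ x ∈ E', (τ ^ p) x = x) : sigK q E' τ hst ^ p = 1 := by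
  apply restrK_injective
  rw [map_pow, restrK_sigK, map_one]
  refine AlgEquiv.ext fun x => Subtype.ext ?_
  rw [coe_resAut_pow_apply]
  exact hpow x x.2

theorem sigK_ne_one (hne : ∃ x ∈ E', τ x ≠ x) : sigK q E' τ hst ≠ 1 := by
  obtain ⟨x, hx, hx'⟩ := hne
  intro h
  apply hx'
  have := congrArg
    (fun ρ : E' ≃ₐ[fixK q E' τ hst] E' => ((ρ ⟨x, hx⟩ : E') : PadicAlgCl q)) h
  exact this

theorem orderOf_sigK [hp : Fact p.Prime] (hpow : ∀ x ∈ E', (τ ^ p) x = x)
    (hne : ∃ x ∈ E', τ x ≠ x) : orderOf (sigK q E' τ hst) = p :=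
  orderOf_eq_prime (sigK_pow q E' τ hst p hpow) (sigK_ne_one q E' τ hst hne)

theorem card_galK [hp : Fact p.Prime] (hpow : ∀ x ∈ E', (τ ^ p) x = x) (hne : ∃ x ∈ E', τ x ≠ x) :
    Nat.card (E' ≃ₐ[fixK q E' τ hst] E') = p := by
  rw [← orderOf_eq_card_of_forall_mem_zpowers (sigK_generates q E' τ hst),
    orderOf_sigK q E' τ hst p hpow hne]

end Order

end Cyclic

section Transfer

variable (E' : IntermediateField ℚ_[q] (PadicAlgCl q))

/-- the inclusion `E'ˣ → (ℚ̄_q)ˣ`. -/
noncomputable def unitsIncl : (E')ˣ →* (PadicAlgCl q)ˣ :=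
  Units.map ((E'.val : E' →+* PadicAlgCl q) : E' →* PadicAlgCl q)

theorem coe_unitsIncl (x : (E')ˣ) :
    ((unitsIncl q E' x : (PadicAlgCl q)ˣ) : PadicAlgCl q) = ((x : E') : PadicAlgCl q) := rfl

theorem unitsIncl_injective : Function.Injective (unitsIncl q E') := by
  intro a b hab
  apply Units.ext
  apply Subtype.ext
  have := congrArg (fun u : (PadicAlgCl q)ˣ => (u : PadicAlgCl q)) hab
  exact this

theorem range_unitsIncl : (unitsIncl q E').range = unitsOf q E' := by
  ext a
  rw [mem_unitsOf]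
  constructor
  · rintro ⟨x, rfl⟩
    rw [coe_unitsIncl]
    exact (x : E').2
  · intro ha
    have h0 : (⟨(a : PadicAlgCl q), ha⟩ : E') ≠ 0 := by
      intro h
      have := congrArg (fun y : E' => (y : PadicAlgCl q)) h
      exact a.ne_zero this
    refine ⟨Units.mk0 ⟨(a : PadicAlgCl q), ha⟩ h0, ?_⟩
    apply Units.ext
    rfl

end Transfer

section Main

variable (E' : IntermediateField ℚ_[q] (PadicAlgCl q)) [FiniteDimensional ℚ_[q] E']
  (τ : GalQq q) (hst : ∀ x ∈ E', τ x ∈ E')

theorem unitsIncl_unitsAut_pow (i : ℕ) (x : (E')ˣ) :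
    unitsIncl q E' (unitsAut (sigK q E' τ hst ^ i) x) =
      ((rhoQ q τ).toMonoidHom^[i]) (unitsIncl q E' x) := by
  induction i generalizing x with
  | zero => rfl
  | succ i ih =>
    rw [Function.iterate_succ_apply, pow_succ]
    have h1 : unitsAut (sigK q E' τ hst ^ i * sigK q E' τ hst) x =
        unitsAut (sigK q E' τ hst ^ i) (unitsAut (sigK q E' τ hst) x) := rfl
    rw [h1, ih]
    rfl

theorem unitsIncl_dHom (x : (E')ˣ) :
    unitsIncl q E' (dHom (sigK q E' τ hst) x) =
      dOp (rhoQ q τ).toMonoidHom (unitsIncl q E' x) := by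
  rw [dHom_apply, map_div, dOp_apply]
  rfl

theorem unitsIncl_nmHom (p : ℕ) [Fact p.Prime] (hpow : ∀ x ∈ E', (τ ^ p) x = x)
    (hne : ∃ x ∈ E', τ x ≠ x) (x : (E')ˣ) :
    unitsIncl q E' (nmHom (fixK q E' τ hst) E' x) =
      nOp p (rhoQ q τ).toMonoidHom (unitsIncl q E' x) := by
  classical
  rw [nmHom_apply, nOp_apply, map_prod]
  have hinj : Set.InjOn (fun i : ℕ => sigK q E' τ hst ^ i) (Finset.range p : Set ℕ) := by
    intro i hi j hj hij
    have hi' : i < orderOf (sigK q E' τ hst) := by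
      rw [orderOf_sigK q E' τ hst p hpow hne]
      exact Finset.mem_range.mp hi
    have hj' : j < orderOf (sigK q E' τ hst) := by
      rw [orderOf_sigK q E' τ hst p hpow hne]
      exact Finset.mem_range.mp hj
    exact pow_injOn_Iio_orderOf hi' hj' hij
  have himg : (Finset.range p).image (fun i : ℕ => sigK q E' τ hst ^ i) = Finset.univ := by
    apply Finset.eq_univ_of_card
    rw [Finset.card_image_of_injOn hinj, Finset.card_range, ← Nat.card_eq_fintype_card,
      card_galK q E' τ hst p hpow hne]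
  rw [← himg, Finset.prod_image hinj]
  exact Finset.prod_congr rfl fun i _ => unitsIncl_unitsAut_pow q E' τ hst i x

end Main

/-- **The local hypothesis of `first_inequality_Jq` holds**: for a finite extension `E'` of
`ℚ_q` in `ℚ̄_q` and `τ ∈ G_q` inducing an automorphism of prime order `p` of `E'`,
`[(E'^τ)ˣ : N E'ˣ] = p` and `ker N = im (τ - 1)` on `E'ˣ`. -/
theorem localCyclic (p : ℕ) [Fact p.Prime] : LocalCyclic q p := by
  intro E' τ hfd hst hpow hne
  have := hfd
  have hσ := sigK_generates q E' τ hst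
  have hd := unitsIncl_dHom q E' τ hst
  have hn := unitsIncl_nmHom q E' τ hst p hpow hne
  have hnorm : ∀ (ρ : E' ≃ₐ[fixK q E' τ hst] E') (x : E'), ‖ρ x‖ = ‖x‖ := fun ρ x =>
    norm_algEquiv ℚ_[q] E' (restrK q E' τ hst ρ) x
  rw [← range_unitsIncl]
  constructor
  · rw [hIdxSub_range (unitsIncl q E') (unitsIncl_injective q E') (dHom (sigK q E' τ hst))
      (nmHom (fixK q E' τ hst) E') hd hn]
    unfold hIdx
    rw [ker_dHom hσ, normed_relIndex_range_nmHom hnorm hσ, ← Nat.card_eq_fintype_card,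
      card_galK q E' τ hst p hpow hne]
  · rw [hIdxSub_range (unitsIncl q E') (unitsIncl_injective q E') (nmHom (fixK q E' τ hst) E')
      (dHom (sigK q E' τ hst)) hn hd]
    exact hIdx_nmHom_dHom hσ

section Global

open Module IsDedekindDomain GSet NumberField

variable {ι : Type*} [Fintype ι] (qq : ι → ℕ) [∀ i, Fact (qq i).Prime]
variable {K L : Type*} [Field K] [NumberField K] [Field L] [NumberField L] [Algebra K L]
variable {T : Finset (HeightOneSpectrum (𝓞 K))} {TL : Finset (HeightOneSpectrum (𝓞 L))}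

set_option maxHeartbeats 1600000 in
/-- **The first inequality in the intrinsic semilocal model, local input discharged**: only the
orbit count `hcount` (see `Count.count_of_placeDict`) remains as a hypothesis. -/
theorem first_inequality_Jq_of_count [Nonempty ι] [IsGalois K L] (p : ℕ) [hp : Fact p.Prime]
    (hp2 : p ≠ 2) (hdeg : finrank K L = p) (hTL : IsAbove T TL) (σ : L ≃ₐ[K] L)
    (hσ : ∀ τ : L ≃ₐ[K] L, τ ∈ Subgroup.zpowers σ)
    (hcount : ∑ i, Nat.card (FixO (D := GalQq (qq i)) (X := Emb (qq i) L)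
      (sEmb (qq i) L (autToQ K σ))) = nonsplitCount T TL) :
    hIdxQuot (dOp (sigmaJ qq (autToQ K σ))) (nOp p (sigmaJ qq (autToQ K σ)))
        (unitsToJ qq TL).range =
      p * hIdxQuot (nOp p (sigmaJ qq (autToQ K σ))) (dOp (sigmaJ qq (autToQ K σ)))
        (unitsToJ qq TL).range ∧
    hIdxQuot (dOp (sigmaJ qq (autToQ K σ))) (nOp p (sigmaJ qq (autToQ K σ)))
        (unitsToJ qq TL).range ≠ 0 ∧
    hIdxQuot (nOp p (sigmaJ qq (autToQ K σ))) (dOp (sigmaJ qq (autToQ K σ)))
        (unitsToJ qq TL).range ≠ 0 :=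
  first_inequality_Jq qq p hp2 hdeg hTL σ hσ (fun i => localCyclic (qq i) p) hcount

end Global

end Fermat.Agent.S55lib.FirstIneq
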