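/-
S55 sprint, block (IV) FIRST INEQUALITY (helper2).  File 4: the abstract first inequality.

On top of helper6's index form of the exact hexagon (`LocalH.hIdx_mul`):
for a commutative group `J` with commuting endomorphisms `D` ("`σ - 1`") and `N` ("norm"),
`D ∘ N = N ∘ D = 1`, and a stable subgroup `B` ("the `T`-units inside the `T`-ideles"):
if `#Ĥ⁰(J) = p ^ u`, `#H¹(J) = 1` and `#H¹(B) · p ^ u = #Ĥ⁰(B) · p` (both finite), then
`#Ĥ⁰(J/B) = p · #H¹(J/B)` and both are finite.

Also the dictionary between the multiplicative operators `dOp s = s / 1`, `nOp p s = ∏_{i<p} s^i`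
and the additive `ℤ`-linear ones used by `ExtVan.herbrand_prime`.
-/
import Mathlib
import Fermat.Agent.S55lib.LocalH.Herbrand
import Fermat.Agent.ExtVan.HerbrandPrime

set_option autoImplicit false

namespace Fermat.Agent.S55lib.FirstIneq

open Fermat.Agent.S55lib.LocalH

section Abstract

variable {G : Type*} [CommGroup G] {f g : G →* G} {B : Subgroup G}

/-- finiteness of the Herbrand index of the quotient from the one of the group and of the
subgroup (the piece `Ĥ(G) → Ĥ(G/B) → Ĥ'(B)` of the hexagon). -/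
theorem hIdxQuot_ne_zero (hfg : ∀ x, f (g x) = 1) (hgf : ∀ x, g (f x) = 1)
    (hfB : ∀ b ∈ B, f b ∈ B) (h1 : hIdx f g ≠ 0) (h2 : hIdxSub g f B ≠ 0) :
    hIdxQuot f g B ≠ 0 := by
  rw [hIdxQuot_eq hfg hfB]
  rw [hIdx_eq (B := B) hfg] at h1
  rw [hIdxSub_eq hgf hfB] at h2
  exact mul_ne_zero (right_ne_zero_of_mul h1) (left_ne_zero_of_mul h2)

/-- **The abstract first inequality.**  `f = σ - 1`, `g = N`. -/
theorem first_inequality_abstract (p u : ℕ) (hfg : ∀ x, f (g x) = 1) (hgf : ∀ x, g (f x) = 1)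
    (hfB : ∀ b ∈ B, f b ∈ B) (hgB : ∀ b ∈ B, g b ∈ B)
    (hJ0 : hIdx f g = p ^ u) (hp : p ≠ 0) (hJ1 : hIdx g f = 1)
    (hE : hIdxSub g f B * p ^ u = hIdxSub f g B * p)
    (hE1 : hIdxSub g f B ≠ 0) (hE0 : hIdxSub f g B ≠ 0) :
    hIdxQuot f g B = p * hIdxQuot g f B ∧ hIdxQuot f g B ≠ 0 ∧ hIdxQuot g f B ≠ 0 := by
  have h := hIdx_mul (B := B) hfg hgf hfB hgB
  rw [hJ0, hJ1, one_mul, mul_comm (p ^ u), hE] at h
  have h3 : hIdxQuot f g B = p * hIdxQuot g f B := by
    apply Nat.eq_of_mul_eq_mul_left (Nat.pos_of_ne_zero hE0)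
    rw [← h, mul_assoc]
  have h4 : hIdxQuot f g B ≠ 0 :=
    hIdxQuot_ne_zero hfg hgf hfB (by rw [hJ0]; exact pow_ne_zero _ hp) hE1
  refine ⟨h3, h4, ?_⟩
  intro h5
  rw [h5, mul_zero] at h3
  exact h4 h3

/-- the Herbrand index of the image of an injective equivariant homomorphism. -/
theorem hIdxSub_range {E : Type*} [CommGroup E] (ι : E →* G) (hι : Function.Injective ι)
    (fE gE : E →* E) (hf : ∀ x, ι (fE x) = f (ι x)) (hg : ∀ x, ι (gE x) = g (ι x)) :
    hIdxSub f g ι.range = hIdx fE gE := by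
  unfold hIdxSub hIdx
  have h1 : ι.range.map g = gE.range.map ι := by
    ext y
    constructor
    · rintro ⟨_, ⟨x, rfl⟩, rfl⟩
      exact ⟨gE x, ⟨x, rfl⟩, hg x⟩
    · rintro ⟨_, ⟨x, rfl⟩, rfl⟩
      exact ⟨ι x, ⟨x, rfl⟩, (hg x).symm⟩
  have h2 : ι.range ⊓ f.ker = fE.ker.map ι := by
    ext y
    constructor
    · rintro ⟨⟨x, rfl⟩, hx⟩
      refine ⟨x, ?_, rfl⟩
      apply MonoidHom.mem_ker.mpr
      apply hι
      rw [hf, map_one]
      exact hx
    · rintro ⟨x, hx, rfl⟩
      refine ⟨⟨x, rfl⟩, ?_⟩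
      have hx' : fE x = 1 := MonoidHom.mem_ker.mp hx
      show f (ι x) = 1
      rw [← hf, hx', map_one]
  rw [h1, h2, Subgroup.relIndex_map_map_of_injective _ _ hι]

theorem range_stable {E : Type*} [CommGroup E] (ι : E →* G) (fE : E →* E)
    (hf : ∀ x, ι (fE x) = f (ι x)) : ∀ b ∈ ι.range, f b ∈ ι.range := by
  rintro _ ⟨x, rfl⟩
  exact ⟨fE x, hf x⟩

end Abstract

section Operators

variable {E : Type*} [CommGroup E]

/-- `x ↦ s x / x`, multiplicatively "`σ - 1`". -/
def dOp (s : E →* E) : E →* E := s / MonoidHom.id E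

/-- the `i`-fold composite of an endomorphism. -/
def iterHom (s : E →* E) : ℕ → (E →* E)
  | 0 => MonoidHom.id E
  | i + 1 => (iterHom s i).comp s

theorem iterHom_apply (s : E →* E) (i : ℕ) (x : E) : iterHom s i x = (s^[i]) x := by
  induction i generalizing x with
  | zero => rfl
  | succ i ih =>
    rw [Function.iterate_succ_apply, ← ih]
    rfl

/-- `x ↦ ∏_{i<p} s^i x`, the norm. -/
def nOp (p : ℕ) (s : E →* E) : E →* E := ∏ i ∈ Finset.range p, iterHom s i

@[simp] theorem dOp_apply (s : E →* E) (x : E) : dOp s x = s x / x := rfl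

theorem nOp_apply (p : ℕ) (s : E →* E) (x : E) :
    nOp p s x = ∏ i ∈ Finset.range p, (s^[i]) x := by
  unfold nOp
  rw [MonoidHom.finsetProd_apply]
  exact Finset.prod_congr rfl fun i _ => iterHom_apply s i x

/-- the additive `ℤ`-linear version of an endomorphism. -/
def toLin (s : E →* E) : Additive E →ₗ[ℤ] Additive E :=
  AddMonoidHom.toIntLinearMap (MonoidHom.toAdditive s)

@[simp] theorem toLin_apply (s : E →* E) (x : Additive E) :
    toLin s x = Additive.ofMul (s x.toMul) := rfl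

theorem toLin_pow_apply (s : E →* E) (i : ℕ) (x : Additive E) :
    (toLin s ^ i) x = Additive.ofMul ((s^[i]) x.toMul) := by
  induction i generalizing x with
  | zero => rfl
  | succ i ih =>
    rw [pow_succ, Module.End.mul_apply, ih, Function.iterate_succ_apply]
    rfl

theorem toLin_sub_one_apply (s : E →* E) (x : Additive E) :
    (toLin s - 1) x = Additive.ofMul (dOp s x.toMul) := rfl

theorem nrm_toLin_apply (p : ℕ) (s : E →* E) (x : Additive E) :
    Fermat.Agent.ExtVan.nrm p (toLin s) x = Additive.ofMul (nOp p s x.toMul) := by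
  unfold Fermat.Agent.ExtVan.nrm
  rw [LinearMap.sum_apply, nOp_apply, ofMul_prod]
  exact Finset.sum_congr rfl fun i _ => toLin_pow_apply s i x

theorem range_toLin_sub_one (s : E →* E) :
    (LinearMap.range (toLin s - 1)).toAddSubgroup = Subgroup.toAddSubgroup (dOp s).range := by
  ext x
  constructor
  · rintro ⟨y, rfl⟩
    exact ⟨y.toMul, rfl⟩
  · rintro ⟨y, hy⟩
    exact ⟨Additive.ofMul y, congrArg Additive.ofMul hy⟩

theorem ker_toLin_sub_one (s : E →* E) :
    (LinearMap.ker (toLin s - 1)).toAddSubgroup = Subgroup.toAddSubgroup (dOp s).ker := by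
  ext x
  constructor
  · intro hx
    have h1 : (toLin s - 1) x = 0 := hx
    rw [toLin_sub_one_apply] at h1
    exact h1
  · intro hx
    have h1 : dOp s x.toMul = 1 := hx
    show (toLin s - 1) x = 0
    rw [toLin_sub_one_apply, h1]
    rfl

theorem range_nrm_toLin (p : ℕ) (s : E →* E) :
    (LinearMap.range (Fermat.Agent.ExtVan.nrm p (toLin s))).toAddSubgroup =
      Subgroup.toAddSubgroup (nOp p s).range := by
  ext x
  constructor
  · rintro ⟨y, rfl⟩
    exact ⟨y.toMul, (nrm_toLin_apply p s y).symm⟩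
  · rintro ⟨y, hy⟩
    refine ⟨Additive.ofMul y, ?_⟩
    rw [nrm_toLin_apply]
    exact congrArg Additive.ofMul hy

theorem ker_nrm_toLin (p : ℕ) (s : E →* E) :
    (LinearMap.ker (Fermat.Agent.ExtVan.nrm p (toLin s))).toAddSubgroup =
      Subgroup.toAddSubgroup (nOp p s).ker := by
  ext x
  constructor
  · intro hx
    have h1 : Fermat.Agent.ExtVan.nrm p (toLin s) x = 0 := hx
    rw [nrm_toLin_apply] at h1
    exact h1
  · intro hx
    have h1 : nOp p s x.toMul = 1 := hx
    show Fermat.Agent.ExtVan.nrm p (toLin s) x = 0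
    rw [nrm_toLin_apply, h1]
    rfl

/-- `#H¹` in additive form equals `hIdx (nOp) (dOp)`. -/
theorem relIndex_H1_eq (p : ℕ) (s : E →* E) :
    (LinearMap.range (toLin s - 1)).toAddSubgroup.relIndex
      (LinearMap.ker (Fermat.Agent.ExtVan.nrm p (toLin s))).toAddSubgroup =
        hIdx (nOp p s) (dOp s) := by
  rw [range_toLin_sub_one, ker_nrm_toLin, Subgroup.relIndex_toAddSubgroup]
  rfl

/-- `#Ĥ⁰` in additive form equals `hIdx (dOp) (nOp)`. -/
theorem relIndex_H0_eq (p : ℕ) (s : E →* E) :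
    (LinearMap.range (Fermat.Agent.ExtVan.nrm p (toLin s))).toAddSubgroup.relIndex
      (LinearMap.ker (toLin s - 1)).toAddSubgroup = hIdx (dOp s) (nOp p s) := by
  rw [range_nrm_toLin, ker_toLin_sub_one, Subgroup.relIndex_toAddSubgroup]
  rfl

end Operators

end Fermat.Agent.S55lib.FirstIneq
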