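/-
S55 sprint, block (IV) FIRST INEQUALITY (helper2).  File 5: index tools for Herbrand indices:
products (`hIdx_pi`) and transfer along an intertwining homomorphism (`hIdx_eq_of_intertwine`).
-/
import Mathlib
import Fermat.Agent.S55lib.FirstIneq.Hexagon

set_option autoImplicit false

namespace Fermat.Agent.S55lib.FirstIneq

open Fermat.Agent.S55lib.LocalH

section Pi

variable {ι : Type*} [Fintype ι] {G : ι → Type*} [∀ i, CommGroup (G i)]

theorem relIndex_pi (H K : ∀ i, Subgroup (G i)) :
    (Subgroup.pi Set.univ H).relIndex (Subgroup.pi Set.univ K) =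
      ∏ i, (H i).relIndex (K i) := by
  classical
  let Ψ : ↥(Subgroup.pi Set.univ K) →* ∀ i, (K i ⧸ (H i).subgroupOf (K i)) :=
    { toFun := fun k i => QuotientGroup.mk ⟨k.1 i, k.2 i (Set.mem_univ i)⟩
      map_one' := rfl
      map_mul' := fun _ _ => rfl }
  have hsurj : Function.Surjective Ψ := by
    intro y
    choose z hz using fun i => QuotientGroup.mk_surjective (y i)
    refine ⟨⟨fun i => (z i).1, fun i _ => (z i).2⟩, ?_⟩
    funext i
    exact hz i
  have hker : Ψ.ker = (Subgroup.pi Set.univ H).subgroupOf (Subgroup.pi Set.univ K) := by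
    ext k
    rw [MonoidHom.mem_ker, Subgroup.mem_subgroupOf, Subgroup.mem_pi]
    constructor
    · intro h i _
      have h1 : (QuotientGroup.mk (⟨k.1 i, k.2 i (Set.mem_univ i)⟩ : K i) :
          K i ⧸ (H i).subgroupOf (K i)) = 1 := congrFun h i
      have h2 := (QuotientGroup.eq_one_iff _).mp h1
      exact Subgroup.mem_subgroupOf.mp h2
    · intro h
      funext i
      exact (QuotientGroup.eq_one_iff (⟨k.1 i, k.2 i (Set.mem_univ i)⟩ : K i)).mpr
        (Subgroup.mem_subgroupOf.mpr (h i (Set.mem_univ i)))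
  rw [Subgroup.relIndex, ← hker, Subgroup.index_ker, MonoidHom.range_eq_top.mpr hsurj,
    Nat.card_congr (Subgroup.topEquiv (G := ∀ i, (K i ⧸ (H i).subgroupOf (K i)))).toEquiv,
    Nat.card_pi]
  rfl

omit [Fintype ι] in
theorem ker_piMap (f : ∀ i, G i →* G i) :
    (MonoidHom.piMap f).ker = Subgroup.pi Set.univ (fun i => (f i).ker) := by
  ext x
  rw [MonoidHom.mem_ker, Subgroup.mem_pi]
  constructor
  · intro h i _
    exact congrFun h i
  · intro h
    funext i
    exact h i (Set.mem_univ i)

omit [Fintype ι] in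
theorem range_piMap (f : ∀ i, G i →* G i) :
    (MonoidHom.piMap f).range = Subgroup.pi Set.univ (fun i => (f i).range) := by
  ext x
  rw [MonoidHom.mem_range, Subgroup.mem_pi]
  constructor
  · rintro ⟨y, rfl⟩ i _
    exact ⟨y i, rfl⟩
  · intro h
    choose y hy using fun i => h i (Set.mem_univ i)
    exact ⟨y, funext hy⟩

/-- Herbrand indices are multiplicative in finite products. -/
theorem hIdx_pi (f g : ∀ i, G i →* G i) :
    hIdx (MonoidHom.piMap f) (MonoidHom.piMap g) = ∏ i, hIdx (f i) (g i) := by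
  unfold hIdx
  rw [ker_piMap, range_piMap, relIndex_pi]

end Pi

section Intertwine

variable {M M' : Type*} [CommGroup M] [CommGroup M']

/-- transfer of a Herbrand index along an intertwining homomorphism `Φ` which is onto on
`ker f` and reflects `range g` on `ker f`. -/
theorem hIdx_eq_of_intertwine (f g : M →* M) (f' g' : M' →* M') (Φ : M →* M')
    (hf : ∀ m, Φ (f m) = f' (Φ m)) (hg : ∀ m, Φ (g m) = g' (Φ m))
    (hA : ∀ b, f' b = 1 → ∃ m, f m = 1 ∧ Φ m = b)
    (hB : ∀ m, f m = 1 → Φ m ∈ g'.range → m ∈ g.range) :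
    hIdx f g = hIdx f' g' := by
  unfold hIdx
  let φ : f.ker →* f'.ker :=
    (Φ.comp f.ker.subtype).codRestrict f'.ker (fun m => by
      have h1 : f m.1 = 1 := m.2
      show f' (Φ m.1) = 1
      rw [← hf, h1, map_one])
  have hφ : Function.Surjective φ := by
    rintro ⟨b, hb⟩
    obtain ⟨m, hm1, hm2⟩ := hA b hb
    exact ⟨⟨m, hm1⟩, Subtype.ext hm2⟩
  have hcomap : (g'.range.subgroupOf f'.ker).comap φ = g.range.subgroupOf f.ker := by
    ext m
    rw [Subgroup.mem_comap, Subgroup.mem_subgroupOf, Subgroup.mem_subgroupOf]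
    constructor
    · intro h
      exact hB m.1 m.2 h
    · rintro ⟨y, hy⟩
      show Φ m.1 ∈ g'.range
      rw [← hy, hg]
      exact ⟨_, rfl⟩
  rw [Subgroup.relIndex, Subgroup.relIndex, ← hcomap, Subgroup.index_comap_of_surjective _ hφ]

end Intertwine

end Fermat.Agent.S55lib.FirstIneq
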