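/-
S55 sprint, block (IV) FIRST INEQUALITY (helper2).  File 6: the semilocal computation.

`Γ` a group, `D ≤ Γ`, `A` a commutative group with `D`-action `ρ`, `M = coind_D^Γ A` the group of
`D`-equivariant functions `Γ → A` (`f (d g) = ρ d (f g)`) on which `Γ` acts by right translation.
For `σ ∈ Γ` of prime order `p` the cohomology of `⟨σ⟩` on `M` is the product, over the cosets
`x ∈ Γ/D` fixed by `σ`, of the cohomology of `⟨τ_x⟩ ≤ D` on `A` (`τ_x` a conjugate of `σ`):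

* `hIdx_coind_H1` : Hilbert 90 for all `τ ∈ D` of order `p`  ⟹  `#H¹(⟨σ⟩, M) = 1`;
* `hIdx_coind_H0` : `#Ĥ⁰(⟨τ⟩, A) = p` for all such `τ`  ⟹  `#Ĥ⁰(⟨σ⟩, M) = p ^ #(Γ/D)^σ`.
-/
import Mathlib
import Fermat.Agent.S55lib.FirstIneq.IndexTools

set_option autoImplicit false
set_option linter.unusedSectionVars false

namespace Fermat.Agent.S55lib.FirstIneq

open Fermat.Agent.S55lib.LocalH

section Functorial

variable {E E' : Type*} [CommGroup E] [CommGroup E']

theorem map_iterate_of_semiconj (Φ : E →* E') (s : E →* E) (s' : E' →* E')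
    (h : ∀ x, Φ (s x) = s' (Φ x)) (i : ℕ) (x : E) : Φ ((s^[i]) x) = (s'^[i]) (Φ x) := by
  induction i generalizing x with
  | zero => rfl
  | succ i ih => rw [Function.iterate_succ_apply, Function.iterate_succ_apply, ih, h]

theorem map_dOp (Φ : E →* E') (s : E →* E) (s' : E' →* E')
    (h : ∀ x, Φ (s x) = s' (Φ x)) (x : E) : Φ (dOp s x) = dOp s' (Φ x) := by
  rw [dOp_apply, dOp_apply, map_div, h]

theorem map_nOp (p : ℕ) (Φ : E →* E') (s : E →* E) (s' : E' →* E')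
    (h : ∀ x, Φ (s x) = s' (Φ x)) (x : E) : Φ (nOp p s x) = nOp p s' (Φ x) := by
  rw [nOp_apply, nOp_apply, map_prod]
  exact Finset.prod_congr rfl fun i _ => map_iterate_of_semiconj Φ s s' h i x

end Functorial

section PiOps

variable {ι : Type*} {G : ι → Type*} [∀ i, CommGroup (G i)]

theorem iterate_piMap (s : ∀ i, G i →* G i) (n : ℕ) (b : ∀ i, G i) (i : ι) :
    ((MonoidHom.piMap s)^[n]) b i = ((s i)^[n]) (b i) := by
  induction n generalizing b with
  | zero => rfl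
  | succ n ih =>
    rw [Function.iterate_succ_apply, Function.iterate_succ_apply, ih]
    rfl

theorem dOp_piMap (s : ∀ i, G i →* G i) :
    dOp (MonoidHom.piMap s) = MonoidHom.piMap (fun i => dOp (s i)) := by
  ext b i
  rfl

theorem nOp_piMap (p : ℕ) (s : ∀ i, G i →* G i) :
    nOp p (MonoidHom.piMap s) = MonoidHom.piMap (fun i => nOp p (s i)) := by
  ext b i
  rw [nOp_apply, Finset.prod_apply]
  show _ = nOp p (s i) (b i)
  rw [nOp_apply]
  exact Finset.prod_congr rfl fun n _ => iterate_piMap s n b i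

end PiOps

section Coind

variable {Γ : Type*} [Group Γ] (D : Subgroup Γ) {A : Type*} [CommGroup A] (ρ : D →* MulAut A)

/-- the coinduced module, multiplicatively: `D`-equivariant functions `Γ → A`. -/
def coindSub : Subgroup (Γ → A) where
  carrier := {f | ∀ (d : D) (g : Γ), f (↑d * g) = ρ d (f g)}
  one_mem' := fun d g => by
    show (1 : A) = ρ d 1
    rw [map_one]
  mul_mem' := fun {f f'} hf hf' d g => by
    show f (↑d * g) * f' (↑d * g) = ρ d (f g * f' g)
    rw [hf d g, hf' d g, map_mul]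
  inv_mem' := fun {f} hf d g => by
    show (f (↑d * g))⁻¹ = ρ d (f g)⁻¹
    rw [hf d g, map_inv]

theorem mem_coindSub {f : Γ → A} :
    f ∈ coindSub D ρ ↔ ∀ (d : D) (g : Γ), f (↑d * g) = ρ d (f g) := Iff.rfl

/-- right translation by `γ` on the coinduced module. -/
def shift (γ : Γ) : coindSub D ρ →* coindSub D ρ where
  toFun f := ⟨fun g => f.1 (g * γ), fun d g => by
    show f.1 (↑d * g * γ) = ρ d (f.1 (g * γ))
    rw [mul_assoc]
    exact f.2 d (g * γ)⟩
  map_one' := rfl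
  map_mul' _ _ := rfl

theorem shift_apply (γ : Γ) (f : coindSub D ρ) (g : Γ) :
    (shift D ρ γ f).1 g = f.1 (g * γ) := rfl

theorem iterate_shift_apply (γ : Γ) (i : ℕ) (f : coindSub D ρ) (g : Γ) :
    (((shift D ρ γ)^[i]) f).1 g = f.1 (g * γ ^ i) := by
  induction i generalizing f with
  | zero => simp
  | succ i ih => rw [Function.iterate_succ_apply, ih, shift_apply, pow_succ, mul_assoc]

theorem dOp_shift_apply (γ : Γ) (f : coindSub D ρ) (g : Γ) :
    (dOp (shift D ρ γ) f).1 g = f.1 (g * γ) / f.1 g := rfl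

theorem nOp_shift_apply (p : ℕ) (γ : Γ) (f : coindSub D ρ) (g : Γ) :
    (nOp p (shift D ρ γ) f).1 g = ∏ i ∈ Finset.range p, f.1 (g * γ ^ i) := by
  rw [nOp_apply, Subgroup.val_finsetProd, Finset.prod_apply]
  exact Finset.prod_congr rfl fun i _ => iterate_shift_apply D ρ γ i f g

end Coind

section Orbits

variable {Γ : Type*} [Group Γ] (D : Subgroup Γ) (σ : Γ)

/-- the elements `g` whose coset `D g` is fixed by right multiplication by `σ`. -/
def Zfix : Set Γ := {g | g * σ * g⁻¹ ∈ D}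

theorem mem_Zfix {g : Γ} : g ∈ Zfix D σ ↔ g * σ * g⁻¹ ∈ D := Iff.rfl

theorem coe_mul_mem_Zfix (d : D) {g : Γ} : ↑d * g ∈ Zfix D σ ↔ g ∈ Zfix D σ := by
  rw [mem_Zfix, mem_Zfix]
  have h1 : (d : Γ) * g * σ * (↑d * g)⁻¹ = ↑d * (g * σ * g⁻¹) * (↑d)⁻¹ := by group
  rw [h1]
  constructor
  · intro h
    have h2 := D.mul_mem (D.mul_mem (D.inv_mem d.2) h) d.2
    have h3 : (d : Γ)⁻¹ * (↑d * (g * σ * g⁻¹) * (↑d)⁻¹) * ↑d = g * σ * g⁻¹ := by group
    rwa [h3] at h2
  · intro h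
    exact D.mul_mem (D.mul_mem d.2 h) (D.inv_mem d.2)

theorem mul_sigma_mem_Zfix {g : Γ} : g * σ ∈ Zfix D σ ↔ g ∈ Zfix D σ := by
  rw [mem_Zfix, mem_Zfix]
  have h1 : g * σ * σ * (g * σ)⁻¹ = g * σ * g⁻¹ := by group
  rw [h1]

theorem mul_sigma_pow_mem_Zfix {g : Γ} (i : ℕ) : g * σ ^ i ∈ Zfix D σ ↔ g ∈ Zfix D σ := by
  induction i with
  | zero => rw [pow_zero, mul_one]
  | succ i ih => rw [pow_succ, ← mul_assoc, mul_sigma_mem_Zfix, ih]

variable {D σ}

/-- for `g` with fixed coset, the conjugate `g σ g⁻¹ ∈ D`. -/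
def tauOf {g : Γ} (hg : g ∈ Zfix D σ) : D := ⟨g * σ * g⁻¹, hg⟩

theorem tauOf_mul {g : Γ} (hg : g ∈ Zfix D σ) : (tauOf hg : Γ) * g = g * σ := by
  show g * σ * g⁻¹ * g = g * σ
  group

theorem tauOf_pow {g : Γ} (hg : g ∈ Zfix D σ) {p : ℕ} (hσp : σ ^ p = 1) : tauOf hg ^ p = 1 := by
  apply Subtype.ext
  show (g * σ * g⁻¹) ^ p = 1
  rw [conj_pow, hσp, mul_one, mul_inv_cancel]

theorem tauOf_ne_one {g : Γ} (hg : g ∈ Zfix D σ) (hσ1 : σ ≠ 1) : tauOf hg ≠ 1 := by
  intro h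
  apply hσ1
  have h1 : g * σ * g⁻¹ = 1 := congrArg Subtype.val h
  have h2 : σ = g⁻¹ * (g * σ * g⁻¹) * g := by group
  rw [h2, h1]
  group

theorem tauOf_coe_mul (d : D) {g : Γ} (hg : g ∈ Zfix D σ) :
    tauOf ((coe_mul_mem_Zfix D σ d).mpr hg) = d * tauOf hg * d⁻¹ := by
  apply Subtype.ext
  show (d : Γ) * g * σ * (↑d * g)⁻¹ = ↑d * (g * σ * g⁻¹) * (↑d)⁻¹
  group

/-- a coset which is not fixed has a free orbit. -/
theorem conj_pow_notMem {p : ℕ} [hp : Fact p.Prime] (hσp : σ ^ p = 1) {g : Γ}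
    (hg : g ∉ Zfix D σ) {n : ℕ} (hn0 : 0 < n) (hnp : n < p) : g * σ ^ n * g⁻¹ ∉ D := by
  intro h
  apply hg
  have hcop : Nat.Coprime n p :=
    ((Nat.Prime.coprime_iff_not_dvd hp.out).mpr (Nat.not_dvd_of_pos_of_lt hn0 hnp)).symm
  obtain ⟨m, -, hm⟩ := Nat.exists_mul_mod_eq_one_of_coprime hcop hp.out.one_lt
  have h1 : σ ^ (n * m) = σ := by
    rw [pow_eq_pow_mod (n * m) hσp, hm, pow_one]
  have h2 : (g * σ ^ n * g⁻¹) ^ m ∈ D := D.pow_mem h m
  rw [conj_pow, ← pow_mul, h1] at h2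
  exact h2

theorem eq_of_mul_pow_mem {p : ℕ} [hp : Fact p.Prime] (hσp : σ ^ p = 1) {g : Γ}
    (hg : g ∉ Zfix D σ) {i j : ℕ} (hi : i < p) (hj : j < p)
    (h : g * σ ^ j * (g * σ ^ i)⁻¹ ∈ D) : i = j := by
  by_contra hne
  rcases Nat.lt_or_gt_of_ne hne with hlt | hlt
  · apply conj_pow_notMem hσp hg (Nat.sub_pos_of_lt hlt) (by omega : j - i < p)
    have h1 : g * σ ^ (j - i) * g⁻¹ = g * σ ^ j * (g * σ ^ i)⁻¹ := by
      have h2 : σ ^ j = σ ^ (j - i) * σ ^ i := by rw [← pow_add, Nat.sub_add_cancel hlt.le]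
      rw [h2]
      group
    rw [h1]
    exact h
  · apply conj_pow_notMem hσp hg (Nat.sub_pos_of_lt hlt) (by omega : i - j < p)
    have h1 : g * σ ^ (i - j) * g⁻¹ = (g * σ ^ j * (g * σ ^ i)⁻¹)⁻¹ := by
      have h2 : σ ^ i = σ ^ (i - j) * σ ^ j := by rw [← pow_add, Nat.sub_add_cancel hlt.le]
      rw [h2]
      group
    rw [h1]
    exact D.inv_mem h

variable (D σ)

/-- a fundamental domain for right multiplication by `σ` on the non-fixed part of `Γ`,
stable under left multiplication by `D`. -/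
def Ydom : Set Γ :=
  {g | g ∉ Zfix D σ ∧ ∃ (d : D)
    (q : DoubleCoset.Quotient (D : Set Γ) (Subgroup.zpowers σ : Set Γ)), g = ↑d * q.out}

theorem coe_mul_mem_Ydom (d : D) {g : Γ} : ↑d * g ∈ Ydom D σ ↔ g ∈ Ydom D σ := by
  constructor
  · rintro ⟨h1, d', q, h2⟩
    refine ⟨fun h => h1 ((coe_mul_mem_Zfix D σ d).mpr h), d⁻¹ * d', q, ?_⟩
    have h3 : g = (d : Γ)⁻¹ * (↑d * g) := by group
    rw [h3, h2]
    simp [mul_assoc]
  · rintro ⟨h1, d', q, h2⟩
    refine ⟨fun h => h1 ((coe_mul_mem_Zfix D σ d).mp h), d * d', q, ?_⟩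
    rw [h2]
    simp [mul_assoc]

theorem notMem_Zfix_of_mem_Ydom {g : Γ} (h : g ∈ Ydom D σ) : g ∉ Zfix D σ := h.1

variable {D σ}

theorem exists_pow_mem_Ydom {p : ℕ} [hp : Fact p.Prime] (hσp : σ ^ p = 1) {g : Γ}
    (hg : g ∉ Zfix D σ) : ∃ i, i < p ∧ g * σ ^ i ∈ Ydom D σ := by
  obtain ⟨h, k, hh, hk, hout⟩ := DoubleCoset.mk_out_eq_mul D (Subgroup.zpowers σ) g
  obtain ⟨n, rfl⟩ := Subgroup.mem_zpowers_iff.mp hk
  have hp0 : (p : ℤ) ≠ 0 := by exact_mod_cast hp.out.ne_zero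
  have hnn : 0 ≤ n % (p : ℤ) := Int.emod_nonneg n hp0
  have hlt : n % (p : ℤ) < p := Int.emod_lt_of_pos n (by exact_mod_cast hp.out.pos)
  have hpow : σ ^ n = σ ^ (n % (p : ℤ)).toNat := by
    have h1 : σ ^ n = σ ^ (n % (p : ℤ)) := by
      conv_lhs => rw [← Int.emod_add_mul_ediv n p]
      rw [zpow_add, zpow_mul, zpow_natCast, hσp, one_zpow, mul_one]
    rw [h1, ← zpow_natCast, Int.toNat_of_nonneg hnn]
  refine ⟨(n % (p : ℤ)).toNat, by omega, ?_, ⟨h, hh⟩⁻¹, DoubleCoset.mk D (Subgroup.zpowers σ) g, ?_⟩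
  · rw [mul_sigma_pow_mem_Zfix]
    exact hg
  · rw [hout, ← hpow]
    show g * σ ^ n = h⁻¹ * (h * g * σ ^ n)
    group

theorem pow_mem_Ydom_unique {p : ℕ} [hp : Fact p.Prime] (hσp : σ ^ p = 1) {g : Γ}
    (hg : g ∉ Zfix D σ) {i j : ℕ} (hi : i < p) (hj : j < p)
    (h1 : g * σ ^ i ∈ Ydom D σ) (h2 : g * σ ^ j ∈ Ydom D σ) : i = j := by
  obtain ⟨-, d, q, hq⟩ := h1
  obtain ⟨-, d', q', hq'⟩ := h2
  have e1 : q = DoubleCoset.mk D (Subgroup.zpowers σ) g := by
    rw [← DoubleCoset.out_eq' D (Subgroup.zpowers σ) q, DoubleCoset.eq]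
    refine ⟨d, d.2, (σ ^ i)⁻¹, Subgroup.inv_mem _ (Subgroup.pow_mem _
      (Subgroup.mem_zpowers σ) i), ?_⟩
    have : q.out = (d : Γ)⁻¹ * (g * σ ^ i) := by rw [hq]; group
    rw [this]
    group
  have e2 : q' = DoubleCoset.mk D (Subgroup.zpowers σ) g := by
    rw [← DoubleCoset.out_eq' D (Subgroup.zpowers σ) q', DoubleCoset.eq]
    refine ⟨d', d'.2, (σ ^ j)⁻¹, Subgroup.inv_mem _ (Subgroup.pow_mem _
      (Subgroup.mem_zpowers σ) j), ?_⟩
    have : q'.out = (d' : Γ)⁻¹ * (g * σ ^ j) := by rw [hq']; group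
    rw [this]
    group
  apply eq_of_mul_pow_mem hσp hg hi hj
  rw [hq, hq', e1, e2]
  have : (d' : Γ) * (DoubleCoset.mk D (Subgroup.zpowers σ) g).out *
      (↑d * (DoubleCoset.mk D (Subgroup.zpowers σ) g).out)⁻¹ = ↑d' * (↑d)⁻¹ := by group
  rw [this]
  exact D.mul_mem d'.2 (D.inv_mem d.2)

end Orbits

section Transversal

variable {Γ : Type*} [Group Γ] (D : Subgroup Γ)

/-- the left coset `g⁻¹ D`, parametrising the right coset `D g`. -/
def coset (g : Γ) : Γ ⧸ D := (↑(g⁻¹) : Γ ⧸ D)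

/-- a representative of the right coset parametrised by `x`. -/
noncomputable def rep (x : Γ ⧸ D) : Γ := (Quotient.out x)⁻¹

theorem coset_rep (x : Γ ⧸ D) : coset D (rep D x) = x := by
  unfold coset rep
  rw [inv_inv]
  exact QuotientGroup.out_eq' x

theorem coset_coe_mul (d : D) (g : Γ) : coset D (↑d * g) = coset D g := by
  unfold coset
  rw [QuotientGroup.eq]
  have h1 : ((↑d * g)⁻¹)⁻¹ * g⁻¹ = (d : Γ) := by group
  rw [h1]
  exact d.2

/-- the `D`-component of `g` with respect to the transversal `rep`. -/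
noncomputable def delta (g : Γ) : D := Classical.choose (QuotientGroup.mk_out_eq_mul D g⁻¹)

theorem delta_mul_rep (g : Γ) : (delta D g : Γ) * rep D (coset D g) = g := by
  have h := Classical.choose_spec (QuotientGroup.mk_out_eq_mul D g⁻¹)
  unfold rep coset
  rw [h]
  show (delta D g : Γ) * (g⁻¹ * ↑(delta D g))⁻¹ = g
  group

theorem delta_coe_mul (d : D) (g : Γ) : delta D (↑d * g) = d * delta D g := by
  have h1 := delta_mul_rep D (↑d * g)
  have h2 := delta_mul_rep D g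
  rw [coset_coe_mul] at h1
  apply Subtype.ext
  have h3 : (delta D (↑d * g) : Γ) * rep D (coset D g) =
      ↑d * (↑(delta D g) * rep D (coset D g)) := by rw [h1, h2]
  rw [← mul_assoc] at h3
  exact mul_right_cancel h3

theorem delta_rep (x : Γ ⧸ D) : delta D (rep D x) = 1 := by
  have h1 := delta_mul_rep D (rep D x)
  rw [coset_rep] at h1
  apply Subtype.ext
  exact mul_eq_right.mp h1

variable (σ : Γ)

theorem smul_coset_eq_iff (g : Γ) : σ • coset D g = coset D g ↔ g ∈ Zfix D σ := by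
  unfold coset
  rw [MulAction.Quotient.smul_mk, QuotientGroup.eq, mem_Zfix]
  have h1 : (σ • g⁻¹)⁻¹ * g⁻¹ = (g * σ * g⁻¹)⁻¹ := by
    rw [smul_eq_mul]
    group
  rw [h1, inv_mem_iff]

theorem rep_mem_Zfix {x : Γ ⧸ D} (hx : σ • x = x) : rep D x ∈ Zfix D σ := by
  rw [← smul_coset_eq_iff, coset_rep]
  exact hx

end Transversal

section CoindMain

variable {Γ : Type*} [Group Γ] (D : Subgroup Γ) {A : Type*} [CommGroup A] (ρ : D →* MulAut A)
  (σ : Γ)

/-- the `D`-equivariant function with prescribed values on the transversal `rep`. -/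
noncomputable def extHom : (Γ ⧸ D → A) →* coindSub D ρ where
  toFun b := ⟨fun g => ρ (delta D g) (b (coset D g)), fun d g => by
    show ρ (delta D (↑d * g)) (b (coset D (↑d * g))) = ρ d (ρ (delta D g) (b (coset D g)))
    rw [delta_coe_mul, coset_coe_mul, map_mul]
    rfl⟩
  map_one' := by
    apply Subtype.ext
    funext g
    show ρ (delta D g) 1 = 1
    rw [map_one]
  map_mul' b b' := by
    apply Subtype.ext
    funext g
    show ρ (delta D g) (b (coset D g) * b' (coset D g)) = _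
    rw [map_mul]
    rfl

theorem extHom_apply (b : Γ ⧸ D → A) (g : Γ) :
    (extHom D ρ b).1 g = ρ (delta D g) (b (coset D g)) := rfl

theorem extHom_rep (b : Γ ⧸ D → A) (x : Γ ⧸ D) : (extHom D ρ b).1 (rep D x) = b x := by
  rw [extHom_apply, delta_rep, coset_rep, map_one]
  rfl

/-- the cosets fixed by `σ`. -/
abbrev FixC : Type _ := {x : Γ ⧸ D // σ • x = x}

open Classical in
/-- extension by `1` from the fixed cosets to all cosets. -/
noncomputable def zeroExt : (FixC D σ → A) →* (Γ ⧸ D → A) where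
  toFun b x := if h : σ • x = x then b ⟨x, h⟩ else 1
  map_one' := by
    funext x
    by_cases h : σ • x = x
    · simp [h]
    · simp [h]
  map_mul' b b' := by
    funext x
    by_cases h : σ • x = x
    · simp [h]
    · simp [h]

theorem zeroExt_apply_of_fixed (b : FixC D σ → A) {x : Γ ⧸ D} (h : σ • x = x) :
    zeroExt D σ b x = b ⟨x, h⟩ := by
  simp [zeroExt, h]

theorem zeroExt_apply_of_not_fixed (b : FixC D σ → A) {x : Γ ⧸ D} (h : ¬ σ • x = x) :
    zeroExt D σ b x = 1 := by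
  simp [zeroExt, h]

/-- the equivariant function supported on the fixed cosets with prescribed values. -/
noncomputable def fixExt : (FixC D σ → A) →* coindSub D ρ := (extHom D ρ).comp (zeroExt D σ)

/-- evaluation at the representatives of the fixed cosets. -/
noncomputable def evalFix : coindSub D ρ →* (FixC D σ → A) where
  toFun f x := f.1 (rep D x.1)
  map_one' := rfl
  map_mul' _ _ := rfl

theorem evalFix_apply (f : coindSub D ρ) (x : FixC D σ) :
    evalFix D ρ σ f x = f.1 (rep D x.1) := rfl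

/-- the action of `σ` on the fixed-coset coordinates. -/
noncomputable def Tfix : (FixC D σ → A) →* (FixC D σ → A) :=
  MonoidHom.piMap fun x => (ρ (tauOf (rep_mem_Zfix D σ x.2))).toMonoidHom

theorem Tfix_apply (b : FixC D σ → A) (x : FixC D σ) :
    Tfix D ρ σ b x = ρ (tauOf (rep_mem_Zfix D σ x.2)) (b x) := rfl

theorem apply_mul_sigma (f : coindSub D ρ) {g : Γ} (hg : g ∈ Zfix D σ) :
    f.1 (g * σ) = ρ (tauOf hg) (f.1 g) := by
  rw [← tauOf_mul hg]
  exact f.2 (tauOf hg) g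

theorem evalFix_shift (f : coindSub D ρ) :
    evalFix D ρ σ (shift D ρ σ f) = Tfix D ρ σ (evalFix D ρ σ f) := by
  funext x
  rw [evalFix_apply, shift_apply, Tfix_apply, evalFix_apply]
  exact apply_mul_sigma D ρ σ f (rep_mem_Zfix D σ x.2)

theorem evalFix_fixExt (b : FixC D σ → A) : evalFix D ρ σ (fixExt D ρ σ b) = b := by
  funext x
  rw [evalFix_apply]
  show (extHom D ρ (zeroExt D σ b)).1 (rep D x.1) = b x
  rw [extHom_rep, zeroExt_apply_of_fixed D σ b x.2]

theorem fixExt_apply_of_notMem (b : FixC D σ → A) {g : Γ} (hg : g ∉ Zfix D σ) :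
    (fixExt D ρ σ b).1 g = 1 := by
  show (extHom D ρ (zeroExt D σ b)).1 g = 1
  rw [extHom_apply, zeroExt_apply_of_not_fixed, map_one]
  rw [smul_coset_eq_iff]
  exact hg

/-- two equivariant functions agreeing at the fixed representatives and off the fixed part
are equal. -/
theorem coind_ext {f f' : coindSub D ρ} (h1 : evalFix D ρ σ f = evalFix D ρ σ f')
    (h2 : ∀ g, g ∉ Zfix D σ → f.1 g = f'.1 g) : f = f' := by
  apply Subtype.ext
  funext g
  by_cases hg : g ∈ Zfix D σ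
  · have hx : σ • coset D g = coset D g := (smul_coset_eq_iff D σ g).mpr hg
    have h3 := congrFun h1 ⟨coset D g, hx⟩
    rw [evalFix_apply, evalFix_apply] at h3
    have h4 := delta_mul_rep D g
    rw [← h4, f.2, f'.2, h3]
  · exact h2 g hg

theorem shift_fixExt (b : FixC D σ → A) :
    shift D ρ σ (fixExt D ρ σ b) = fixExt D ρ σ (Tfix D ρ σ b) := by
  apply coind_ext D ρ σ
  · rw [evalFix_shift, evalFix_fixExt, evalFix_fixExt]
  · intro g hg
    rw [shift_apply, fixExt_apply_of_notMem D ρ σ _ hg, fixExt_apply_of_notMem]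
    rw [mul_sigma_mem_Zfix]
    exact hg

end CoindMain

section CoindFinal

variable {Γ : Type*} [Group Γ] (D : Subgroup Γ) {A : Type*} [CommGroup A] (ρ : D →* MulAut A)
  (σ : Γ) (p : ℕ) [hp : Fact p.Prime] (hσp : σ ^ p = 1)

open Classical in
/-- multiplication by the indicator function of the fundamental domain `Ydom`. -/
noncomputable def epsY : coindSub D ρ →* coindSub D ρ where
  toFun f := ⟨fun g => if g ∈ Ydom D σ then f.1 g else 1, fun d g => by
    show (if ↑d * g ∈ Ydom D σ then f.1 (↑d * g) else 1) =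
      ρ d (if g ∈ Ydom D σ then f.1 g else 1)
    by_cases h : g ∈ Ydom D σ
    · rw [if_pos h, if_pos ((coe_mul_mem_Ydom D σ d).mpr h)]
      exact f.2 d g
    · rw [if_neg h, if_neg (fun h' => h ((coe_mul_mem_Ydom D σ d).mp h')), map_one]⟩
  map_one' := by
    apply Subtype.ext
    funext g
    show (if g ∈ Ydom D σ then (1 : A) else 1) = 1
    rw [ite_self]
  map_mul' f f' := by
    apply Subtype.ext
    funext g
    show (if g ∈ Ydom D σ then f.1 g * f'.1 g else 1) =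
      (if g ∈ Ydom D σ then f.1 g else 1) * (if g ∈ Ydom D σ then f'.1 g else 1)
    by_cases h : g ∈ Ydom D σ
    · rw [if_pos h, if_pos h, if_pos h]
    · rw [if_neg h, if_neg h, if_neg h, one_mul]

open Classical in
theorem epsY_apply (f : coindSub D ρ) (g : Γ) :
    (epsY D ρ σ f).1 g = if g ∈ Ydom D σ then f.1 g else 1 := rfl

theorem evalFix_epsY (f : coindSub D ρ) : evalFix D ρ σ (epsY D ρ σ f) = 1 := by
  classical
  funext x
  rw [evalFix_apply, epsY_apply, if_neg]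
  · rfl
  · intro h
    exact h.1 (rep_mem_Zfix D σ x.2)

include hσp in
open Classical in
theorem prod_ite_mem_Ydom_of_notMem {g : Γ} (hg : g ∉ Zfix D σ) (a : A) :
    ∏ i ∈ Finset.range p, (if g * σ ^ i ∈ Ydom D σ then a else 1) = a := by
  obtain ⟨i0, hi0, hmem⟩ := exists_pow_mem_Ydom hσp hg
  rw [Finset.prod_eq_single i0]
  · rw [if_pos hmem]
  · intro j hj hne
    rw [if_neg]
    intro h
    exact hne (pow_mem_Ydom_unique hσp hg (Finset.mem_range.mp hj) hi0 h hmem)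
  · intro h
    exact absurd (Finset.mem_range.mpr hi0) h

open Classical in
theorem prod_ite_mem_Ydom_of_mem {g : Γ} (hg : g ∈ Zfix D σ) (a : ℕ → A) :
    ∏ i ∈ Finset.range p, (if g * σ ^ i ∈ Ydom D σ then a i else 1) = 1 :=
  Finset.prod_eq_one fun i _ =>
    if_neg fun h => h.1 ((mul_sigma_pow_mem_Zfix D σ i).mpr hg)

theorem apply_mul_pow_of_dOp_eq_one {m : coindSub D ρ} (hm : dOp (shift D ρ σ) m = 1) (g : Γ)
    (i : ℕ) : m.1 (g * σ ^ i) = m.1 g := by
  have h1 : ∀ g, m.1 (g * σ) = m.1 g := by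
    intro g
    have h2 := congrArg (fun f : coindSub D ρ => f.1 g) hm
    simp only [dOp_shift_apply] at h2
    exact div_eq_one.mp h2
  induction i with
  | zero => rw [pow_zero, mul_one]
  | succ i ih => rw [pow_succ, ← mul_assoc, h1, ih]

include hσp in
/-- `#Ĥ⁰` of the coinduced module is the one of the fixed-coset coordinates. -/
theorem hIdx_coind_H0_eq :
    hIdx (dOp (shift D ρ σ)) (nOp p (shift D ρ σ)) =
      hIdx (dOp (Tfix D ρ σ)) (nOp p (Tfix D ρ σ)) := by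
  classical
  apply hIdx_eq_of_intertwine _ _ _ _ (evalFix D ρ σ)
  · intro m
    exact map_dOp _ _ _ (evalFix_shift D ρ σ) m
  · intro m
    exact map_nOp p _ _ _ (evalFix_shift D ρ σ) m
  · intro b hb
    refine ⟨fixExt D ρ σ b, ?_, evalFix_fixExt D ρ σ b⟩
    rw [← map_dOp (fixExt D ρ σ) (Tfix D ρ σ) (shift D ρ σ)
      (fun x => (shift_fixExt D ρ σ x).symm), hb, map_one]
  · rintro m hm ⟨b, hb⟩
    refine ⟨fixExt D ρ σ b * epsY D ρ σ m, ?_⟩
    apply coind_ext D ρ σ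
    · rw [map_nOp p (evalFix D ρ σ) _ _ (evalFix_shift D ρ σ), map_mul, evalFix_fixExt,
        evalFix_epsY, mul_one, hb]
    · intro g hg
      rw [nOp_shift_apply]
      have h1 : ∀ i ∈ Finset.range p, (fixExt D ρ σ b * epsY D ρ σ m).1 (g * σ ^ i) =
          if g * σ ^ i ∈ Ydom D σ then m.1 g else 1 := by
        intro i _
        show (fixExt D ρ σ b).1 (g * σ ^ i) * (epsY D ρ σ m).1 (g * σ ^ i) = _
        rw [fixExt_apply_of_notMem D ρ σ b (by rw [mul_sigma_pow_mem_Zfix]; exact hg), one_mul,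
          epsY_apply, apply_mul_pow_of_dOp_eq_one D ρ σ hm]
      rw [Finset.prod_congr rfl h1, prod_ite_mem_Ydom_of_notMem D σ p hσp hg]

open Classical in
/-- the primitive of the free part of a norm-one element. -/
noncomputable def hfree (m : coindSub D ρ) : coindSub D ρ :=
  ⟨fun g => ∏ i ∈ Finset.range p,
    if g * σ ^ i ∈ Ydom D σ then (∏ j ∈ Finset.range i, m.1 (g * σ ^ j))⁻¹ else 1, fun d g => by
    show (∏ i ∈ Finset.range p, if ↑d * g * σ ^ i ∈ Ydom D σ then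
        (∏ j ∈ Finset.range i, m.1 (↑d * g * σ ^ j))⁻¹ else 1) =
      ρ d (∏ i ∈ Finset.range p, if g * σ ^ i ∈ Ydom D σ then
        (∏ j ∈ Finset.range i, m.1 (g * σ ^ j))⁻¹ else 1)
    rw [map_prod]
    refine Finset.prod_congr rfl fun i _ => ?_
    rw [mul_assoc]
    by_cases h : g * σ ^ i ∈ Ydom D σ
    · rw [if_pos h, if_pos ((coe_mul_mem_Ydom D σ d).mpr h), map_inv, map_prod]
      congr 1
      refine Finset.prod_congr rfl fun j _ => ?_
      rw [mul_assoc]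
      exact m.2 d _
    · rw [if_neg h, if_neg (fun h' => h ((coe_mul_mem_Ydom D σ d).mp h')), map_one]⟩

open Classical in
theorem hfree_apply (m : coindSub D ρ) (g : Γ) :
    (hfree D ρ σ p m).1 g = ∏ i ∈ Finset.range p,
      if g * σ ^ i ∈ Ydom D σ then (∏ j ∈ Finset.range i, m.1 (g * σ ^ j))⁻¹ else 1 := rfl

theorem hfree_apply_of_mem (m : coindSub D ρ) {g : Γ} (hg : g ∈ Zfix D σ) :
    (hfree D ρ σ p m).1 g = 1 := by
  classical
  rw [hfree_apply]
  exact prod_ite_mem_Ydom_of_mem D σ p hg _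

theorem evalFix_hfree (m : coindSub D ρ) : evalFix D ρ σ (hfree D ρ σ p m) = 1 := by
  funext x
  rw [evalFix_apply, hfree_apply_of_mem D ρ σ p m (rep_mem_Zfix D σ x.2)]
  rfl

include hσp in
theorem hfree_mul_sigma (m : coindSub D ρ) (hm : nOp p (shift D ρ σ) m = 1) {g : Γ}
    (hg : g ∉ Zfix D σ) :
    (hfree D ρ σ p m).1 (g * σ) = m.1 g * (hfree D ρ σ p m).1 g := by
  classical
  have hN : ∏ j ∈ Finset.range p, m.1 (g * σ ^ j) = 1 := by
    rw [← nOp_shift_apply, hm]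
    rfl
  set P : ℕ → A := fun i => ∏ j ∈ Finset.range i, m.1 (g * σ ^ j) with hP
  set F : ℕ → A := fun i => if g * σ ^ i ∈ Ydom D σ then m.1 g * (P i)⁻¹ else 1 with hF
  have h1 : (hfree D ρ σ p m).1 (g * σ) = ∏ i ∈ Finset.range p, F (i + 1) := by
    rw [hfree_apply]
    refine Finset.prod_congr rfl fun i _ => ?_
    have e1 : g * σ * σ ^ i = g * σ ^ (i + 1) := by rw [pow_succ', mul_assoc]
    rw [e1]
    show _ = if g * σ ^ (i + 1) ∈ Ydom D σ then m.1 g * (P (i + 1))⁻¹ else 1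
    by_cases h : g * σ ^ (i + 1) ∈ Ydom D σ
    · rw [if_pos h, if_pos h]
      have e2 : P (i + 1) = m.1 g * ∏ j ∈ Finset.range i, m.1 (g * σ * σ ^ j) := by
        show ∏ j ∈ Finset.range (i + 1), m.1 (g * σ ^ j) = _
        rw [Finset.prod_range_succ', pow_zero, mul_one, mul_comm]
        congr 1
        refine Finset.prod_congr rfl fun j _ => ?_
        rw [pow_succ', mul_assoc]
      rw [e2, mul_inv, ← mul_assoc, mul_inv_cancel, one_mul]
    · rw [if_neg h, if_neg h]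
  have h2 : F p = F 0 := by
    show (if g * σ ^ p ∈ Ydom D σ then m.1 g * (P p)⁻¹ else 1) =
      (if g * σ ^ 0 ∈ Ydom D σ then m.1 g * (P 0)⁻¹ else 1)
    have e3 : P p = 1 := hN
    have e4 : P 0 = 1 := by
      show ∏ j ∈ Finset.range 0, m.1 (g * σ ^ j) = 1
      rw [Finset.range_zero, Finset.prod_empty]
    rw [hσp, pow_zero, e3, e4]
  have h3 : ∏ i ∈ Finset.range p, F (i + 1) = ∏ i ∈ Finset.range p, F i := by
    have e5 := Finset.prod_range_succ' F p
    rw [Finset.prod_range_succ, h2] at e5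
    exact (mul_right_cancel e5).symm
  have h4 : ∏ i ∈ Finset.range p, F i =
      (∏ i ∈ Finset.range p, if g * σ ^ i ∈ Ydom D σ then m.1 g else 1) *
        (hfree D ρ σ p m).1 g := by
    rw [hfree_apply, ← Finset.prod_mul_distrib]
    refine Finset.prod_congr rfl fun i _ => ?_
    show (if g * σ ^ i ∈ Ydom D σ then m.1 g * (P i)⁻¹ else 1) = _
    by_cases h : g * σ ^ i ∈ Ydom D σ
    · rw [if_pos h, if_pos h, if_pos h]
    · rw [if_neg h, if_neg h, if_neg h, one_mul]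
  rw [h1, h3, h4, prod_ite_mem_Ydom_of_notMem D σ p hσp hg]

include hσp in
/-- `#H¹` of the coinduced module is the one of the fixed-coset coordinates. -/
theorem hIdx_coind_H1_eq :
    hIdx (nOp p (shift D ρ σ)) (dOp (shift D ρ σ)) =
      hIdx (nOp p (Tfix D ρ σ)) (dOp (Tfix D ρ σ)) := by
  apply hIdx_eq_of_intertwine _ _ _ _ (evalFix D ρ σ)
  · intro m
    exact map_nOp p _ _ _ (evalFix_shift D ρ σ) m
  · intro m
    exact map_dOp _ _ _ (evalFix_shift D ρ σ) m
  · intro b hb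
    refine ⟨fixExt D ρ σ b, ?_, evalFix_fixExt D ρ σ b⟩
    rw [← map_nOp p (fixExt D ρ σ) (Tfix D ρ σ) (shift D ρ σ)
      (fun x => (shift_fixExt D ρ σ x).symm), hb, map_one]
  · rintro m hm ⟨b, hb⟩
    refine ⟨fixExt D ρ σ b * hfree D ρ σ p m, ?_⟩
    apply coind_ext D ρ σ
    · rw [map_dOp (evalFix D ρ σ) _ _ (evalFix_shift D ρ σ), map_mul, evalFix_fixExt,
        evalFix_hfree, mul_one, hb]
    · intro g hg
      rw [dOp_shift_apply]
      show (fixExt D ρ σ b).1 (g * σ) * (hfree D ρ σ p m).1 (g * σ) /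
        ((fixExt D ρ σ b).1 g * (hfree D ρ σ p m).1 g) = m.1 g
      rw [fixExt_apply_of_notMem D ρ σ b hg,
        fixExt_apply_of_notMem D ρ σ b (by rw [mul_sigma_mem_Zfix]; exact hg), one_mul, one_mul,
        hfree_mul_sigma D ρ σ p hσp m hm hg, mul_div_assoc, div_self', mul_one]

end CoindFinal

section CoindCount

variable {Γ : Type*} [Group Γ] (D : Subgroup Γ) {A : Type*} [CommGroup A] (ρ : D →* MulAut A)
  (σ : Γ) (p : ℕ) [hp : Fact p.Prime] (hσp : σ ^ p = 1) (hσ1 : σ ≠ 1) [Finite (Γ ⧸ D)]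

include hσp hσ1 in
/-- **Semilocal `H¹`**: Hilbert 90 for the subgroups of order `p` of `D` acting on `A` implies
`H¹(⟨σ⟩, coind_D^Γ A) = 1`. -/
theorem hIdx_coind_H1
    (h90 : ∀ τ : D, τ ≠ 1 → τ ^ p = 1 →
      (nOp p (ρ τ).toMonoidHom).ker ≤ (dOp (ρ τ).toMonoidHom).range) :
    hIdx (nOp p (shift D ρ σ)) (dOp (shift D ρ σ)) = 1 := by
  have := Fintype.ofFinite (FixC D σ)
  rw [hIdx_coind_H1_eq D ρ σ p hσp]
  unfold Tfix
  rw [nOp_piMap, dOp_piMap, hIdx_pi]
  apply Finset.prod_eq_one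
  intro x _
  unfold hIdx
  rw [Subgroup.relIndex_eq_one]
  exact h90 _ (tauOf_ne_one _ hσ1) (tauOf_pow _ hσp)

include hσp hσ1 in
/-- **Semilocal `Ĥ⁰`**: if `#Ĥ⁰(⟨τ⟩, A) = p` for the subgroups of order `p` of `D`, then
`#Ĥ⁰(⟨σ⟩, coind_D^Γ A) = p ^ #(Γ/D)^σ`. -/
theorem hIdx_coind_H0
    (h0 : ∀ τ : D, τ ≠ 1 → τ ^ p = 1 →
      hIdx (dOp (ρ τ).toMonoidHom) (nOp p (ρ τ).toMonoidHom) = p) :
    hIdx (dOp (shift D ρ σ)) (nOp p (shift D ρ σ)) = p ^ Nat.card (FixC D σ) := by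
  have := Fintype.ofFinite (FixC D σ)
  rw [hIdx_coind_H0_eq D ρ σ p hσp]
  unfold Tfix
  rw [nOp_piMap, dOp_piMap, hIdx_pi]
  rw [Finset.prod_congr rfl (fun x _ => h0 _ (tauOf_ne_one (rep_mem_Zfix D σ x.2) hσ1)
    (tauOf_pow (rep_mem_Zfix D σ x.2) hσp)), Finset.prod_const, Finset.card_univ,
    Fintype.card_eq_nat_card]

end CoindCount

section SemilocalProduct

variable {Γ : Type*} [Group Γ] {ι : Type*} [Fintype ι] (D : ι → Subgroup Γ) {A : ι → Type*}
  [∀ q, CommGroup (A q)] (ρ : ∀ q, D q →* MulAut (A q))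
  (σ : Γ) (p : ℕ) [hp : Fact p.Prime] (hσp : σ ^ p = 1) (hσ1 : σ ≠ 1) [∀ q, Finite (Γ ⧸ D q)]

/-- the semilocal "idele" module `∏_q coind_{D_q}^Γ A_q`. -/
abbrev semiloc : Type _ := ∀ q, coindSub (D q) (ρ q)

/-- right translation by `γ` on the semilocal module. -/
def semilocShift (γ : Γ) : semiloc D ρ →* semiloc D ρ :=
  MonoidHom.piMap fun q => shift (D q) (ρ q) γ

include hσp hσ1 in
theorem hIdx_semiloc_H1
    (h90 : ∀ q, ∀ τ : D q, τ ≠ 1 → τ ^ p = 1 →
      (nOp p (ρ q τ).toMonoidHom).ker ≤ (dOp (ρ q τ).toMonoidHom).range) :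
    hIdx (nOp p (semilocShift D ρ σ)) (dOp (semilocShift D ρ σ)) = 1 := by
  unfold semilocShift
  rw [nOp_piMap, dOp_piMap, hIdx_pi]
  exact Finset.prod_eq_one fun q _ => hIdx_coind_H1 (D q) (ρ q) σ p hσp hσ1 (h90 q)

include hσp hσ1 in
theorem hIdx_semiloc_H0
    (h0 : ∀ q, ∀ τ : D q, τ ≠ 1 → τ ^ p = 1 →
      hIdx (dOp (ρ q τ).toMonoidHom) (nOp p (ρ q τ).toMonoidHom) = p) :
    hIdx (dOp (semilocShift D ρ σ)) (nOp p (semilocShift D ρ σ)) =
      p ^ ∑ q, Nat.card (FixC (D q) σ) := by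
  unfold semilocShift
  rw [nOp_piMap, dOp_piMap, hIdx_pi,
    Finset.prod_congr rfl (fun q _ => hIdx_coind_H0 (D q) (ρ q) σ p hσp hσ1 (h0 q)),
    Finset.prod_pow_eq_pow_sum]

end SemilocalProduct

end Fermat.Agent.S55lib.FirstIneq
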