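/-
S55 sprint, block (IV) FIRST INEQUALITY (helper2).  File 7: the semilocal computation for `D`-sets.

`D` a group acting on a set `X`, `A` a commutative group with `D`-action `ρ`,
`M = Map_D(X, A)` the group of `D`-equivariant functions `X → A`, and `s : X → X` a map commuting
with `D` with `s^p = id` (`p` prime), acting on `M` by `f ↦ f ∘ s`.  Then the cohomology of `⟨s⟩`
on `M` is the product, over the `D`-orbits `O` with `s O = O`, of the cohomology of `⟨τ_O⟩` on
`A^{Stab(x_O)}` where `s x_O = τ_O • x_O`.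

Examples: `X = Γ` (left translation by `D ≤ Γ`, `s` = right translation by `σ`): `Semilocal.lean`;
`X = Γ/S'` : the `S'`-invariants of a coinduced module with its `S/S'`-action;
`X = Hom_ℚ(M, PadicAlgCl q)`, `D = Gal(PadicAlgCl q / ℚ_q)`, `A = (PadicAlgCl q)ˣ`:
`M ⊗ ℚ_q` for an arbitrary number field `M`, `s` = precomposition with `σ ∈ Gal(M/F)`.
-/
import Mathlib
import Fermat.Agent.S55lib.FirstIneq.Semilocal

set_option autoImplicit false
set_option linter.unusedSectionVars false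

namespace Fermat.Agent.S55lib.FirstIneq.GSet

open Fermat.Agent.S55lib.LocalH Fermat.Agent.S55lib.FirstIneq

section Tools

theorem hIdxSub_pi {ι : Type*} [Fintype ι] {G : ι → Type*} [∀ i, CommGroup (G i)]
    (f g : ∀ i, G i →* G i) (B : ∀ i, Subgroup (G i)) :
    hIdxSub (MonoidHom.piMap f) (MonoidHom.piMap g) (Subgroup.pi Set.univ B) =
      ∏ i, hIdxSub (f i) (g i) (B i) := by
  unfold hIdxSub
  have h1 : (Subgroup.pi Set.univ B).map (MonoidHom.piMap g) =
      Subgroup.pi Set.univ (fun i => (B i).map (g i)) := by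
    ext x
    rw [Subgroup.mem_map, Subgroup.mem_pi]
    constructor
    · rintro ⟨y, hy, rfl⟩ i _
      exact ⟨y i, hy i (Set.mem_univ i), rfl⟩
    · intro h
      choose y hy using fun i => h i (Set.mem_univ i)
      exact ⟨y, fun i _ => (hy i).1, funext fun i => (hy i).2⟩
  have h2 : Subgroup.pi Set.univ B ⊓ (MonoidHom.piMap f).ker =
      Subgroup.pi Set.univ (fun i => B i ⊓ (f i).ker) := by
    ext x
    rw [Subgroup.mem_inf, Subgroup.mem_pi, Subgroup.mem_pi, MonoidHom.mem_ker]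
    constructor
    · rintro ⟨h, h'⟩ i hi
      exact ⟨h i hi, congrFun h' i⟩
    · intro h
      exact ⟨fun i hi => (h i hi).1, funext fun i => (h i (Set.mem_univ i)).2⟩
  rw [h1, h2, relIndex_pi]

variable {M M' : Type*} [CommGroup M] [CommGroup M']

/-- transfer of a Herbrand index along an intertwining homomorphism `Φ` with values in a
subgroup `B'`, onto on kernels and reflecting images. -/
theorem hIdx_eq_hIdxSub_of_intertwine (f g : M →* M) (f' g' : M' →* M') (B' : Subgroup M')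
    (Φ : M →* M') (hΦ : ∀ m, Φ m ∈ B')
    (hf : ∀ m, Φ (f m) = f' (Φ m)) (hg : ∀ m, Φ (g m) = g' (Φ m))
    (hA : ∀ b ∈ B', f' b = 1 → ∃ m, f m = 1 ∧ Φ m = b)
    (hB : ∀ m, f m = 1 → Φ m ∈ B'.map g' → m ∈ g.range) :
    hIdx f g = hIdxSub f' g' B' := by
  unfold hIdx hIdxSub
  let φ : f.ker →* ↥(B' ⊓ f'.ker) :=
    (Φ.comp f.ker.subtype).codRestrict (B' ⊓ f'.ker) (fun m => by
      have h1 : f m.1 = 1 := m.2
      refine ⟨hΦ m.1, ?_⟩
      show f' (Φ m.1) = 1
      rw [← hf, h1, map_one])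
  have hφ : Function.Surjective φ := by
    rintro ⟨b, hb1, hb2⟩
    obtain ⟨m, hm1, hm2⟩ := hA b hb1 hb2
    exact ⟨⟨m, hm1⟩, Subtype.ext hm2⟩
  have hcomap : ((B'.map g').subgroupOf (B' ⊓ f'.ker)).comap φ = g.range.subgroupOf f.ker := by
    ext m
    rw [Subgroup.mem_comap, Subgroup.mem_subgroupOf, Subgroup.mem_subgroupOf]
    constructor
    · intro h
      exact hB m.1 m.2 h
    · rintro ⟨y, hy⟩
      show Φ m.1 ∈ B'.map g'
      rw [← hy, hg]
      exact ⟨Φ y, hΦ y, rfl⟩
  rw [Subgroup.relIndex, Subgroup.relIndex, ← hcomap, Subgroup.index_comap_of_surjective _ hφ]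

end Tools

section Basic

variable {D : Type*} [Group D] {X : Type*} [MulAction D X] {A : Type*} [CommGroup A]
  (ρ : D →* MulAut A)

/-- `D`-equivariant functions `X → A`. -/
def eqFun : Subgroup (X → A) where
  carrier := {f | ∀ (d : D) (x : X), f (d • x) = ρ d (f x)}
  one_mem' := fun d x => by
    show (1 : A) = ρ d 1
    rw [map_one]
  mul_mem' := fun {f f'} hf hf' d x => by
    show f (d • x) * f' (d • x) = ρ d (f x * f' x)
    rw [hf d x, hf' d x, map_mul]
  inv_mem' := fun {f} hf d x => by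
    show (f (d • x))⁻¹ = ρ d (f x)⁻¹
    rw [hf d x, map_inv]

/-- the elements of `A` fixed by the stabiliser of `x`. -/
def fixedSub (x : X) : Subgroup A where
  carrier := {a | ∀ d : D, d • x = x → ρ d a = a}
  one_mem' := fun d _ => map_one _
  mul_mem' := fun {a b} ha hb d hd => by rw [map_mul, ha d hd, hb d hd]
  inv_mem' := fun {a} ha d hd => by rw [map_inv, ha d hd]

theorem mem_fixedSub {x : X} {a : A} :
    a ∈ fixedSub ρ x ↔ ∀ d : D, d • x = x → ρ d a = a := Iff.rfl

theorem apply_mem_fixedSub (f : eqFun (X := X) ρ) (x : X) : f.1 x ∈ fixedSub ρ x := by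
  intro d hd
  rw [← f.2 d x, hd]

variable (s : X → X) (hs : ∀ (d : D) (x : X), s (d • x) = d • s x)

/-- `f ↦ f ∘ s`. -/
def shift : eqFun (X := X) ρ →* eqFun (X := X) ρ where
  toFun f := ⟨fun x => f.1 (s x), fun d x => by
    show f.1 (s (d • x)) = ρ d (f.1 (s x))
    rw [hs]
    exact f.2 d (s x)⟩
  map_one' := rfl
  map_mul' _ _ := rfl

theorem shift_apply (f : eqFun (X := X) ρ) (x : X) : (shift ρ s hs f).1 x = f.1 (s x) := rfl

theorem iterate_shift_apply (i : ℕ) (f : eqFun (X := X) ρ) (x : X) :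
    (((shift ρ s hs)^[i]) f).1 x = f.1 ((s^[i]) x) := by
  induction i generalizing f with
  | zero => rfl
  | succ i ih => rw [Function.iterate_succ_apply, ih, shift_apply, Function.iterate_succ_apply']

theorem dOp_shift_apply (f : eqFun (X := X) ρ) (x : X) :
    (dOp (shift ρ s hs) f).1 x = f.1 (s x) / f.1 x := rfl

theorem nOp_shift_apply (p : ℕ) (f : eqFun (X := X) ρ) (x : X) :
    (nOp p (shift ρ s hs) f).1 x = ∏ i ∈ Finset.range p, f.1 ((s^[i]) x) := by
  rw [nOp_apply, Subgroup.val_finsetProd, Finset.prod_apply]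
  exact Finset.prod_congr rfl fun i _ => iterate_shift_apply ρ s hs i f x

include hs in
theorem iterate_smul (i : ℕ) (d : D) (x : X) : (s^[i]) (d • x) = d • (s^[i]) x := by
  induction i generalizing x with
  | zero => rfl
  | succ i ih => rw [Function.iterate_succ_apply, Function.iterate_succ_apply, hs, ih]

end Basic

section Orbits

variable (D : Type*) [Group D] {X : Type*} [MulAction D X]
  (s : X → X) (hs : ∀ (d : D) (x : X), s (d • x) = d • s x)

/-- the points whose `D`-orbit is stable under `s`. -/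
def Zfix : Set X := {x | ∃ d : D, s x = d • x}

theorem mem_Zfix {x : X} : x ∈ Zfix D s ↔ ∃ d : D, s x = d • x := Iff.rfl

include hs in
theorem smul_mem_Zfix (d : D) {x : X} : d • x ∈ Zfix D s ↔ x ∈ Zfix D s := by
  constructor
  · rintro ⟨d', h⟩
    refine ⟨d⁻¹ * d' * d, ?_⟩
    rw [hs] at h
    rw [mul_smul, mul_smul, ← h, inv_smul_smul]
  · rintro ⟨d', h⟩
    refine ⟨d * d' * d⁻¹, ?_⟩
    rw [hs, h, mul_smul, mul_smul, inv_smul_smul]

include hs in
theorem apply_mem_Zfix {x : X} (hx : x ∈ Zfix D s) : s x ∈ Zfix D s := by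
  obtain ⟨d, h⟩ := hx
  exact ⟨d, by rw [h, hs, ← h]⟩

include hs in
theorem iterate_mem_Zfix (i : ℕ) {x : X} (hx : x ∈ Zfix D s) : (s^[i]) x ∈ Zfix D s := by
  induction i with
  | zero => exact hx
  | succ i ih =>
    rw [Function.iterate_succ_apply']
    exact apply_mem_Zfix D s hs ih

variable {p : ℕ} [hp : Fact p.Prime] (hsp : ∀ x, (s^[p]) x = x)

include hsp in
theorem iterate_mul_self (j : ℕ) (x : X) : (s^[p * j]) x = x := by
  rw [Function.iterate_mul]
  exact Function.iterate_fixed (hsp x) j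

include hsp in
theorem iterate_mod (k : ℕ) (x : X) : (s^[k]) x = (s^[k % p]) x := by
  conv_lhs => rw [← Nat.mod_add_div k p]
  rw [Function.iterate_add_apply, iterate_mul_self s hsp]

include hs hsp in
theorem iterate_mem_Zfix_iff (i : ℕ) {x : X} : (s^[i]) x ∈ Zfix D s ↔ x ∈ Zfix D s := by
  constructor
  · intro h
    have h1 := iterate_mem_Zfix D s hs ((p - 1) * i) h
    rw [← Function.iterate_add_apply] at h1
    have h2 : (p - 1) * i + i = p * i := by
      have := hp.out.one_le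
      calc (p - 1) * i + i = ((p - 1) + 1) * i := by ring
        _ = p * i := by rw [Nat.sub_add_cancel this]
    rw [h2, iterate_mul_self s hsp] at h1
    exact h1
  · exact iterate_mem_Zfix D s hs i

include hs hsp in
/-- a `D`-orbit which is not `s`-stable has a free `⟨s⟩`-orbit. -/
theorem iterate_notMem_orbit {x : X} (hx : x ∉ Zfix D s) {n : ℕ} (hn0 : 0 < n) (hnp : n < p) :
    ¬ ∃ d : D, (s^[n]) x = d • x := by
  rintro ⟨d, hd⟩
  apply hx
  have key : ∀ m : ℕ, (s^[n * m]) x = d ^ m • x := by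
    intro m
    induction m with
    | zero => simp
    | succ m ih =>
      rw [Nat.mul_succ, Function.iterate_add_apply, hd, iterate_smul s hs, ih, pow_succ', mul_smul]
  have hcop : Nat.Coprime n p :=
    ((Nat.Prime.coprime_iff_not_dvd hp.out).mpr (Nat.not_dvd_of_pos_of_lt hn0 hnp)).symm
  obtain ⟨m, -, hm⟩ := Nat.exists_mul_mod_eq_one_of_coprime hcop hp.out.one_lt
  refine ⟨d ^ m, ?_⟩
  rw [← key m, iterate_mod s hsp (n * m), hm]
  rfl

include hs hsp in
theorem eq_of_iterate_mem_orbit {x : X} (hx : x ∉ Zfix D s) {i j : ℕ} (hi : i < p) (hj : j < p)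
    (h : ∃ d : D, (s^[j]) x = d • (s^[i]) x) : i = j := by
  obtain ⟨d, hd⟩ := h
  by_contra hne
  rcases Nat.lt_or_gt_of_ne hne with hlt | hlt
  · have hx' : (s^[i]) x ∉ Zfix D s := fun h' => hx ((iterate_mem_Zfix_iff D s hs hsp i).mp h')
    apply iterate_notMem_orbit D s hs hsp hx' (Nat.sub_pos_of_lt hlt) (by omega : j - i < p)
    refine ⟨d, ?_⟩
    rw [← Function.iterate_add_apply, Nat.sub_add_cancel hlt.le]
    exact hd
  · have hx' : (s^[j]) x ∉ Zfix D s := fun h' => hx ((iterate_mem_Zfix_iff D s hs hsp j).mp h')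
    apply iterate_notMem_orbit D s hs hsp hx' (Nat.sub_pos_of_lt hlt) (by omega : i - j < p)
    refine ⟨d⁻¹, ?_⟩
    rw [← Function.iterate_add_apply, Nat.sub_add_cancel hlt.le, hd, inv_smul_smul]

/-- the relation "same `⟨D, s⟩`-orbit". -/
def orbRel (x y : X) : Prop := ∃ (d : D) (i : ℕ), y = d • (s^[i]) x

include hs hsp in
theorem orbRel_equivalence : Equivalence (orbRel D s) := by
  refine ⟨fun x => ⟨1, 0, by simp⟩, ?_, ?_⟩
  · rintro x y ⟨d, i, rfl⟩
    refine ⟨d⁻¹, (p - 1) * i, ?_⟩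
    rw [iterate_smul s hs, ← Function.iterate_add_apply]
    have h2 : (p - 1) * i + i = p * i := by
      have := hp.out.one_le
      calc (p - 1) * i + i = ((p - 1) + 1) * i := by ring
        _ = p * i := by rw [Nat.sub_add_cancel this]
    rw [h2, iterate_mul_self s hsp, inv_smul_smul]
  · rintro x y z ⟨d, i, rfl⟩ ⟨d', j, rfl⟩
    refine ⟨d' * d, j + i, ?_⟩
    rw [iterate_smul s hs, ← Function.iterate_add_apply, mul_smul]

/-- the setoid of `⟨D, s⟩`-orbits. -/
def orbSetoid : Setoid X := ⟨orbRel D s, orbRel_equivalence D s hs hsp⟩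

/-- a `D`-stable fundamental domain for `s` on the complement of `Zfix`. -/
def Ydom : Set X :=
  {x | x ∉ Zfix D s ∧ ∃ (d : D) (q : Quotient (orbSetoid D s hs hsp)), x = d • q.out}

theorem smul_mem_Ydom (d : D) {x : X} : d • x ∈ Ydom D s hs hsp ↔ x ∈ Ydom D s hs hsp := by
  constructor
  · rintro ⟨h1, d', q, h2⟩
    refine ⟨fun h => h1 ((smul_mem_Zfix D s hs d).mpr h), d⁻¹ * d', q, ?_⟩
    rw [mul_smul, ← h2, inv_smul_smul]
  · rintro ⟨h1, d', q, h2⟩
    refine ⟨fun h => h1 ((smul_mem_Zfix D s hs d).mp h), d * d', q, ?_⟩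
    rw [h2, mul_smul]

theorem exists_iterate_mem_Ydom {x : X} (hx : x ∉ Zfix D s) :
    ∃ i, i < p ∧ (s^[i]) x ∈ Ydom D s hs hsp := by
  have h1 : (orbSetoid D s hs hsp).r x (Quotient.out (Quotient.mk (orbSetoid D s hs hsp) x)) :=
    (orbSetoid D s hs hsp).symm (Quotient.mk_out (s := orbSetoid D s hs hsp) x)
  obtain ⟨d, i, hdi⟩ := h1
  refine ⟨i % p, Nat.mod_lt _ hp.out.pos, ?_, d⁻¹, Quotient.mk (orbSetoid D s hs hsp) x, ?_⟩
  · rw [iterate_mem_Zfix_iff D s hs hsp]
    exact hx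
  · rw [hdi, inv_smul_smul, ← iterate_mod s hsp]

theorem iterate_mem_Ydom_unique {x : X} (hx : x ∉ Zfix D s) {i j : ℕ} (hi : i < p) (hj : j < p)
    (h1 : (s^[i]) x ∈ Ydom D s hs hsp) (h2 : (s^[j]) x ∈ Ydom D s hs hsp) : i = j := by
  obtain ⟨-, d, q, hq⟩ := h1
  obtain ⟨-, d', q', hq'⟩ := h2
  have e1 : q = Quotient.mk (orbSetoid D s hs hsp) x := by
    rw [← Quotient.out_eq q]
    apply Quotient.sound
    apply (orbSetoid D s hs hsp).symm
    exact ⟨d⁻¹, i, by rw [hq, inv_smul_smul]⟩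
  have e2 : q' = Quotient.mk (orbSetoid D s hs hsp) x := by
    rw [← Quotient.out_eq q']
    apply Quotient.sound
    apply (orbSetoid D s hs hsp).symm
    exact ⟨d'⁻¹, j, by rw [hq', inv_smul_smul]⟩
  apply eq_of_iterate_mem_orbit D s hs hsp hx hi hj
  refine ⟨d' * d⁻¹, ?_⟩
  rw [hq', hq, e1, e2, mul_smul, inv_smul_smul]

end Orbits

section Transversal

variable (D : Type*) [Group D] {X : Type*} [MulAction D X]

/-- the `D`-orbits on `X`. -/
abbrev Orb (D : Type*) [Group D] (X : Type*) [MulAction D X] : Type _ :=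
  MulAction.orbitRel.Quotient D X

/-- the orbit of a point. -/
def orbOf (x : X) : Orb D X := Quotient.mk'' x

/-- a representative of an orbit. -/
noncomputable def rep (O : Orb D X) : X := Quotient.out O

theorem orbOf_rep (O : Orb D X) : orbOf D (rep D O) = O := Quotient.out_eq' O

theorem orbOf_smul (d : D) (x : X) : orbOf D (d • x) = orbOf D x :=
  Quotient.sound' (MulAction.orbitRel_apply.mpr ⟨d, rfl⟩)

theorem exists_smul_rep (x : X) : ∃ d : D, d • rep D (orbOf D x) = x := by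
  have h1 : (MulAction.orbitRel D X).r (rep D (orbOf D x)) x :=
    Quotient.mk_out (s := MulAction.orbitRel D X) x
  rw [MulAction.orbitRel_apply] at h1
  obtain ⟨d, hd⟩ := h1
  refine ⟨d⁻¹, ?_⟩
  rw [← hd]
  exact inv_smul_smul d x

/-- the `D`-component of `x` with respect to the representatives. -/
noncomputable def delta (x : X) : D := Classical.choose (exists_smul_rep D x)

theorem delta_smul_rep (x : X) : delta D x • rep D (orbOf D x) = x :=
  Classical.choose_spec (exists_smul_rep D x)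

end Transversal

section Main

variable {D : Type*} [Group D] {X : Type*} [MulAction D X] {A : Type*} [CommGroup A]
  (ρ : D →* MulAut A) (s : X → X) (hs : ∀ (d : D) (x : X), s (d • x) = d • s x)

/-- families, indexed by all orbits, of elements fixed by the stabiliser of the representative. -/
noncomputable def Ball : Subgroup (Orb D X → A) := Subgroup.pi Set.univ (fun O => fixedSub ρ (rep D O))

theorem rho_delta_smul (d : D) (x : X) {a : A} (ha : a ∈ fixedSub ρ (rep D (orbOf D x))) :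
    ρ (delta D (d • x)) a = ρ d (ρ (delta D x) a) := by
  have h1 : delta D (d • x) • rep D (orbOf D x) = d • x := by
    have := delta_smul_rep D (d • x)
    rwa [orbOf_smul] at this
  have h2 := delta_smul_rep D x
  have hk : ((d * delta D x)⁻¹ * delta D (d • x)) • rep D (orbOf D x) = rep D (orbOf D x) := by
    rw [mul_smul, h1, mul_inv_rev, mul_smul, inv_smul_smul]
    nth_rewrite 2 [← h2]
    rw [inv_smul_smul]
  have h3 := ha _ hk
  have h4 : delta D (d • x) = (d * delta D x) * ((d * delta D x)⁻¹ * delta D (d • x)) := by group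
  rw [h4, map_mul, MulAut.mul_apply, h3, map_mul, MulAut.mul_apply]

/-- the equivariant function with prescribed values at the representatives. -/
noncomputable def extHom : ↥(Ball (X := X) ρ) →* eqFun (X := X) ρ where
  toFun b := ⟨fun x => ρ (delta D x) (b.1 (orbOf D x)), fun d x => by
    show ρ (delta D (d • x)) (b.1 (orbOf D (d • x))) = ρ d (ρ (delta D x) (b.1 (orbOf D x)))
    rw [orbOf_smul]
    exact rho_delta_smul ρ d x (b.2 _ (Set.mem_univ _))⟩
  map_one' := by
    apply Subtype.ext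
    funext x
    show ρ (delta D x) 1 = 1
    rw [map_one]
  map_mul' b b' := by
    apply Subtype.ext
    funext x
    show ρ (delta D x) (b.1 (orbOf D x) * b'.1 (orbOf D x)) = _
    rw [map_mul]
    rfl

theorem extHom_apply (b : ↥(Ball (X := X) ρ)) (x : X) :
    (extHom ρ b).1 x = ρ (delta D x) (b.1 (orbOf D x)) := rfl

theorem extHom_rep (b : ↥(Ball (X := X) ρ)) (O : Orb D X) : (extHom ρ b).1 (rep D O) = b.1 O := by
  rw [extHom_apply]
  have h1 := delta_smul_rep D (rep D O)
  have h2 : ∀ O' : Orb D X, O' = O → delta D (rep D O) • rep D O' = rep D O →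
      ρ (delta D (rep D O)) (b.1 O') = b.1 O := by
    rintro O' rfl h
    exact b.2 _ (Set.mem_univ _) _ h
  exact h2 _ (orbOf_rep D O) h1

/-- the orbits stable under `s`. -/
abbrev FixO : Type _ := {O : Orb D X // rep D O ∈ Zfix D s}

/-- families, indexed by the `s`-stable orbits, of elements fixed by the stabiliser. -/
noncomputable def Bfix : Subgroup (FixO (D := D) s → A) :=
  Subgroup.pi Set.univ (fun O => fixedSub ρ (rep D O.1))

open Classical in
/-- extension by `1` to all orbits. -/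
noncomputable def zeroExt : ↥(Bfix ρ s) →* ↥(Ball (X := X) ρ) where
  toFun b := ⟨fun O => if h : rep D O ∈ Zfix D s then b.1 ⟨O, h⟩ else 1, fun O _ => by
    show (if h : rep D O ∈ Zfix D s then b.1 ⟨O, h⟩ else 1) ∈ fixedSub ρ (rep D O)
    by_cases h : rep D O ∈ Zfix D s
    · rw [dif_pos h]
      exact b.2 ⟨O, h⟩ (Set.mem_univ _)
    · rw [dif_neg h]
      exact Subgroup.one_mem _⟩
  map_one' := by
    apply Subtype.ext
    funext O
    show (if h : rep D O ∈ Zfix D s then (1 : A) else 1) = 1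
    by_cases h : rep D O ∈ Zfix D s
    · rw [dif_pos h]
    · rw [dif_neg h]
  map_mul' b b' := by
    apply Subtype.ext
    funext O
    show (if h : rep D O ∈ Zfix D s then b.1 ⟨O, h⟩ * b'.1 ⟨O, h⟩ else 1) =
      (if h : rep D O ∈ Zfix D s then b.1 ⟨O, h⟩ else 1) *
        (if h : rep D O ∈ Zfix D s then b'.1 ⟨O, h⟩ else 1)
    by_cases h : rep D O ∈ Zfix D s
    · rw [dif_pos h, dif_pos h, dif_pos h]
    · rw [dif_neg h, dif_neg h, dif_neg h, one_mul]

open Classical in
theorem zeroExt_apply_of_mem (b : ↥(Bfix ρ s)) {O : Orb D X} (h : rep D O ∈ Zfix D s) :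
    (zeroExt ρ s b).1 O = b.1 ⟨O, h⟩ := by
  show (if h : rep D O ∈ Zfix D s then b.1 ⟨O, h⟩ else 1) = _
  rw [dif_pos h]

open Classical in
theorem zeroExt_apply_of_notMem (b : ↥(Bfix ρ s)) {O : Orb D X} (h : rep D O ∉ Zfix D s) :
    (zeroExt ρ s b).1 O = 1 := by
  show (if h : rep D O ∈ Zfix D s then b.1 ⟨O, h⟩ else 1) = _
  rw [dif_neg h]

/-- the equivariant function supported on the stable orbits with prescribed values. -/
noncomputable def fixExt : ↥(Bfix ρ s) →* eqFun (X := X) ρ := (extHom ρ).comp (zeroExt ρ s)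

/-- evaluation at the representatives of the stable orbits. -/
noncomputable def evalFix : eqFun (X := X) ρ →* (FixO (D := D) s → A) where
  toFun f O := f.1 (rep D O.1)
  map_one' := rfl
  map_mul' _ _ := rfl

theorem evalFix_apply (f : eqFun (X := X) ρ) (O : FixO (D := D) s) :
    evalFix ρ s f O = f.1 (rep D O.1) := rfl

theorem evalFix_mem (f : eqFun (X := X) ρ) : evalFix ρ s f ∈ Bfix ρ s :=
  fun O _ => apply_mem_fixedSub ρ f (rep D O.1)

/-- an element of `D` moving the representative like `s`. -/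
noncomputable def tau (O : FixO (D := D) (X := X) s) : D := Classical.choose O.2

theorem tau_spec (O : FixO (D := D) (X := X) s) : s (rep D O.1) = tau s O • rep D O.1 :=
  Classical.choose_spec O.2

/-- the action of `s` on the coordinates of the stable orbits. -/
noncomputable def Tfix : (FixO (D := D) s → A) →* (FixO (D := D) s → A) :=
  MonoidHom.piMap fun O => (ρ (tau s O)).toMonoidHom

theorem Tfix_apply (b : FixO (D := D) s → A) (O : FixO (D := D) s) :
    Tfix ρ s b O = ρ (tau s O) (b O) := rfl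

include hs in
theorem rho_mem_fixedSub {x : X} {τ : D} (hτ : s x = τ • x) {a : A} (ha : a ∈ fixedSub ρ x) :
    ρ τ a ∈ fixedSub ρ x := by
  intro d hd
  have hk : (τ⁻¹ * d * τ) • x = x := by
    rw [mul_smul, mul_smul, ← hτ, ← hs, hd, hτ, inv_smul_smul]
  have h1 := ha _ hk
  have h2 : d * τ = τ * (τ⁻¹ * d * τ) := by group
  rw [← MulAut.mul_apply, ← map_mul, h2, map_mul, MulAut.mul_apply, h1]

include hs in
theorem Tfix_mem {b : FixO (D := D) s → A} (hb : b ∈ Bfix ρ s) : Tfix ρ s b ∈ Bfix ρ s :=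
  fun O _ => rho_mem_fixedSub ρ s hs (tau_spec s O) (hb O (Set.mem_univ _))

/-- `Tfix` on the subgroup `Bfix`. -/
noncomputable def TfixB : ↥(Bfix ρ s) →* ↥(Bfix ρ s) :=
  resHom (Tfix ρ s) (Bfix ρ s) (fun _ hb => Tfix_mem ρ s hs hb)

theorem coe_TfixB (b : ↥(Bfix ρ s)) : (TfixB ρ s hs b).1 = Tfix ρ s b.1 := rfl

theorem evalFix_shift (f : eqFun (X := X) ρ) :
    evalFix ρ s (shift ρ s hs f) = Tfix ρ s (evalFix ρ s f) := by
  funext O
  rw [evalFix_apply, shift_apply, Tfix_apply, evalFix_apply, tau_spec s O]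
  exact f.2 _ _

theorem evalFix_fixExt (b : ↥(Bfix ρ s)) : evalFix ρ s (fixExt ρ s b) = b.1 := by
  funext O
  rw [evalFix_apply]
  show (extHom ρ (zeroExt ρ s b)).1 (rep D O.1) = b.1 O
  rw [extHom_rep, zeroExt_apply_of_mem ρ s b O.2]

include hs in
theorem rep_orbOf_mem_Zfix_iff (x : X) : rep D (orbOf D x) ∈ Zfix D s ↔ x ∈ Zfix D s := by
  have h := delta_smul_rep D x
  constructor
  · intro h1
    rw [← h, smul_mem_Zfix D s hs]
    exact h1
  · intro h1
    rw [← h, smul_mem_Zfix D s hs] at h1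
    exact h1

include hs in
theorem fixExt_apply_of_notMem (b : ↥(Bfix ρ s)) {x : X} (hx : x ∉ Zfix D s) :
    (fixExt ρ s b).1 x = 1 := by
  show (extHom ρ (zeroExt ρ s b)).1 x = 1
  rw [extHom_apply, zeroExt_apply_of_notMem, map_one]
  rw [rep_orbOf_mem_Zfix_iff s hs]
  exact hx

include hs in
/-- two equivariant functions agreeing at the representatives of the stable orbits and off the
stable part are equal. -/
theorem eqFun_ext {f f' : eqFun (X := X) ρ} (h1 : evalFix ρ s f = evalFix ρ s f')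
    (h2 : ∀ x, x ∉ Zfix D s → f.1 x = f'.1 x) : f = f' := by
  apply Subtype.ext
  funext x
  by_cases hx : x ∈ Zfix D s
  · have hO : rep D (orbOf D x) ∈ Zfix D s := (rep_orbOf_mem_Zfix_iff s hs x).mpr hx
    have h3 := congrFun h1 ⟨orbOf D x, hO⟩
    rw [evalFix_apply, evalFix_apply] at h3
    have h4 := delta_smul_rep D x
    rw [← h4, f.2, f'.2, h3]
  · exact h2 x hx

variable {p : ℕ} [hp : Fact p.Prime] (hsp : ∀ x, (s^[p]) x = x)

include hsp in
theorem shift_fixExt (b : ↥(Bfix ρ s)) :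
    shift ρ s hs (fixExt ρ s b) = fixExt ρ s (TfixB ρ s hs b) := by
  apply eqFun_ext ρ s hs
  · rw [evalFix_shift, evalFix_fixExt, evalFix_fixExt, coe_TfixB]
  · intro x hx
    rw [shift_apply, fixExt_apply_of_notMem ρ s hs _ hx, fixExt_apply_of_notMem ρ s hs]
    intro h
    exact hx ((iterate_mem_Zfix_iff D s hs hsp 1).mp h)

end Main

section Final

variable {D : Type*} [Group D] {X : Type*} [MulAction D X] {A : Type*} [CommGroup A]
  (ρ : D →* MulAut A) (s : X → X) (hs : ∀ (d : D) (x : X), s (d • x) = d • s x)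
  (p : ℕ) [hp : Fact p.Prime] (hsp : ∀ x, (s^[p]) x = x)

open Classical in
/-- multiplication by the indicator function of the fundamental domain `Ydom`. -/
noncomputable def epsY : eqFun (X := X) ρ →* eqFun (X := X) ρ where
  toFun f := ⟨fun x => if x ∈ Ydom D s hs hsp then f.1 x else 1, fun d x => by
    show (if d • x ∈ Ydom D s hs hsp then f.1 (d • x) else 1) =
      ρ d (if x ∈ Ydom D s hs hsp then f.1 x else 1)
    by_cases h : x ∈ Ydom D s hs hsp
    · rw [if_pos h, if_pos ((smul_mem_Ydom D s hs hsp d).mpr h)]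
      exact f.2 d x
    · rw [if_neg h, if_neg (fun h' => h ((smul_mem_Ydom D s hs hsp d).mp h')), map_one]⟩
  map_one' := by
    apply Subtype.ext
    funext x
    show (if x ∈ Ydom D s hs hsp then (1 : A) else 1) = 1
    rw [ite_self]
  map_mul' f f' := by
    apply Subtype.ext
    funext x
    show (if x ∈ Ydom D s hs hsp then f.1 x * f'.1 x else 1) =
      (if x ∈ Ydom D s hs hsp then f.1 x else 1) * (if x ∈ Ydom D s hs hsp then f'.1 x else 1)
    by_cases h : x ∈ Ydom D s hs hsp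
    · rw [if_pos h, if_pos h, if_pos h]
    · rw [if_neg h, if_neg h, if_neg h, one_mul]

open Classical in
theorem epsY_apply (f : eqFun (X := X) ρ) (x : X) :
    (epsY ρ s hs p hsp f).1 x = if x ∈ Ydom D s hs hsp then f.1 x else 1 := rfl

theorem evalFix_epsY (f : eqFun (X := X) ρ) : evalFix ρ s (epsY ρ s hs p hsp f) = 1 := by
  classical
  funext O
  rw [evalFix_apply, epsY_apply, if_neg]
  · rfl
  · intro h
    exact h.1 O.2

open Classical in
theorem prod_ite_mem_Ydom_of_notMem {x : X} (hx : x ∉ Zfix D s) (a : A) :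
    ∏ i ∈ Finset.range p, (if (s^[i]) x ∈ Ydom D s hs hsp then a else 1) = a := by
  obtain ⟨i0, hi0, hmem⟩ := exists_iterate_mem_Ydom D s hs hsp hx
  rw [Finset.prod_eq_single i0]
  · rw [if_pos hmem]
  · intro j hj hne
    rw [if_neg]
    intro h
    exact hne (iterate_mem_Ydom_unique D s hs hsp hx (Finset.mem_range.mp hj) hi0 h hmem)
  · intro h
    exact absurd (Finset.mem_range.mpr hi0) h

open Classical in
theorem prod_ite_mem_Ydom_of_mem {x : X} (hx : x ∈ Zfix D s) (a : ℕ → A) :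
    ∏ i ∈ Finset.range p, (if (s^[i]) x ∈ Ydom D s hs hsp then a i else 1) = 1 :=
  Finset.prod_eq_one fun i _ =>
    if_neg fun h => h.1 ((iterate_mem_Zfix_iff D s hs hsp i).mpr hx)

theorem apply_iterate_of_dOp_eq_one {m : eqFun (X := X) ρ} (hm : dOp (shift ρ s hs) m = 1)
    (x : X) (i : ℕ) : m.1 ((s^[i]) x) = m.1 x := by
  have h1 : ∀ x, m.1 (s x) = m.1 x := by
    intro x
    have h2 := congrArg (fun f : eqFun (X := X) ρ => f.1 x) hm
    simp only [dOp_shift_apply] at h2
    exact div_eq_one.mp h2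
  induction i with
  | zero => rfl
  | succ i ih => rw [Function.iterate_succ_apply', h1, ih]

theorem val_dOp_TfixB (b : ↥(Bfix ρ s)) :
    (dOp (TfixB ρ s hs) b).1 = dOp (Tfix ρ s) b.1 :=
  map_dOp (Bfix ρ s).subtype (TfixB ρ s hs) (Tfix ρ s) (fun _ => rfl) b

theorem val_nOp_TfixB (b : ↥(Bfix ρ s)) :
    (nOp p (TfixB ρ s hs) b).1 = nOp p (Tfix ρ s) b.1 :=
  map_nOp p (Bfix ρ s).subtype (TfixB ρ s hs) (Tfix ρ s) (fun _ => rfl) b

include hsp in
/-- `#Ĥ⁰` of `Map_D(X, A)` is the one of the coordinates at the stable orbits. -/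
theorem hIdx_eqFun_H0_eq :
    hIdx (dOp (shift ρ s hs)) (nOp p (shift ρ s hs)) =
      hIdxSub (dOp (Tfix ρ s)) (nOp p (Tfix ρ s)) (Bfix ρ s) := by
  classical
  apply hIdx_eq_hIdxSub_of_intertwine _ _ _ _ _ (evalFix ρ s) (evalFix_mem ρ s)
  · intro m
    exact map_dOp _ _ _ (evalFix_shift ρ s hs) m
  · intro m
    exact map_nOp p _ _ _ (evalFix_shift ρ s hs) m
  · intro b hbB hb
    refine ⟨fixExt ρ s ⟨b, hbB⟩, ?_, evalFix_fixExt ρ s ⟨b, hbB⟩⟩
    rw [← map_dOp (fixExt ρ s) (TfixB ρ s hs) (shift ρ s hs)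
      (fun x => (shift_fixExt ρ s hs hsp x).symm)]
    have h1 : dOp (TfixB ρ s hs) ⟨b, hbB⟩ = 1 := by
      apply Subtype.ext
      rw [val_dOp_TfixB]
      exact hb
    rw [h1, map_one]
  · rintro m hm ⟨b, hbB, hb⟩
    refine ⟨fixExt ρ s ⟨b, hbB⟩ * epsY ρ s hs p hsp m, ?_⟩
    apply eqFun_ext ρ s hs
    · rw [map_nOp p (evalFix ρ s) _ _ (evalFix_shift ρ s hs), map_mul, evalFix_fixExt,
        evalFix_epsY, mul_one]
      exact hb
    · intro x hx
      rw [nOp_shift_apply]
      have h1 : ∀ i ∈ Finset.range p,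
          (fixExt ρ s ⟨b, hbB⟩ * epsY ρ s hs p hsp m).1 ((s^[i]) x) =
          if (s^[i]) x ∈ Ydom D s hs hsp then m.1 x else 1 := by
        intro i _
        show (fixExt ρ s ⟨b, hbB⟩).1 ((s^[i]) x) * (epsY ρ s hs p hsp m).1 ((s^[i]) x) = _
        rw [fixExt_apply_of_notMem ρ s hs _
          (fun h => hx ((iterate_mem_Zfix_iff D s hs hsp i).mp h)), one_mul,
          epsY_apply, apply_iterate_of_dOp_eq_one ρ s hs hm]
      rw [Finset.prod_congr rfl h1, prod_ite_mem_Ydom_of_notMem s hs p hsp hx]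

open Classical in
/-- the primitive of the free part of a norm-one element. -/
noncomputable def hfree (m : eqFun (X := X) ρ) : eqFun (X := X) ρ :=
  ⟨fun x => ∏ i ∈ Finset.range p,
    if (s^[i]) x ∈ Ydom D s hs hsp then (∏ j ∈ Finset.range i, m.1 ((s^[j]) x))⁻¹ else 1,
    fun d x => by
    show (∏ i ∈ Finset.range p, if (s^[i]) (d • x) ∈ Ydom D s hs hsp then
        (∏ j ∈ Finset.range i, m.1 ((s^[j]) (d • x)))⁻¹ else 1) =
      ρ d (∏ i ∈ Finset.range p, if (s^[i]) x ∈ Ydom D s hs hsp then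
        (∏ j ∈ Finset.range i, m.1 ((s^[j]) x))⁻¹ else 1)
    rw [map_prod]
    refine Finset.prod_congr rfl fun i _ => ?_
    rw [iterate_smul s hs]
    by_cases h : (s^[i]) x ∈ Ydom D s hs hsp
    · rw [if_pos h, if_pos ((smul_mem_Ydom D s hs hsp d).mpr h), map_inv, map_prod]
      congr 1
      refine Finset.prod_congr rfl fun j _ => ?_
      rw [iterate_smul s hs]
      exact m.2 d _
    · rw [if_neg h, if_neg (fun h' => h ((smul_mem_Ydom D s hs hsp d).mp h')), map_one]⟩

open Classical in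
theorem hfree_apply (m : eqFun (X := X) ρ) (x : X) :
    (hfree ρ s hs p hsp m).1 x = ∏ i ∈ Finset.range p,
      if (s^[i]) x ∈ Ydom D s hs hsp then (∏ j ∈ Finset.range i, m.1 ((s^[j]) x))⁻¹ else 1 := rfl

theorem hfree_apply_of_mem (m : eqFun (X := X) ρ) {x : X} (hx : x ∈ Zfix D s) :
    (hfree ρ s hs p hsp m).1 x = 1 := by
  classical
  rw [hfree_apply]
  exact prod_ite_mem_Ydom_of_mem s hs p hsp hx _

theorem evalFix_hfree (m : eqFun (X := X) ρ) : evalFix ρ s (hfree ρ s hs p hsp m) = 1 := by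
  funext O
  rw [evalFix_apply, hfree_apply_of_mem ρ s hs p hsp m O.2]
  rfl

theorem hfree_apply_s (m : eqFun (X := X) ρ) (hm : nOp p (shift ρ s hs) m = 1) {x : X}
    (hx : x ∉ Zfix D s) :
    (hfree ρ s hs p hsp m).1 (s x) = m.1 x * (hfree ρ s hs p hsp m).1 x := by
  classical
  have hN : ∏ j ∈ Finset.range p, m.1 ((s^[j]) x) = 1 := by
    rw [← nOp_shift_apply ρ s hs, hm]
    rfl
  set P : ℕ → A := fun i => ∏ j ∈ Finset.range i, m.1 ((s^[j]) x) with hP
  set F : ℕ → A := fun i => if (s^[i]) x ∈ Ydom D s hs hsp then m.1 x * (P i)⁻¹ else 1 with hF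
  have h1 : (hfree ρ s hs p hsp m).1 (s x) = ∏ i ∈ Finset.range p, F (i + 1) := by
    rw [hfree_apply]
    refine Finset.prod_congr rfl fun i _ => ?_
    rw [← Function.iterate_succ_apply]
    show _ = if (s^[i + 1]) x ∈ Ydom D s hs hsp then m.1 x * (P (i + 1))⁻¹ else 1
    by_cases h : (s^[i + 1]) x ∈ Ydom D s hs hsp
    · rw [if_pos h, if_pos h]
      have e2 : P (i + 1) = m.1 x * ∏ j ∈ Finset.range i, m.1 ((s^[j]) (s x)) := by
        show ∏ j ∈ Finset.range (i + 1), m.1 ((s^[j]) x) = _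
        rw [Finset.prod_range_succ', mul_comm]
        rfl
      rw [e2, mul_inv, ← mul_assoc, mul_inv_cancel, one_mul]
    · rw [if_neg h, if_neg h]
  have h2 : F p = F 0 := by
    show (if (s^[p]) x ∈ Ydom D s hs hsp then m.1 x * (P p)⁻¹ else 1) =
      (if (s^[0]) x ∈ Ydom D s hs hsp then m.1 x * (P 0)⁻¹ else 1)
    have e3 : P p = 1 := hN
    have e4 : P 0 = 1 := by
      show ∏ j ∈ Finset.range 0, m.1 ((s^[j]) x) = 1
      rw [Finset.range_zero, Finset.prod_empty]
    rw [hsp, e3, e4]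
    rfl
  have h3 : ∏ i ∈ Finset.range p, F (i + 1) = ∏ i ∈ Finset.range p, F i := by
    have e5 := Finset.prod_range_succ' F p
    rw [Finset.prod_range_succ, h2] at e5
    exact (mul_right_cancel e5).symm
  have h4 : ∏ i ∈ Finset.range p, F i =
      (∏ i ∈ Finset.range p, if (s^[i]) x ∈ Ydom D s hs hsp then m.1 x else 1) *
        (hfree ρ s hs p hsp m).1 x := by
    rw [hfree_apply, ← Finset.prod_mul_distrib]
    refine Finset.prod_congr rfl fun i _ => ?_
    show (if (s^[i]) x ∈ Ydom D s hs hsp then m.1 x * (P i)⁻¹ else 1) = _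
    by_cases h : (s^[i]) x ∈ Ydom D s hs hsp
    · rw [if_pos h, if_pos h, if_pos h]
    · rw [if_neg h, if_neg h, if_neg h, one_mul]
  rw [h1, h3, h4, prod_ite_mem_Ydom_of_notMem s hs p hsp hx]

include hsp in
/-- `#H¹` of `Map_D(X, A)` is the one of the coordinates at the stable orbits. -/
theorem hIdx_eqFun_H1_eq :
    hIdx (nOp p (shift ρ s hs)) (dOp (shift ρ s hs)) =
      hIdxSub (nOp p (Tfix ρ s)) (dOp (Tfix ρ s)) (Bfix ρ s) := by
  apply hIdx_eq_hIdxSub_of_intertwine _ _ _ _ _ (evalFix ρ s) (evalFix_mem ρ s)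
  · intro m
    exact map_nOp p _ _ _ (evalFix_shift ρ s hs) m
  · intro m
    exact map_dOp _ _ _ (evalFix_shift ρ s hs) m
  · intro b hbB hb
    refine ⟨fixExt ρ s ⟨b, hbB⟩, ?_, evalFix_fixExt ρ s ⟨b, hbB⟩⟩
    rw [← map_nOp p (fixExt ρ s) (TfixB ρ s hs) (shift ρ s hs)
      (fun x => (shift_fixExt ρ s hs hsp x).symm)]
    have h1 : nOp p (TfixB ρ s hs) ⟨b, hbB⟩ = 1 := by
      apply Subtype.ext
      rw [val_nOp_TfixB]
      exact hb
    rw [h1, map_one]
  · rintro m hm ⟨b, hbB, hb⟩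
    refine ⟨fixExt ρ s ⟨b, hbB⟩ * hfree ρ s hs p hsp m, ?_⟩
    apply eqFun_ext ρ s hs
    · rw [map_dOp (evalFix ρ s) _ _ (evalFix_shift ρ s hs), map_mul, evalFix_fixExt,
        evalFix_hfree, mul_one]
      exact hb
    · intro x hx
      rw [dOp_shift_apply]
      show (fixExt ρ s ⟨b, hbB⟩).1 (s x) * (hfree ρ s hs p hsp m).1 (s x) /
        ((fixExt ρ s ⟨b, hbB⟩).1 x * (hfree ρ s hs p hsp m).1 x) = m.1 x
      rw [fixExt_apply_of_notMem ρ s hs _ hx,
        fixExt_apply_of_notMem ρ s hs _ (x := s x)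
          (fun h => hx ((iterate_mem_Zfix_iff D s hs hsp 1).mp h)), one_mul, one_mul,
        hfree_apply_s ρ s hs p hsp m hm hx, mul_div_assoc, div_self', mul_one]

end Final

section Count

variable {D : Type*} [Group D] {X : Type*} [MulAction D X] {A : Type*} [CommGroup A]
  (ρ : D →* MulAut A) (s : X → X) (hs : ∀ (d : D) (x : X), s (d • x) = d • s x)
  (p : ℕ) [hp : Fact p.Prime] (hsp : ∀ x, (s^[p]) x = x) [Finite (Orb D X)]

include hsp in
/-- **Semilocal `H¹`, `D`-set version.** -/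
theorem hIdx_eqFun_H1
    (h90 : ∀ (x : X) (τ : D), s x = τ • x →
      hIdxSub (nOp p (ρ τ).toMonoidHom) (dOp (ρ τ).toMonoidHom) (fixedSub ρ x) = 1) :
    hIdx (nOp p (shift ρ s hs)) (dOp (shift ρ s hs)) = 1 := by
  have := Fintype.ofFinite (FixO (D := D) (X := X) s)
  rw [hIdx_eqFun_H1_eq ρ s hs p hsp]
  unfold Tfix Bfix
  rw [nOp_piMap, dOp_piMap, hIdxSub_pi]
  exact Finset.prod_eq_one fun O _ => h90 _ _ (tau_spec s O)

include hsp in
/-- **Semilocal `Ĥ⁰`, `D`-set version.** -/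
theorem hIdx_eqFun_H0
    (h0 : ∀ (x : X) (τ : D), s x = τ • x →
      hIdxSub (dOp (ρ τ).toMonoidHom) (nOp p (ρ τ).toMonoidHom) (fixedSub ρ x) = p) :
    hIdx (dOp (shift ρ s hs)) (nOp p (shift ρ s hs)) =
      p ^ Nat.card (FixO (D := D) (X := X) s) := by
  have := Fintype.ofFinite (FixO (D := D) (X := X) s)
  rw [hIdx_eqFun_H0_eq ρ s hs p hsp]
  unfold Tfix Bfix
  rw [nOp_piMap, dOp_piMap, hIdxSub_pi,
    Finset.prod_congr rfl (fun O _ => h0 _ _ (tau_spec s O)), Finset.prod_const,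
    Finset.card_univ, Fintype.card_eq_nat_card]

end Count

section Product

variable {ι : Type*} [Fintype ι] {D : ι → Type*} [∀ q, Group (D q)] {X : ι → Type*}
  [∀ q, MulAction (D q) (X q)] {A : ι → Type*} [∀ q, CommGroup (A q)]
  (ρ : ∀ q, D q →* MulAut (A q)) (s : ∀ q, X q → X q)
  (hs : ∀ q, ∀ (d : D q) (x : X q), s q (d • x) = d • s q x)
  (p : ℕ) [hp : Fact p.Prime] (hsp : ∀ q, ∀ x, ((s q)^[p]) x = x) [∀ q, Finite (Orb (D q) (X q))]

/-- the semilocal module `∏_q Map_{D_q}(X_q, A_q)`. -/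
abbrev semilocSet (X : ι → Type*) [∀ q, MulAction (D q) (X q)] (ρ : ∀ q, D q →* MulAut (A q)) :
    Type _ := ∀ q, eqFun (X := X q) (ρ q)

/-- the action of `s` on the semilocal module. -/
def semilocSetShift : semilocSet X ρ →* semilocSet X ρ :=
  MonoidHom.piMap fun q => shift (ρ q) (s q) (hs q)

include hsp in
theorem hIdx_semilocSet_H1
    (h90 : ∀ q, ∀ (x : X q) (τ : D q), s q x = τ • x →
      hIdxSub (nOp p (ρ q τ).toMonoidHom) (dOp (ρ q τ).toMonoidHom) (fixedSub (ρ q) x) = 1) :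
    hIdx (nOp p (semilocSetShift ρ s hs)) (dOp (semilocSetShift ρ s hs)) = 1 := by
  unfold semilocSetShift
  rw [nOp_piMap, dOp_piMap, hIdx_pi]
  exact Finset.prod_eq_one fun q _ => hIdx_eqFun_H1 (ρ q) (s q) (hs q) p (hsp q) (h90 q)

include hsp in
theorem hIdx_semilocSet_H0
    (h0 : ∀ q, ∀ (x : X q) (τ : D q), s q x = τ • x →
      hIdxSub (dOp (ρ q τ).toMonoidHom) (nOp p (ρ q τ).toMonoidHom) (fixedSub (ρ q) x) = p) :
    hIdx (dOp (semilocSetShift ρ s hs)) (nOp p (semilocSetShift ρ s hs)) =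
      p ^ ∑ q, Nat.card (FixO (D := D q) (X := X q) (s q)) := by
  unfold semilocSetShift
  rw [nOp_piMap, dOp_piMap, hIdx_pi,
    Finset.prod_congr rfl (fun q _ => hIdx_eqFun_H0 (ρ q) (s q) (hs q) p (hsp q) (h0 q)),
    Finset.prod_pow_eq_pow_sum]

end Product

end Fermat.Agent.S55lib.FirstIneq.GSet
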