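/-
S55 sprint, block (IV) FIRST INEQUALITY (helper2).  File 1: the rank of the group of `S`-units of a
number field (the rank part of Dirichlet's `S`-unit theorem):

  `finrank ℤ (Additive (S.unit F)) = Units.rank F + #S`   (`S` a finite set of finite primes of `F`).

Proof: the valuation vector `S.unit F → ℤ^S` has kernel `(𝓞 F)ˣ` and its image contains `h • ℤ^S`
(`h` the class number: `v ^ h` is principal).
-/
import Mathlib
import Fermat.Agent.ExtVan.HerbrandPrime

set_option autoImplicit false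

namespace Fermat.Agent.S55lib.FirstIneq

open NumberField IsDedekindDomain Module

section Ord

variable {F : Type*} [Field F] [NumberField F]

/-- the (multiplicatively written) valuation `Fˣ → Multiplicative ℤ` at a finite prime. -/
noncomputable def ordHom (v : HeightOneSpectrum (𝓞 F)) : Fˣ →* Multiplicative ℤ :=
  (WithZero.unitsWithZeroEquiv (α := Multiplicative ℤ)).toMonoidHom.comp
    (Units.map (v.valuation F).toMonoidHom)

theorem coe_ordHom (v : HeightOneSpectrum (𝓞 F)) (x : Fˣ) :
    ((ordHom v x : Multiplicative ℤ) : WithZero (Multiplicative ℤ)) = v.valuation F (x : F) := by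
  simp [ordHom, WithZero.unitsWithZeroEquiv]

theorem ordHom_eq_one_iff (v : HeightOneSpectrum (𝓞 F)) (x : Fˣ) :
    ordHom v x = 1 ↔ v.valuation F (x : F) = 1 := by
  rw [← coe_ordHom, ← WithZero.coe_one, WithZero.coe_inj]

end Ord

section SUnit

variable {F : Type*} [Field F] [NumberField F] (S : Finset (HeightOneSpectrum (𝓞 F)))

/-- the group of `S`-units of `F`, for a finite set `S` of finite primes. -/
noncomputable abbrev sUnit : Subgroup Fˣ := (S : Set (HeightOneSpectrum (𝓞 F))).unit F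

variable {S}

theorem mem_sUnit_iff {x : Fˣ} :
    x ∈ sUnit S ↔ ∀ v : HeightOneSpectrum (𝓞 F), v ∉ S → v.valuation F (x : F) = 1 :=
  Iff.rfl

variable (S)

/-- the valuation vector of an `S`-unit, additively. -/
noncomputable def ordVec : Additive (sUnit S) →ₗ[ℤ] (S → ℤ) :=
  AddMonoidHom.toIntLinearMap
    { toFun := fun x v => Multiplicative.toAdd (ordHom v.1 (x.toMul : Fˣ))
      map_zero' := by
        funext v
        simp
      map_add' := by
        intro x y
        funext v
        simp }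

theorem ordVec_apply (x : Additive (sUnit S)) (v : S) :
    ordVec S x v = Multiplicative.toAdd (ordHom v.1 (x.toMul : Fˣ)) := rfl

/-- the units of `𝓞 F` inside the `S`-units. -/
noncomputable def unitsToSUnit : Additive (𝓞 F)ˣ →ₗ[ℤ] Additive (sUnit S) :=
  AddMonoidHom.toIntLinearMap
    (MonoidHom.toAdditive
      ((Units.map (algebraMap (𝓞 F) F).toMonoidHom).codRestrict (sUnit S) (by
        intro u
        rw [mem_sUnit_iff]
        intro v _
        have h1 : v.valuation F ((algebraMap (𝓞 F) F) (u : 𝓞 F)) ≤ 1 := v.valuation_le_one _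
        have h2 : v.valuation F ((algebraMap (𝓞 F) F) ((u⁻¹ : (𝓞 F)ˣ) : 𝓞 F)) ≤ 1 :=
          v.valuation_le_one _
        have h3 : v.valuation F ((algebraMap (𝓞 F) F) (u : 𝓞 F)) *
            v.valuation F ((algebraMap (𝓞 F) F) ((u⁻¹ : (𝓞 F)ˣ) : 𝓞 F)) = 1 := by
          rw [← map_mul, ← map_mul, Units.mul_inv, map_one, map_one]
        exact eq_one_of_one_le_mul_left h1 h2 h3.ge)))

theorem coe_unitsToSUnit (u : Additive (𝓞 F)ˣ) :
    ((((unitsToSUnit S u).toMul : sUnit S) : Fˣ) : F) = algebraMap (𝓞 F) F (u.toMul : 𝓞 F) := rfl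

theorem unitsToSUnit_injective : Function.Injective (unitsToSUnit S) := by
  intro u u' h
  have h1 := congrArg (fun z : Additive (sUnit S) => (((z.toMul : sUnit S) : Fˣ) : F)) h
  simp only [coe_unitsToSUnit] at h1
  have h2 : (u.toMul : 𝓞 F) = (u'.toMul : 𝓞 F) := RingOfIntegers.coe_injective (by exact_mod_cast h1)
  exact Additive.toMul.injective (Units.ext h2)

/-- an element of `Fˣ` all of whose finite valuations are `1` is a unit of `𝓞 F`. -/
theorem exists_unit_of_valuation_eq_one (x : Fˣ)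
    (h : ∀ v : HeightOneSpectrum (𝓞 F), v.valuation F (x : F) = 1) :
    ∃ u : (𝓞 F)ˣ, algebraMap (𝓞 F) F (u : 𝓞 F) = (x : F) := by
  obtain ⟨a, ha⟩ := HeightOneSpectrum.mem_integers_of_valuation_le_one F (x : F)
    (fun v => (h v).le)
  have hinv : ∀ v : HeightOneSpectrum (𝓞 F), v.valuation F ((x⁻¹ : Fˣ) : F) ≤ 1 := by
    intro v
    rw [Units.val_inv_eq_inv_val, map_inv₀, h v, inv_one]
  obtain ⟨b, hb⟩ := HeightOneSpectrum.mem_integers_of_valuation_le_one F ((x⁻¹ : Fˣ) : F) hinv
  have hab : a * b = 1 := by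
    apply RingOfIntegers.coe_injective
    have : algebraMap (𝓞 F) F (a * b) = 1 := by
      rw [map_mul, ha, hb, Units.mul_inv]
    simpa using this
  have hba : b * a = 1 := by rw [mul_comm]; exact hab
  exact ⟨⟨a, b, hab, hba⟩, ha⟩

theorem ker_ordVec : LinearMap.ker (ordVec S) = LinearMap.range (unitsToSUnit S) := by
  apply le_antisymm
  · intro x hx
    rw [LinearMap.mem_ker] at hx
    have hall : ∀ v : HeightOneSpectrum (𝓞 F), v.valuation F (((x.toMul : sUnit S) : Fˣ) : F) = 1 := by
      intro v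
      by_cases hv : v ∈ S
      · have h1 := congrFun hx ⟨v, hv⟩
        rw [ordVec_apply, Pi.zero_apply] at h1
        rw [← ordHom_eq_one_iff]
        exact Multiplicative.toAdd.injective h1
      · exact (mem_sUnit_iff.mp (x.toMul : sUnit S).2) v hv
    obtain ⟨u, hu⟩ := exists_unit_of_valuation_eq_one ((x.toMul : sUnit S) : Fˣ) hall
    refine ⟨Additive.ofMul u, ?_⟩
    apply Additive.toMul.injective
    apply Subtype.ext
    apply Units.ext
    rw [coe_unitsToSUnit]
    exact hu
  · rintro _ ⟨u, rfl⟩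
    rw [LinearMap.mem_ker]
    funext v
    rw [ordVec_apply, Pi.zero_apply]
    have hmem := (unitsToSUnit S u).toMul.2
    have h1 : v.1.valuation F ((((unitsToSUnit S u).toMul : sUnit S) : Fˣ) : F) = 1 := by
      rw [coe_unitsToSUnit]
      have h1 : v.1.valuation F ((algebraMap (𝓞 F) F) (u.toMul : 𝓞 F)) ≤ 1 := v.1.valuation_le_one _
      have h2 : v.1.valuation F ((algebraMap (𝓞 F) F) ((u.toMul⁻¹ : (𝓞 F)ˣ) : 𝓞 F)) ≤ 1 :=
        v.1.valuation_le_one _
      have h3 : v.1.valuation F ((algebraMap (𝓞 F) F) (u.toMul : 𝓞 F)) *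
          v.1.valuation F ((algebraMap (𝓞 F) F) ((u.toMul⁻¹ : (𝓞 F)ˣ) : 𝓞 F)) = 1 := by
        rw [← map_mul, ← map_mul, Units.mul_inv, map_one, map_one]
      exact eq_one_of_one_le_mul_left h1 h2 h3.ge
    rw [(ordHom_eq_one_iff _ _).mpr h1]
    rfl

omit S in
/-- `v ^ h` is principal, `h` the class number. -/
theorem exists_generator_pow (v : HeightOneSpectrum (𝓞 F)) :
    ∃ π : 𝓞 F, π ≠ 0 ∧ Ideal.span {π} = v.asIdeal ^ classNumber F := by
  classical
  have hv0 : v.asIdeal ∈ nonZeroDivisors (Ideal (𝓞 F)) :=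
    mem_nonZeroDivisors_of_ne_zero v.ne_bot
  have hpow0 : v.asIdeal ^ classNumber F ∈ nonZeroDivisors (Ideal (𝓞 F)) :=
    pow_mem hv0 _
  have h1 : ClassGroup.mk0 ⟨v.asIdeal ^ classNumber F, hpow0⟩ = 1 := by
    have h2 : (⟨v.asIdeal ^ classNumber F, hpow0⟩ : nonZeroDivisors (Ideal (𝓞 F))) =
        ⟨v.asIdeal, hv0⟩ ^ classNumber F := by
      apply Subtype.ext
      simp
    rw [h2, map_pow, classNumber]
    exact pow_card_eq_one
  rw [ClassGroup.mk0_eq_one_iff] at h1
  obtain ⟨π, hπ⟩ := h1.principal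
  refine ⟨π, ?_, ?_⟩
  · rintro rfl
    have : v.asIdeal ^ classNumber F = ⊥ := by
      rw [hπ]; simp
    exact (pow_ne_zero _ v.ne_bot) this
  · rw [hπ]

omit S in
theorem intValuation_of_span_eq_pow_self (v : HeightOneSpectrum (𝓞 F)) {π : 𝓞 F} (hπ0 : π ≠ 0)
    {n : ℕ} (hπ : Ideal.span {π} = v.asIdeal ^ n) :
    v.intValuation π = WithZero.exp (-(n : ℤ)) := by
  rw [v.intValuation_eq_exp_neg_multiplicity hπ0, hπ,
    multiplicity_pow_self_of_prime v.prime]

omit S in
theorem intValuation_of_span_eq_pow_of_ne {v w : HeightOneSpectrum (𝓞 F)} (hne : w ≠ v) {π : 𝓞 F}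
    {n : ℕ} (hπ : Ideal.span {π} = v.asIdeal ^ n) :
    w.intValuation π = 1 := by
  rw [HeightOneSpectrum.intValuation_eq_one_iff]
  intro hmem
  apply hne
  have h1 : v.asIdeal ^ n ≤ w.asIdeal := by
    rw [← hπ, Ideal.span_singleton_le_iff_mem]
    exact hmem
  have h2 : v.asIdeal ≤ w.asIdeal := w.isPrime.le_of_pow_le h1
  exact (HeightOneSpectrum.ext (v.isMaximal.eq_of_le w.isPrime.ne_top h2)).symm

open scoped Classical in
theorem exists_ordVec_eq_single (v : S) :
    ∃ x : Additive (sUnit S), ordVec S x = (-(classNumber F : ℤ)) • Pi.single v (1 : ℤ) := by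
  obtain ⟨π, hπ0, hπ⟩ := exists_generator_pow v.1
  have hπF : algebraMap (𝓞 F) F π ≠ 0 := by
    intro h
    exact hπ0 (RingOfIntegers.coe_injective (by simpa using h))
  have hmem : Units.mk0 (algebraMap (𝓞 F) F π) hπF ∈ sUnit S := by
    rw [mem_sUnit_iff]
    intro w hw
    rw [Units.val_mk0, HeightOneSpectrum.valuation_of_algebraMap]
    refine intValuation_of_span_eq_pow_of_ne ?_ hπ
    rintro rfl
    exact hw v.2
  refine ⟨Additive.ofMul ⟨Units.mk0 (algebraMap (𝓞 F) F π) hπF, hmem⟩, ?_⟩
  funext w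
  rw [ordVec_apply]
  simp only [toMul_ofMul, Pi.smul_apply, smul_eq_mul]
  by_cases hwv : w = v
  · subst hwv
    rw [Pi.single_eq_same, mul_one]
    have h1 : ((ordHom w.1 (Units.mk0 (algebraMap (𝓞 F) F π) hπF) : Multiplicative ℤ) :
        WithZero (Multiplicative ℤ)) = WithZero.exp (-(classNumber F : ℤ)) := by
      rw [coe_ordHom, Units.val_mk0, HeightOneSpectrum.valuation_of_algebraMap,
        intValuation_of_span_eq_pow_self w.1 hπ0 hπ]
    have h2 : ordHom w.1 (Units.mk0 (algebraMap (𝓞 F) F π) hπF) =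
        Multiplicative.ofAdd (-(classNumber F : ℤ)) := by
      apply WithZero.coe_injective
      rw [h1]
      rfl
    rw [h2]
    rfl
  · rw [Pi.single_eq_of_ne hwv, mul_zero]
    have h1 : w.1.valuation F ((Units.mk0 (algebraMap (𝓞 F) F π) hπF : Fˣ) : F) = 1 := by
      rw [Units.val_mk0, HeightOneSpectrum.valuation_of_algebraMap]
      refine intValuation_of_span_eq_pow_of_ne ?_ hπ
      intro h
      exact hwv (Subtype.ext h)
    rw [(ordHom_eq_one_iff _ _).mpr h1]
    rfl

theorem smul_mem_range_ordVec (y : S → ℤ) :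
    (classNumber F : ℤ) • y ∈ LinearMap.range (ordVec S) := by
  classical
  have hy : y = ∑ v : S, y v • Pi.single v (1 : ℤ) := by
    funext w
    simp [Finset.sum_apply, Pi.single_apply]
  rw [hy, Finset.smul_sum]
  refine Submodule.sum_mem _ fun v _ => ?_
  rw [smul_comm]
  refine Submodule.smul_mem _ _ ?_
  obtain ⟨x, hx⟩ := exists_ordVec_eq_single S v
  have : (classNumber F : ℤ) • Pi.single v (1 : ℤ) = -(ordVec S x) := by
    rw [hx, neg_smul, neg_neg]
  rw [this]
  exact Submodule.neg_mem _ ⟨x, rfl⟩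

theorem finrank_range_ordVec : finrank ℤ (LinearMap.range (ordVec S)) = S.card := by
  have h := Fermat.Agent.ExtVan.finrank_eq_of_le_of_smul_le (LinearMap.range (ordVec S)) ⊤ le_top
    (classNumber F) (classNumber_ne_zero F) (fun y _ => smul_mem_range_ordVec S y)
  rw [h, finrank_top, Module.finrank_fintype_fun_eq_card, Fintype.card_coe]

instance instFiniteSUnit : Module.Finite ℤ (Additive (sUnit S)) := by
  rw [Module.finite_def]
  apply Submodule.fg_of_fg_map_of_fg_inf_ker (ordVec S)
  · exact IsNoetherian.noetherian _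
  · rw [top_inf_eq, ker_ordVec, LinearMap.range_eq_map]
    exact Submodule.FG.map _ (Module.finite_def.mp inferInstance)

/-- **rank of the `S`-units**. -/
theorem finrank_sUnit : finrank ℤ (Additive (sUnit S)) = Units.rank F + S.card := by
  have h1 := Submodule.finrank_quotient_add_finrank (LinearMap.ker (ordVec S))
  have h2 : finrank ℤ (Additive (sUnit S) ⧸ LinearMap.ker (ordVec S)) = S.card := by
    rw [← finrank_range_ordVec S]
    exact LinearEquiv.finrank_eq (LinearMap.quotKerEquivRange (ordVec S))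
  have h3 : finrank ℤ (LinearMap.ker (ordVec S)) = Units.rank F := by
    rw [ker_ordVec, ← Units.finrank_eq]
    exact (LinearEquiv.finrank_eq
      (LinearEquiv.ofInjective (unitsToSUnit S) (unitsToSUnit_injective S))).symm
  rw [h2, h3] at h1
  omega

end SUnit

end Fermat.Agent.S55lib.FirstIneq
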