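/-
S55 sprint, block (IV) FIRST INEQUALITY (helper2).  File 2: the Galois action on `S`-units.

`L/K` Galois number fields, `T` a finite set of finite primes of `K`, `TL` the set of primes of `L`
above `T`.  Then `Gal(L/K)` acts on the `TL`-units of `L` and the fixed points (for the whole group)
are the `T`-units of `K`.
-/
import Mathlib
import Fermat.Agent.S55lib.FirstIneq.SUnitRank

set_option autoImplicit false
set_option linter.unusedSectionVars false

namespace Fermat.Agent.S55lib.FirstIneq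

open NumberField IsDedekindDomain Module

section Comap

variable {L : Type*} [Field L] [NumberField L]

/-- the prime `e⁻¹(w)` for a ring automorphism `e` of `𝓞 L`. -/
noncomputable def placeComap (e : 𝓞 L ≃+* 𝓞 L) (w : HeightOneSpectrum (𝓞 L)) :
    HeightOneSpectrum (𝓞 L) :=
  w.comap (e : 𝓞 L →+* 𝓞 L) e.surjective

theorem placeComap_asIdeal (e : 𝓞 L ≃+* 𝓞 L) (w : HeightOneSpectrum (𝓞 L)) :
    (placeComap e w).asIdeal = w.asIdeal.comap (e : 𝓞 L →+* 𝓞 L) := rfl

theorem mem_placeComap_pow (e : 𝓞 L ≃+* 𝓞 L) (w : HeightOneSpectrum (𝓞 L)) (n : ℕ) (r : 𝓞 L) :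
    r ∈ (placeComap e w).asIdeal ^ n ↔ e r ∈ w.asIdeal ^ n := by
  have h1 : (placeComap e w).asIdeal = w.asIdeal.map (e.symm : 𝓞 L →+* 𝓞 L) := by
    rw [placeComap_asIdeal]
    exact (Ideal.map_symm e).symm
  rw [h1, ← Ideal.map_pow]
  have h2 : (w.asIdeal ^ n).map (e.symm : 𝓞 L →+* 𝓞 L) = (w.asIdeal ^ n).comap (e : 𝓞 L →+* 𝓞 L) :=
    Ideal.map_symm e
  rw [h2, Ideal.mem_comap]
  rfl

theorem intValuation_placeComap (e : 𝓞 L ≃+* 𝓞 L) (w : HeightOneSpectrum (𝓞 L)) (r : 𝓞 L) :
    (placeComap e w).intValuation r = w.intValuation (e r) := by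
  rcases eq_or_ne r 0 with rfl | hr
  · simp
  have her : e r ≠ 0 := by
    intro h
    exact hr (e.injective (by rw [h, map_zero]))
  have h1 := (placeComap e w).intValuation_eq_exp_neg_multiplicity hr
  have h2 := w.intValuation_eq_exp_neg_multiplicity her
  set m' := multiplicity (placeComap e w).asIdeal (Ideal.span {r}) with hm'
  set m := multiplicity w.asIdeal (Ideal.span {e r}) with hm
  have ha : m' ≤ m := by
    have h3 : (placeComap e w).intValuation r ≤ WithZero.exp (-(m' : ℤ)) := h1.le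
    rw [HeightOneSpectrum.intValuation_le_pow_iff_mem, mem_placeComap_pow,
      ← HeightOneSpectrum.intValuation_le_pow_iff_mem, h2, WithZero.exp_le_exp] at h3
    omega
  have hb : m ≤ m' := by
    have h3 : w.intValuation (e r) ≤ WithZero.exp (-(m : ℤ)) := h2.le
    rw [HeightOneSpectrum.intValuation_le_pow_iff_mem, ← mem_placeComap_pow,
      ← HeightOneSpectrum.intValuation_le_pow_iff_mem, h1, WithZero.exp_le_exp] at h3
    omega
  rw [h1, h2, le_antisymm ha hb]

theorem valuation_placeComap (s : L ≃+* L) (w : HeightOneSpectrum (𝓞 L)) (x : L) :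
    (placeComap (RingOfIntegers.mapRingEquiv s) w).valuation L x = w.valuation L (s x) := by
  obtain ⟨a, b, hb, rfl⟩ := IsFractionRing.div_surjective (A := 𝓞 L) x
  have hs : ∀ r : 𝓞 L, s (algebraMap (𝓞 L) L r) =
      algebraMap (𝓞 L) L (RingOfIntegers.mapRingEquiv s r) := fun r =>
    (RingOfIntegers.mapRingEquiv_apply s r).symm
  rw [map_div₀, map_div₀, map_div₀, hs, hs, HeightOneSpectrum.valuation_of_algebraMap,
    HeightOneSpectrum.valuation_of_algebraMap, HeightOneSpectrum.valuation_of_algebraMap,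
    HeightOneSpectrum.valuation_of_algebraMap, intValuation_placeComap, intValuation_placeComap]

end Comap

section Galois

variable {K L : Type*} [Field K] [NumberField K] [Field L] [NumberField L] [Algebra K L]

/-- the automorphism of `𝓞 L` induced by `σ ∈ Gal(L/K)`. -/
noncomputable abbrev intAut (σ : L ≃ₐ[K] L) : 𝓞 L ≃+* 𝓞 L :=
  RingOfIntegers.mapRingEquiv (σ : L ≃+* L)

theorem intAut_algebraMap (σ : L ≃ₐ[K] L) (k : 𝓞 K) :
    intAut σ (algebraMap (𝓞 K) (𝓞 L) k) = algebraMap (𝓞 K) (𝓞 L) k := by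
  apply RingOfIntegers.coe_injective
  have h1 : algebraMap (𝓞 L) L (intAut σ (algebraMap (𝓞 K) (𝓞 L) k)) =
      σ (algebraMap (𝓞 L) L (algebraMap (𝓞 K) (𝓞 L) k)) :=
    RingOfIntegers.mapRingEquiv_apply (σ : L ≃+* L) _
  rw [h1, ← IsScalarTower.algebraMap_apply (𝓞 K) (𝓞 L) L, IsScalarTower.algebraMap_apply (𝓞 K) K L,
    AlgEquiv.commutes]

theorem under_placeComap (σ : L ≃ₐ[K] L) (w : HeightOneSpectrum (𝓞 L)) :
    (placeComap (intAut σ) w).under (𝓞 K) = w.under (𝓞 K) := by
  apply HeightOneSpectrum.ext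
  ext k
  simp only [HeightOneSpectrum.under_asIdeal, Ideal.under_def, Ideal.mem_comap,
    placeComap_asIdeal]
  rw [show ((intAut σ : 𝓞 L →+* 𝓞 L) (algebraMap (𝓞 K) (𝓞 L) k)) =
    intAut σ (algebraMap (𝓞 K) (𝓞 L) k) from rfl, intAut_algebraMap]

variable (T : Finset (HeightOneSpectrum (𝓞 K))) (TL : Finset (HeightOneSpectrum (𝓞 L)))

/-- `TL` is the set of all primes of `L` above the primes in `T`. -/
def IsAbove : Prop := ∀ w : HeightOneSpectrum (𝓞 L), w ∈ TL ↔ w.under (𝓞 K) ∈ T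

variable {T TL}

theorem apply_mem_sUnit (hTL : IsAbove T TL) (σ : L ≃ₐ[K] L) {x : Lˣ} (hx : x ∈ sUnit TL) :
    Units.map (σ : L →* L) x ∈ sUnit TL := by
  rw [mem_sUnit_iff] at hx ⊢
  intro w hw
  have h1 : placeComap (intAut σ) w ∉ TL := by
    rw [hTL, under_placeComap, ← hTL]
    exact hw
  have h2 := hx _ h1
  rw [valuation_placeComap] at h2
  exact h2

/-- the action of `σ ∈ Gal(L/K)` on the `TL`-units, multiplicatively. -/
noncomputable def sUnitMap (hTL : IsAbove T TL) (σ : L ≃ₐ[K] L) : sUnit TL →* sUnit TL :=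
  ((Units.map (σ : L →* L)).comp (sUnit TL).subtype).codRestrict (sUnit TL)
    (fun x => apply_mem_sUnit hTL σ x.2)

/-- the action of `σ ∈ Gal(L/K)` on the `TL`-units, as a `ℤ`-linear map. -/
noncomputable def sUnitAut (hTL : IsAbove T TL) (σ : L ≃ₐ[K] L) :
    Additive (sUnit TL) →ₗ[ℤ] Additive (sUnit TL) :=
  AddMonoidHom.toIntLinearMap (MonoidHom.toAdditive (sUnitMap hTL σ))

theorem coe_sUnitAut (hTL : IsAbove T TL) (σ : L ≃ₐ[K] L) (x : Additive (sUnit TL)) :
    ((((sUnitAut hTL σ x).toMul : sUnit TL) : Lˣ) : L) = σ (((x.toMul : sUnit TL) : Lˣ) : L) := rfl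

theorem sUnit_ext {x y : Additive (sUnit TL)}
    (h : (((x.toMul : sUnit TL) : Lˣ) : L) = (((y.toMul : sUnit TL) : Lˣ) : L)) : x = y :=
  Additive.toMul.injective (Subtype.ext (Units.ext h))

theorem sUnitAut_mul (hTL : IsAbove T TL) (σ τ : L ≃ₐ[K] L) :
    sUnitAut hTL (σ * τ) = sUnitAut hTL σ * sUnitAut hTL τ := by
  refine LinearMap.ext fun x => ?_
  apply sUnit_ext
  rw [Module.End.mul_apply, coe_sUnitAut, coe_sUnitAut, coe_sUnitAut]
  rfl

theorem sUnitAut_one (hTL : IsAbove T TL) : sUnitAut hTL (1 : L ≃ₐ[K] L) = 1 := by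
  refine LinearMap.ext fun x => ?_
  apply sUnit_ext
  rw [coe_sUnitAut]
  rfl

theorem sUnitAut_pow (hTL : IsAbove T TL) (σ : L ≃ₐ[K] L) (n : ℕ) :
    sUnitAut hTL σ ^ n = sUnitAut hTL (σ ^ n) := by
  induction n with
  | zero => rw [pow_zero, pow_zero, sUnitAut_one]
  | succ n ih => rw [pow_succ, pow_succ, sUnitAut_mul, ih]

theorem valuation_algebraMap_eq_one_iff (w : HeightOneSpectrum (𝓞 L)) (y : K) :
    w.valuation L (algebraMap K L y) = 1 ↔ (w.under (𝓞 K)).valuation K y = 1 := by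
  have : w.asIdeal.LiesOver (w.under (𝓞 K)).asIdeal := ⟨rfl⟩
  have h := HeightOneSpectrum.valuation_liesOver L (w.under (𝓞 K)) w y
  have he : (w.under (𝓞 K)).asIdeal.ramificationIdx' w.asIdeal ≠ 0 :=
    Ideal.IsDedekindDomain.ramificationIdx'_ne_zero_of_liesOver w.asIdeal
      (w.under (𝓞 K)).ne_bot
  rw [← h]
  constructor
  · intro h1
    rcases lt_trichotomy ((w.under (𝓞 K)).valuation K y) 1 with h2 | h2 | h2
    · exact absurd h1 (pow_lt_one₀ zero_le h2 he).ne
    · exact h2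
    · exact absurd h1 (one_lt_pow₀ h2 he).ne'
  · intro h1
    rw [h1, one_pow]

theorem algebraMap_mem_sUnit_iff (hTL : IsAbove T TL) (y : Kˣ) :
    Units.map (algebraMap K L : K →* L) y ∈ sUnit TL ↔ y ∈ sUnit T := by
  rw [mem_sUnit_iff, mem_sUnit_iff]
  constructor
  · intro h v hv
    obtain ⟨P, hP, hPv⟩ := v.asIdeal.exists_ideal_over_prime_of_isIntegral_of_isDomain
      (S := 𝓞 L) (by simp)
    have hPbot : P ≠ ⊥ := by
      rintro rfl
      apply v.ne_bot
      rw [← hPv]
      exact Ideal.comap_bot_of_injective _ (FaithfulSMul.algebraMap_injective (𝓞 K) (𝓞 L))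
    let w : HeightOneSpectrum (𝓞 L) := ⟨P, hP, hPbot⟩
    have hwv : w.under (𝓞 K) = v := HeightOneSpectrum.ext hPv
    have hw : w ∉ TL := by
      rw [hTL, hwv]
      exact hv
    have h1 := h w hw
    rw [Units.coe_map] at h1
    have h2 := (valuation_algebraMap_eq_one_iff w (y : K)).mp h1
    rw [hwv] at h2
    exact h2
  · intro h w hw
    rw [Units.coe_map]
    refine (valuation_algebraMap_eq_one_iff w (y : K)).mpr (h _ ?_)
    rw [← hTL]
    exact hw

/-- the `T`-units of `K` inside the `TL`-units of `L`. -/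
noncomputable def sUnitIncl (hTL : IsAbove T TL) : Additive (sUnit T) →ₗ[ℤ] Additive (sUnit TL) :=
  AddMonoidHom.toIntLinearMap (MonoidHom.toAdditive
    (((Units.map (algebraMap K L : K →* L)).comp (sUnit T).subtype).codRestrict (sUnit TL)
      (fun y => (algebraMap_mem_sUnit_iff hTL y.1).mpr y.2)))

theorem coe_sUnitIncl (hTL : IsAbove T TL) (y : Additive (sUnit T)) :
    ((((sUnitIncl hTL y).toMul : sUnit TL) : Lˣ) : L) =
      algebraMap K L (((y.toMul : sUnit T) : Kˣ) : K) := rfl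

theorem sUnitIncl_injective (hTL : IsAbove T TL) : Function.Injective (sUnitIncl hTL) := by
  intro y y' h
  have h1 := congrArg (fun z : Additive (sUnit TL) => (((z.toMul : sUnit TL) : Lˣ) : L)) h
  simp only [coe_sUnitIncl] at h1
  exact sUnit_ext ((algebraMap K L).injective h1)

end Galois

end Fermat.Agent.S55lib.FirstIneq
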