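/-
S55 sprint, block (IV) FIRST INEQUALITY (helper2).  File 3: the Herbrand quotient of the `T`-units.

`L/K` cyclic of odd prime degree `p` with generator `σ`, `T` a finite set of finite primes of `K`,
`TL` the primes of `L` above `T`, `u` the number of `v ∈ T` with exactly one prime of `L` above.
Then, for `E = TL`-units of `L` (written additively),

  `#H¹(E) * p ^ u = #Ĥ⁰(E) * p`,   both finite,

i.e. `h(E) = p^(u-1)`.
-/
import Mathlib
import Fermat.Agent.S55lib.FirstIneq.SUnitGalois

set_option autoImplicit false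
set_option linter.unusedSectionVars false

namespace Fermat.Agent.S55lib.FirstIneq

open NumberField IsDedekindDomain Module

variable {K L : Type*} [Field K] [NumberField K] [Field L] [NumberField L] [Algebra K L]
variable {T : Finset (HeightOneSpectrum (𝓞 K))} {TL : Finset (HeightOneSpectrum (𝓞 L))}

section Fixed

theorem ker_sUnitAut_sub_one [IsGalois K L] (hTL : IsAbove T TL) (σ : L ≃ₐ[K] L)
    (hσ : ∀ τ : L ≃ₐ[K] L, τ ∈ Subgroup.zpowers σ) :
    LinearMap.ker (sUnitAut hTL σ - 1) = LinearMap.range (sUnitIncl hTL) := by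
  ext x
  rw [LinearMap.mem_ker, LinearMap.sub_apply, Module.End.one_apply, sub_eq_zero,
    LinearMap.mem_range]
  constructor
  · intro hx
    set xL : L := (((x.toMul : sUnit TL) : Lˣ) : L) with hxL
    have hx' : σ xL = xL := by
      rw [hxL, ← coe_sUnitAut hTL, hx]
    have hfix : ∀ τ : L ≃ₐ[K] L, τ xL = xL := by
      intro τ
      have h1 : Subgroup.zpowers σ ≤ MulAction.stabilizer (L ≃ₐ[K] L) xL := by
        rw [Subgroup.zpowers_le, MulAction.mem_stabilizer_iff]
        exact hx'
      have h2 := h1 (hσ τ)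
      rw [MulAction.mem_stabilizer_iff] at h2
      exact h2
    obtain ⟨y, hy⟩ := (IsGalois.mem_range_algebraMap_iff_fixed (F := K) (E := L) xL).mpr hfix
    have hy0 : y ≠ 0 := by
      rintro rfl
      rw [map_zero] at hy
      exact (Units.ne_zero ((x.toMul : sUnit TL) : Lˣ)) hy.symm
    have hmap : Units.map (algebraMap K L : K →* L) (Units.mk0 y hy0) =
        ((x.toMul : sUnit TL) : Lˣ) := Units.ext hy
    have hmem : Units.mk0 y hy0 ∈ sUnit T := by
      rw [← algebraMap_mem_sUnit_iff hTL, hmap]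
      exact (x.toMul : sUnit TL).2
    refine ⟨Additive.ofMul ⟨Units.mk0 y hy0, hmem⟩, ?_⟩
    apply sUnit_ext
    rw [coe_sUnitIncl]
    exact hy
  · rintro ⟨y, rfl⟩
    apply sUnit_ext
    rw [coe_sUnitAut, coe_sUnitIncl, AlgEquiv.commutes]

theorem finrank_ker_sUnitAut_sub_one [IsGalois K L] (hTL : IsAbove T TL) (σ : L ≃ₐ[K] L)
    (hσ : ∀ τ : L ≃ₐ[K] L, τ ∈ Subgroup.zpowers σ) :
    finrank ℤ (LinearMap.ker (sUnitAut hTL σ - 1)) = Units.rank K + T.card := by
  rw [ker_sUnitAut_sub_one hTL σ hσ, LinearMap.finrank_range_of_inj (sUnitIncl_injective hTL),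
    finrank_sUnit]

end Fixed

section Count

/-- the primes in `TL` above `v`. -/
noncomputable def fibre (TL : Finset (HeightOneSpectrum (𝓞 L))) (v : HeightOneSpectrum (𝓞 K)) :
    Finset (HeightOneSpectrum (𝓞 L)) := by
  classical
  exact TL.filter (fun w => w.under (𝓞 K) = v)

theorem mem_fibre {TL : Finset (HeightOneSpectrum (𝓞 L))} {v : HeightOneSpectrum (𝓞 K)}
    {w : HeightOneSpectrum (𝓞 L)} : w ∈ fibre TL v ↔ w ∈ TL ∧ w.under (𝓞 K) = v := by
  classical
  simp [fibre]

/-- the number of primes in `T` with exactly one prime of `L` above. -/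
noncomputable def nonsplitCount (T : Finset (HeightOneSpectrum (𝓞 K)))
    (TL : Finset (HeightOneSpectrum (𝓞 L))) : ℕ := by
  classical
  exact (T.filter (fun v => (fibre TL v).card = 1)).card

theorem card_fibre_eq_ncard (hTL : IsAbove T TL) {v : HeightOneSpectrum (𝓞 K)} (hv : v ∈ T) :
    (fibre TL v).card = (Ideal.primesOver v.asIdeal (𝓞 L)).ncard := by
  classical
  have h1 : Ideal.primesOver v.asIdeal (𝓞 L) =
      (fun w : HeightOneSpectrum (𝓞 L) => w.asIdeal) '' (fibre TL v : Set _) := by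
    ext P
    simp only [Set.mem_image, Finset.mem_coe, mem_fibre]
    constructor
    · rintro ⟨hP, hPv⟩
      have hPbot : P ≠ ⊥ := by
        rintro rfl
        apply v.ne_bot
        rw [hPv.over]
        exact Ideal.comap_bot_of_injective _ (FaithfulSMul.algebraMap_injective (𝓞 K) (𝓞 L))
      have hwv : (⟨P, hP, hPbot⟩ : HeightOneSpectrum (𝓞 L)).under (𝓞 K) = v :=
        HeightOneSpectrum.ext hPv.over.symm
      refine ⟨⟨P, hP, hPbot⟩, ⟨?_, hwv⟩, rfl⟩
      rw [hTL, hwv]
      exact hv
    · rintro ⟨w, ⟨_, hwv⟩, rfl⟩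
      refine ⟨w.isPrime, ⟨?_⟩⟩
      rw [← hwv]
      rfl
  rw [h1, Set.ncard_image_of_injective _ (fun w w' h => HeightOneSpectrum.ext h),
    Set.ncard_coe_finset]

theorem card_fibre_eq_one_or [IsGalois K L] (p : ℕ) [hp : Fact p.Prime] (hdeg : finrank K L = p)
    (hTL : IsAbove T TL) {v : HeightOneSpectrum (𝓞 K)} (hv : v ∈ T) :
    (fibre TL v).card = 1 ∨ (fibre TL v).card = p := by
  have h1 := Ideal.ncard_primesOver_mul_ramificationIdxIn_mul_inertiaDegIn v.asIdeal (𝓞 L)
    (L ≃ₐ[K] L)
  rw [IsGalois.card_aut_eq_finrank K L, hdeg, ← card_fibre_eq_ncard hTL hv] at h1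
  exact (Nat.dvd_prime hp.out).mp ⟨_, h1.symm⟩

theorem card_TL [IsGalois K L] (p : ℕ) [hp : Fact p.Prime] (hdeg : finrank K L = p)
    (hTL : IsAbove T TL) :
    TL.card + p * nonsplitCount T TL = nonsplitCount T TL + p * T.card := by
  classical
  have h1 : TL.card = ∑ v ∈ T, (fibre TL v).card := by
    have := Finset.card_eq_sum_card_fiberwise (f := fun w : HeightOneSpectrum (𝓞 L) =>
      w.under (𝓞 K)) (s := TL) (t := T) (fun w hw => (hTL w).mp hw)
    rw [this]
    rfl
  have h2 : ∀ v ∈ T, (fibre TL v).card + p * (if (fibre TL v).card = 1 then 1 else 0) =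
      (if (fibre TL v).card = 1 then 1 else 0) + p := by
    intro v hv
    rcases card_fibre_eq_one_or p hdeg hTL hv with h | h
    · rw [if_pos h, h]
      ring
    · have hp1 : p ≠ 1 := hp.out.one_lt.ne'
      rw [if_neg (by rw [h]; exact hp1), h]
      ring
  have h3 : nonsplitCount T TL = ∑ v ∈ T, (if (fibre TL v).card = 1 then 1 else 0) := by
    rw [nonsplitCount, Finset.card_filter]
  rw [h1, h3, Finset.mul_sum, ← Finset.sum_add_distrib, Finset.sum_congr rfl h2,
    Finset.sum_add_distrib, Finset.sum_const, smul_eq_mul, mul_comm T.card p]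

theorem nonsplitCount_le (T : Finset (HeightOneSpectrum (𝓞 K)))
    (TL : Finset (HeightOneSpectrum (𝓞 L))) : nonsplitCount T TL ≤ T.card := by
  classical
  exact Finset.card_filter_le _ _

end Count

section Infinite

theorem card_infinitePlace_of_odd [IsGalois K L] (hodd : Odd (finrank K L)) :
    Fintype.card (InfinitePlace L) = Fintype.card (InfinitePlace K) * finrank K L := by
  have := IsUnramifiedAtInfinitePlaces_of_odd_finrank hodd
  exact IsUnramifiedAtInfinitePlaces.card_infinitePlace K L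

end Infinite

section Main

open Fermat.Agent.ExtVan

theorem sUnitAut_pow_degree [IsGalois K L] (p : ℕ) (hdeg : finrank K L = p)
    (hTL : IsAbove T TL) (σ : L ≃ₐ[K] L) : sUnitAut hTL σ ^ p = 1 := by
  have h1 : σ ^ p = 1 := by
    rw [← hdeg, ← IsGalois.card_aut_eq_finrank K L]
    exact pow_card_eq_one'
  rw [sUnitAut_pow, h1, sUnitAut_one]

/-- **Herbrand quotient of the `T`-units** in a cyclic extension `L/K` of odd prime degree `p`:
`#H¹ · p^u = #Ĥ⁰ · p` where `u` is the number of primes in `T` with exactly one prime above. -/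
theorem herbrand_sUnit [IsGalois K L] (p : ℕ) [hp : Fact p.Prime] (hp2 : p ≠ 2)
    (hdeg : finrank K L = p) (hTL : IsAbove T TL) (σ : L ≃ₐ[K] L)
    (hσ : ∀ τ : L ≃ₐ[K] L, τ ∈ Subgroup.zpowers σ) :
    (LinearMap.range (sUnitAut hTL σ - 1)).toAddSubgroup.relIndex
        (LinearMap.ker (nrm p (sUnitAut hTL σ))).toAddSubgroup * p ^ nonsplitCount T TL =
      (LinearMap.range (nrm p (sUnitAut hTL σ))).toAddSubgroup.relIndex
        (LinearMap.ker (sUnitAut hTL σ - 1)).toAddSubgroup * p ∧
    (LinearMap.range (sUnitAut hTL σ - 1)).toAddSubgroup.relIndex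
        (LinearMap.ker (nrm p (sUnitAut hTL σ))).toAddSubgroup ≠ 0 ∧
    (LinearMap.range (nrm p (sUnitAut hTL σ))).toAddSubgroup.relIndex
        (LinearMap.ker (sUnitAut hTL σ - 1)).toAddSubgroup ≠ 0 := by
  have hodd : Odd (finrank K L) := by
    rw [hdeg]
    exact hp.out.odd_of_ne_two hp2
  obtain ⟨q, hq⟩ : ∃ q, p = q + 1 := ⟨p - 1, by have := hp.out.two_le; omega⟩
  obtain ⟨R', hR'⟩ : ∃ R', Fintype.card (InfinitePlace K) = R' + 1 :=
    ⟨Fintype.card (InfinitePlace K) - 1, by
      have : 0 < Fintype.card (InfinitePlace K) := Fintype.card_pos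
      omega⟩
  obtain ⟨s, hs⟩ : ∃ s, T.card = nonsplitCount T TL + s :=
    ⟨T.card - nonsplitCount T TL, by have := nonsplitCount_le T TL; omega⟩
  set u := nonsplitCount T TL with hu
  have hrankK : Units.rank K = R' := by
    rw [Units.rank, hR']
    rfl
  have hrankL : Units.rank L = R' * q + R' + q := by
    rw [Units.rank, card_infinitePlace_of_odd hodd, hR', hdeg, hq]
    have : (R' + 1) * (q + 1) = R' * q + R' + q + 1 := by ring
    rw [this]
    rfl
  have hTLc : TL.card = u + (q + 1) * s := by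
    have h1 := card_TL p hdeg hTL
    rw [← hu, hs, hq] at h1
    have h2 : TL.card + (q + 1) * u = u + (q + 1) * s + (q + 1) * u := by
      rw [h1]
      ring
    exact Nat.add_right_cancel h2
  have ha : finrank ℤ (LinearMap.ker (sUnitAut hTL σ - 1)) = R' + (u + s) := by
    rw [finrank_ker_sUnitAut_sub_one hTL σ hσ, hrankK, hs]
  have hE : finrank ℤ (Additive (sUnit TL)) = R' + (u + s) + (R' + 1 + s) * (p - 1) := by
    rw [finrank_sUnit, hrankL, hTLc, hq, Nat.add_sub_cancel]
    ring
  obtain ⟨h1, h2, h3⟩ := herbrand_prime p (sUnitAut hTL σ) (sUnitAut_pow_degree p hdeg hTL σ)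
    (R' + (u + s)) (R' + 1 + s) ha hE
  refine ⟨?_, h2, h3⟩
  have hpos : 0 < p ^ (R' + s) := pow_pos hp.out.pos _
  apply Nat.eq_of_mul_eq_mul_right hpos
  calc _ = _ * p ^ (R' + (u + s)) := by
        rw [mul_assoc, ← pow_add]
        congr 2
        ring
    _ = _ * p ^ (R' + 1 + s) := h1
    _ = _ := by
        rw [mul_assoc, ← pow_succ']
        congr 2
        ring

end Main

end Fermat.Agent.S55lib.FirstIneq
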