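/-
S55 sprint, block (IV) FIRST INEQUALITY (helper2).  File 8: assembly.

`first_inequality_semilocal`: the abstract first inequality for a semilocal module
`J = ∏_q Map_{D_q}(X_q, A_q)` with an automorphism `s` of prime order `p` and a subgroup `ιE(E)`
whose Herbrand quotient is `p^(u-1)` (`u` = number of `s`-stable orbits):
`#Ĥ⁰(J/E) = p · #H¹(J/E)`, both finite.

`first_inequality_sUnit`: the same with `E` = the `TL`-units of a cyclic extension `L/K` of number
fields of odd prime degree (`herbrand_sUnit`), the semilocal module and the comparison of the two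
counts being hypotheses (to be discharged by the place dictionary).
-/
import Mathlib
import Fermat.Agent.S55lib.FirstIneq.SemilocalSet
import Fermat.Agent.S55lib.FirstIneq.UnitHerbrand

set_option autoImplicit false
set_option linter.unusedSectionVars false

namespace Fermat.Agent.S55lib.FirstIneq

open Fermat.Agent.S55lib.LocalH

section Telescoping

variable {E : Type*} [CommGroup E]

theorem iterate_div (s : E →* E) (i : ℕ) (a b : E) :
    (s^[i]) (a / b) = (s^[i]) a / (s^[i]) b := by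
  rw [← iterHom_apply, map_div, iterHom_apply, iterHom_apply]

theorem nOp_dOp_apply (p : ℕ) (s : E →* E) (x : E) : nOp p s (dOp s x) = (s^[p]) x / x := by
  rw [nOp_apply]
  have h1 : ∀ i ∈ Finset.range p, (s^[i]) (dOp s x) = (s^[i + 1]) x / (s^[i]) x := by
    intro i _
    rw [dOp_apply, iterate_div, ← Function.iterate_succ_apply]
  rw [Finset.prod_congr rfl h1, Finset.prod_range_div (fun i => (s^[i]) x)]
  rfl

theorem dOp_nOp_apply (p : ℕ) (s : E →* E) (x : E) : dOp s (nOp p s x) = (s^[p]) x / x := by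
  rw [dOp_apply, nOp_apply, map_prod, ← Finset.prod_div_distrib]
  have h1 : ∀ i ∈ Finset.range p, s ((s^[i]) x) / (s^[i]) x = (s^[i + 1]) x / (s^[i]) x := by
    intro i _
    rw [Function.iterate_succ_apply']
  rw [Finset.prod_congr rfl h1, Finset.prod_range_div (fun i => (s^[i]) x)]
  rfl

end Telescoping

section Abstract

open GSet

variable {ι : Type*} [Fintype ι] {D : ι → Type*} [∀ q, Group (D q)] {X : ι → Type*}
  [∀ q, MulAction (D q) (X q)] {A : ι → Type*} [∀ q, CommGroup (A q)]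
  (ρ : ∀ q, D q →* MulAut (A q)) (s : ∀ q, X q → X q)
  (hs : ∀ q, ∀ (d : D q) (x : X q), s q (d • x) = d • s q x)
  (p : ℕ) [hp : Fact p.Prime] (hsp : ∀ q, ∀ x, ((s q)^[p]) x = x) [∀ q, Finite (Orb (D q) (X q))]

include hsp in
theorem iterate_semilocShift (f : semilocSet X ρ) : ((semilocSetShift ρ s hs)^[p]) f = f := by
  funext q
  unfold semilocSetShift
  rw [iterate_piMap]
  apply Subtype.ext
  funext x
  rw [GSet.iterate_shift_apply, hsp]

include hsp in
/-- **The first inequality for a semilocal module** (abstract form). -/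
theorem first_inequality_semilocal {E : Type*} [CommGroup E] (sE : E →* E)
    (ιE : E →* semilocSet X ρ) (hι : Function.Injective ιE)
    (hequiv : ∀ e, ιE (sE e) = semilocSetShift ρ s hs (ιE e))
    (u : ℕ) (hu : ∑ q, Nat.card (FixO (D := D q) (X := X q) (s q)) = u)
    (hE : hIdx (nOp p sE) (dOp sE) * p ^ u = hIdx (dOp sE) (nOp p sE) * p)
    (hE1 : hIdx (nOp p sE) (dOp sE) ≠ 0) (hE0 : hIdx (dOp sE) (nOp p sE) ≠ 0)
    (h90 : ∀ q, ∀ (x : X q) (τ : D q), s q x = τ • x →
      hIdxSub (nOp p (ρ q τ).toMonoidHom) (dOp (ρ q τ).toMonoidHom) (fixedSub (ρ q) x) = 1)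
    (h0 : ∀ q, ∀ (x : X q) (τ : D q), s q x = τ • x →
      hIdxSub (dOp (ρ q τ).toMonoidHom) (nOp p (ρ q τ).toMonoidHom) (fixedSub (ρ q) x) = p) :
    hIdxQuot (dOp (semilocSetShift ρ s hs)) (nOp p (semilocSetShift ρ s hs)) ιE.range =
        p * hIdxQuot (nOp p (semilocSetShift ρ s hs)) (dOp (semilocSetShift ρ s hs)) ιE.range ∧
      hIdxQuot (dOp (semilocSetShift ρ s hs)) (nOp p (semilocSetShift ρ s hs)) ιE.range ≠ 0 ∧
      hIdxQuot (nOp p (semilocSetShift ρ s hs)) (dOp (semilocSetShift ρ s hs)) ιE.range ≠ 0 := by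
  set S := semilocSetShift ρ s hs with hS
  have hSp : ∀ f, (S^[p]) f = f := iterate_semilocShift ρ s hs p hsp
  have hfg : ∀ x, dOp S (nOp p S x) = 1 := by
    intro x
    rw [dOp_nOp_apply, hSp, div_self']
  have hgf : ∀ x, nOp p S (dOp S x) = 1 := by
    intro x
    rw [nOp_dOp_apply, hSp, div_self']
  have hd : ∀ e, ιE (dOp sE e) = dOp S (ιE e) := fun e => map_dOp ιE sE S hequiv e
  have hn : ∀ e, ιE (nOp p sE e) = nOp p S (ιE e) := fun e => map_nOp p ιE sE S hequiv e
  have hfB : ∀ b ∈ ιE.range, dOp S b ∈ ιE.range := range_stable ιE (dOp sE) hd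
  have hgB : ∀ b ∈ ιE.range, nOp p S b ∈ ιE.range := range_stable ιE (nOp p sE) hn
  have e1 : hIdxSub (nOp p S) (dOp S) ιE.range = hIdx (nOp p sE) (dOp sE) :=
    hIdxSub_range ιE hι (nOp p sE) (dOp sE) hn hd
  have e0 : hIdxSub (dOp S) (nOp p S) ιE.range = hIdx (dOp sE) (nOp p sE) :=
    hIdxSub_range ιE hι (dOp sE) (nOp p sE) hd hn
  have hJ0 : hIdx (dOp S) (nOp p S) = p ^ u := by
    rw [← hu]
    exact hIdx_semilocSet_H0 ρ s hs p hsp h0
  have hJ1 : hIdx (nOp p S) (dOp S) = 1 := hIdx_semilocSet_H1 ρ s hs p hsp h90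
  exact first_inequality_abstract p u hfg hgf hfB hgB hJ0 hp.out.ne_zero hJ1
    (by rw [e1, e0]; exact hE) (by rw [e1]; exact hE1) (by rw [e0]; exact hE0)

end Abstract

section Units

open GSet NumberField IsDedekindDomain Module

variable {ι : Type*} [Fintype ι] {D : ι → Type*} [∀ q, Group (D q)] {X : ι → Type*}
  [∀ q, MulAction (D q) (X q)] {A : ι → Type*} [∀ q, CommGroup (A q)]
  (ρ : ∀ q, D q →* MulAut (A q)) (s : ∀ q, X q → X q)
  (hs : ∀ q, ∀ (d : D q) (x : X q), s q (d • x) = d • s q x)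
  (p : ℕ) [hp : Fact p.Prime] (hsp : ∀ q, ∀ x, ((s q)^[p]) x = x) [∀ q, Finite (Orb (D q) (X q))]

variable {K L : Type*} [Field K] [NumberField K] [Field L] [NumberField L] [Algebra K L]
  {T : Finset (HeightOneSpectrum (𝓞 K))} {TL : Finset (HeightOneSpectrum (𝓞 L))}

include hsp in
/-- **The first inequality** for a cyclic extension `L/K` of number fields of odd prime degree `p`
with generator `σ`: the `TL`-units `E` inside a semilocal module `J` with
`#{s-stable orbits} = #{nonsplit primes in T}` and the local class field theory hypotheses give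
`#Ĥ⁰(J/E) = p · #H¹(J/E)`, both finite. -/
theorem first_inequality_sUnit [IsGalois K L] (hp2 : p ≠ 2) (hdeg : finrank K L = p)
    (hTL : IsAbove T TL) (σ : L ≃ₐ[K] L) (hσ : ∀ τ : L ≃ₐ[K] L, τ ∈ Subgroup.zpowers σ)
    (ιE : sUnit TL →* semilocSet X ρ) (hι : Function.Injective ιE)
    (hequiv : ∀ e, ιE (sUnitMap hTL σ e) = semilocSetShift ρ s hs (ιE e))
    (hu : ∑ q, Nat.card (FixO (D := D q) (X := X q) (s q)) = nonsplitCount T TL)
    (h90 : ∀ q, ∀ (x : X q) (τ : D q), s q x = τ • x →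
      hIdxSub (nOp p (ρ q τ).toMonoidHom) (dOp (ρ q τ).toMonoidHom) (fixedSub (ρ q) x) = 1)
    (h0 : ∀ q, ∀ (x : X q) (τ : D q), s q x = τ • x →
      hIdxSub (dOp (ρ q τ).toMonoidHom) (nOp p (ρ q τ).toMonoidHom) (fixedSub (ρ q) x) = p) :
    hIdxQuot (dOp (semilocSetShift ρ s hs)) (nOp p (semilocSetShift ρ s hs)) ιE.range =
        p * hIdxQuot (nOp p (semilocSetShift ρ s hs)) (dOp (semilocSetShift ρ s hs)) ιE.range ∧
      hIdxQuot (dOp (semilocSetShift ρ s hs)) (nOp p (semilocSetShift ρ s hs)) ιE.range ≠ 0 ∧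
      hIdxQuot (nOp p (semilocSetShift ρ s hs)) (dOp (semilocSetShift ρ s hs)) ιE.range ≠ 0 := by
  obtain ⟨h1, h2, h3⟩ := herbrand_sUnit p hp2 hdeg hTL σ hσ
  have e1 := relIndex_H1_eq p (sUnitMap hTL σ)
  have e0 := relIndex_H0_eq p (sUnitMap hTL σ)
  have hlin : toLin (sUnitMap hTL σ) = sUnitAut hTL σ := rfl
  rw [hlin] at e1 e0
  rw [e1, e0] at h1
  rw [e1] at h2
  rw [e0] at h3
  exact first_inequality_semilocal ρ s hs p hsp (sUnitMap hTL σ) ιE hι hequiv _ hu h1 h2 h3 h90 h0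

end Units

end Fermat.Agent.S55lib.FirstIneq
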