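/-
S55 sprint, block (IV) FIRST INEQUALITY (helper2).  File 9: the primes fixed by a generator.

`L/K` cyclic with generator `σ`, `T` a finite set of primes of `K`, `TL` the primes above:
the number of `w ∈ TL` with `σ⁻¹ w = w` equals `nonsplitCount T TL`
(the number of `v ∈ T` with exactly one prime above).
-/
import Mathlib
import Fermat.Agent.S55lib.FirstIneq.UnitHerbrand

set_option autoImplicit false
set_option linter.unusedSectionVars false

namespace Fermat.Agent.S55lib.FirstIneq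

open NumberField IsDedekindDomain Module
open scoped Pointwise

variable {K L : Type*} [Field K] [NumberField K] [Field L] [NumberField L] [Algebra K L]
variable {T : Finset (HeightOneSpectrum (𝓞 K))} {TL : Finset (HeightOneSpectrum (𝓞 L))}

theorem mem_placeComap_asIdeal (e : 𝓞 L ≃+* 𝓞 L) (w : HeightOneSpectrum (𝓞 L)) (x : 𝓞 L) :
    x ∈ (placeComap e w).asIdeal ↔ e x ∈ w.asIdeal := Iff.rfl

/-- the automorphisms `τ` with `τ⁻¹ w = w`. -/
def placeStab (w : HeightOneSpectrum (𝓞 L)) : Subgroup (L ≃ₐ[K] L) where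
  carrier := {τ | ∀ x : 𝓞 L, intAut τ x ∈ w.asIdeal ↔ x ∈ w.asIdeal}
  one_mem' := fun x => by
    have : intAut (1 : L ≃ₐ[K] L) x = x := by
      apply RingOfIntegers.coe_injective
      rfl
    rw [this]
  mul_mem' := fun {a b} ha hb x => by
    have : intAut (a * b) x = intAut a (intAut b x) := by
      apply RingOfIntegers.coe_injective
      rfl
    rw [this, ha, hb]
  inv_mem' := fun {a} ha x => by
    have : intAut a (intAut a⁻¹ x) = x := by
      apply RingOfIntegers.coe_injective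
      show a (a⁻¹ (x : L)) = x
      exact AlgEquiv.apply_symm_apply a _
    rw [← ha (intAut a⁻¹ x), this]

theorem mem_placeStab_iff (w : HeightOneSpectrum (𝓞 L)) (τ : L ≃ₐ[K] L) :
    τ ∈ placeStab (K := K) w ↔ placeComap (intAut τ) w = w := by
  constructor
  · intro h
    apply HeightOneSpectrum.ext
    ext x
    exact h x
  · intro h x
    rw [← mem_placeComap_asIdeal, h]

theorem placeComap_eq_of_generator (σ : L ≃ₐ[K] L) (hσ : ∀ τ : L ≃ₐ[K] L, τ ∈ Subgroup.zpowers σ)
    {w : HeightOneSpectrum (𝓞 L)} (hw : placeComap (intAut σ) w = w) (τ : L ≃ₐ[K] L) :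
    placeComap (intAut τ) w = w := by
  rw [← mem_placeStab_iff]
  have h1 : Subgroup.zpowers σ ≤ placeStab (K := K) w := by
    rw [Subgroup.zpowers_le, mem_placeStab_iff]
    exact hw
  exact h1 (hσ τ)

/-- the Galois group acts transitively on the primes above a given prime. -/
theorem exists_placeComap_eq [IsGalois K L] {w w' : HeightOneSpectrum (𝓞 L)}
    (h : w.under (𝓞 K) = w'.under (𝓞 K)) : ∃ τ : L ≃ₐ[K] L, placeComap (intAut τ) w = w' := by
  have i1 : w.asIdeal.LiesOver (w.under (𝓞 K)).asIdeal := ⟨rfl⟩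
  have i2 : w'.asIdeal.LiesOver (w.under (𝓞 K)).asIdeal := ⟨by rw [h]; rfl⟩
  obtain ⟨τ, hτ⟩ := Ideal.exists_smul_eq_of_isGaloisGroup (w.under (𝓞 K)).asIdeal w'.asIdeal
    w.asIdeal (L ≃ₐ[K] L)
  refine ⟨τ, ?_⟩
  apply HeightOneSpectrum.ext
  ext x
  rw [mem_placeComap_asIdeal, ← hτ]
  show τ • x ∈ τ • w'.asIdeal ↔ x ∈ w'.asIdeal
  exact Ideal.smul_mem_pointwise_smul_iff

open Classical in
/-- the primes in `TL` fixed by `σ`. -/
noncomputable def fixedPlaces (TL : Finset (HeightOneSpectrum (𝓞 L))) (σ : L ≃ₐ[K] L) :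
    Finset (HeightOneSpectrum (𝓞 L)) :=
  TL.filter (fun w => placeComap (intAut σ) w = w)

open Classical in
theorem mem_fixedPlaces {σ : L ≃ₐ[K] L} {w : HeightOneSpectrum (𝓞 L)} :
    w ∈ fixedPlaces TL σ ↔ w ∈ TL ∧ placeComap (intAut σ) w = w := by
  simp [fixedPlaces]

/-- **the number of primes fixed by a generator is the number of nonsplit primes.** -/
theorem card_fixedPlaces [IsGalois K L] (hTL : IsAbove T TL) (σ : L ≃ₐ[K] L)
    (hσ : ∀ τ : L ≃ₐ[K] L, τ ∈ Subgroup.zpowers σ) :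
    (fixedPlaces TL σ).card = nonsplitCount T TL := by
  classical
  unfold nonsplitCount
  apply Finset.card_bij (fun w _ => w.under (𝓞 K))
  · intro w hw
    obtain ⟨hw1, hw2⟩ := mem_fixedPlaces.mp hw
    rw [Finset.mem_filter]
    refine ⟨(hTL w).mp hw1, ?_⟩
    rw [Finset.card_eq_one]
    refine ⟨w, ?_⟩
    ext w'
    rw [Finset.mem_singleton, mem_fibre]
    constructor
    · rintro ⟨_, h2⟩
      obtain ⟨τ, hτ⟩ := exists_placeComap_eq (K := K) (w := w) (w' := w') h2.symm
      rw [← hτ, placeComap_eq_of_generator σ hσ hw2 τ]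
    · rintro rfl
      exact ⟨hw1, rfl⟩
  · intro w hw w' hw' h
    obtain ⟨_, hw2⟩ := mem_fixedPlaces.mp hw
    obtain ⟨τ, hτ⟩ := exists_placeComap_eq (K := K) (w := w) (w' := w') h
    rw [← hτ, placeComap_eq_of_generator σ hσ hw2 τ]
  · intro v hv
    rw [Finset.mem_filter] at hv
    obtain ⟨hvT, hcard⟩ := hv
    obtain ⟨w, hw⟩ := Finset.card_eq_one.mp hcard
    have hwmem : w ∈ fibre TL v := by rw [hw]; exact Finset.mem_singleton_self w
    obtain ⟨hw1, hw2⟩ := mem_fibre.mp hwmem
    refine ⟨w, ?_, hw2⟩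
    rw [mem_fixedPlaces]
    refine ⟨hw1, ?_⟩
    have h3 : placeComap (intAut σ) w ∈ fibre TL v := by
      rw [mem_fibre, under_placeComap, hTL, under_placeComap]
      exact ⟨by rw [hw2]; exact hvT, hw2⟩
    rw [hw, Finset.mem_singleton] at h3
    exact h3

end Fermat.Agent.S55lib.FirstIneq
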