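/-
S55 sprint, block (IV) FIRST INEQUALITY (helper2).  File 10: instantiation of the first inequality in
the intrinsic semilocal model of `Iface/Layers.lean`:
`D = GalQq q`, `X = Emb q L`, `A = (PadicAlgCl q)ˣ`, `s ι = ι ∘ σ`, `E = TL`-units via `diag`.
-/
import Mathlib
import Fermat.Agent.S55lib.Iface.Layers
import Fermat.Agent.S55lib.FirstIneq.Main
import Fermat.Agent.S55lib.FirstIneq.NonsplitCount

set_option autoImplicit false
set_option linter.unusedSectionVars false

namespace Fermat.Agent.S55lib.FirstIneq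

open Fermat.Agent.S55lib Fermat.Agent.S55lib.LocalH

section Local

variable (q : ℕ) [Fact q.Prime]

/-- the action of `G_q` on `(ℚ̄_q)ˣ`. -/
noncomputable def rhoQ : GalQq q →* MulAut (PadicAlgCl q)ˣ where
  toFun d := Units.mapEquiv (d : PadicAlgCl q ≃* PadicAlgCl q)
  map_one' := by
    ext a
    rfl
  map_mul' d d' := by
    ext a
    rfl

theorem coe_rhoQ_apply (d : GalQq q) (a : (PadicAlgCl q)ˣ) :
    ((rhoQ q d a : (PadicAlgCl q)ˣ) : PadicAlgCl q) = d a := rfl

/-- the units of `ℚ̄_q` lying in an intermediate field. -/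
def unitsOf (E' : IntermediateField ℚ_[q] (PadicAlgCl q)) : Subgroup (PadicAlgCl q)ˣ where
  carrier := {a | (a : PadicAlgCl q) ∈ E'}
  one_mem' := E'.one_mem
  mul_mem' := fun {a b} ha hb => E'.mul_mem ha hb
  inv_mem' := fun {a} ha => by
    show ((a⁻¹ : (PadicAlgCl q)ˣ) : PadicAlgCl q) ∈ E'
    rw [Units.val_inv_eq_inv_val]
    exact E'.inv_mem ha

theorem mem_unitsOf {E' : IntermediateField ℚ_[q] (PadicAlgCl q)} {a : (PadicAlgCl q)ˣ} :
    a ∈ unitsOf q E' ↔ (a : PadicAlgCl q) ∈ E' := Iff.rfl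

variable (M : Type*) [Field M] [Algebra ℚ M]

theorem Jq_eq_eqFun : Jq q M = GSet.eqFun (X := Emb q M) (rhoQ q) := by
  ext f
  rw [mem_Jq_iff]
  constructor
  · intro h d ι
    exact Units.ext (h d ι)
  · intro h d ι
    exact congrArg Units.val (h d ι)

/-- the elements fixed by the stabiliser of `ι` are the units of the local field at `ι`. -/
theorem fixedSub_rhoQ (ι : Emb q M) :
    GSet.fixedSub (rhoQ q) ι = unitsOf q (localField q M ι) := by
  ext a
  rw [GSet.mem_fixedSub, mem_unitsOf]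
  constructor
  · intro h
    rw [← InfiniteGalois.fixedField_fixingSubgroup (localField q M ι),
      IntermediateField.mem_fixedField_iff]
    intro d hd
    have h1 := h d ((Emb.smul_eq_self_iff d ι).mpr hd)
    exact congrArg Units.val h1
  · intro h d hd
    apply Units.ext
    rw [coe_rhoQ_apply]
    have hd' := (Emb.smul_eq_self_iff d ι).mp hd
    rw [IntermediateField.mem_fixingSubgroup_iff] at hd'
    exact hd' _ h

/-- precomposition with an automorphism of `M`. -/
noncomputable def sEmb (γ : M ≃ₐ[ℚ] M) : Emb q M → Emb q M := fun ι => ι.comp (γ : M →ₐ[ℚ] M)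

variable {q M}

theorem sEmb_apply (γ : M ≃ₐ[ℚ] M) (ι : Emb q M) (x : M) : sEmb q M γ ι x = ι (γ x) := rfl

theorem sEmb_smul (γ : M ≃ₐ[ℚ] M) (d : GalQq q) (ι : Emb q M) :
    sEmb q M γ (d • ι) = d • sEmb q M γ ι := rfl

theorem iterate_sEmb (γ : M ≃ₐ[ℚ] M) (n : ℕ) (ι : Emb q M) :
    ((sEmb q M γ)^[n]) ι = sEmb q M (γ ^ n) ι := by
  induction n generalizing ι with
  | zero =>
    ext x
    rfl
  | succ n ih =>
    rw [Function.iterate_succ_apply, ih]
    ext x
    rw [sEmb_apply, sEmb_apply, sEmb_apply, pow_succ']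
    rfl

theorem iterate_sEmb_of_pow_eq_one (γ : M ≃ₐ[ℚ] M) {p : ℕ} (hγ : γ ^ p = 1) (ι : Emb q M) :
    ((sEmb q M γ)^[p]) ι = ι := by
  rw [iterate_sEmb, hγ]
  ext x
  rfl

variable (q M)

/-- the diagonal embedding `Mˣ → J_q(M)`, as a map to `eqFun`. -/
noncomputable def diagE : Mˣ →* GSet.eqFun (X := Emb q M) (rhoQ q) where
  toFun x := ⟨fun ι => Units.map (ι : M →* PadicAlgCl q) x, fun d ι => by
    apply Units.ext
    rfl⟩
  map_one' := by
    apply Subtype.ext
    funext ι
    exact map_one _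
  map_mul' x y := by
    apply Subtype.ext
    funext ι
    exact map_mul _ x y

variable {q M}

theorem coe_diagE_apply (x : Mˣ) (ι : Emb q M) :
    (((diagE q M x).1 ι : (PadicAlgCl q)ˣ) : PadicAlgCl q) = ι x := rfl

theorem diagE_equivariant (γ : M ≃ₐ[ℚ] M) (x : Mˣ) :
    diagE q M (Units.map (γ : M →* M) x) =
      GSet.shift (rhoQ q) (sEmb q M γ) (sEmb_smul γ) (diagE q M x) := by
  apply Subtype.ext
  funext ι
  apply Units.ext
  rfl

theorem diagE_injective [Nonempty (Emb q M)] : Function.Injective (diagE q M) := by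
  intro x y h
  obtain ⟨ι⟩ := ‹Nonempty (Emb q M)›
  have h1 := congrArg (fun f : GSet.eqFun (X := Emb q M) (rhoQ q) =>
    ((f.1 ι : (PadicAlgCl q)ˣ) : PadicAlgCl q)) h
  simp only [coe_diagE_apply] at h1
  exact Units.ext (ι.injective h1)

/-- the local data at a stable orbit: `τ` stabilises the local field, `τ^p` fixes it, `τ` does not. -/
theorem local_data_of_stable (γ : M ≃ₐ[ℚ] M) {p : ℕ} (hγ : γ ^ p = 1) (hγ1 : γ ≠ 1)
    (ι : Emb q M) (τ : GalQq q) (h : sEmb q M γ ι = τ • ι) :
    (∀ x ∈ localField q M ι, τ x ∈ localField q M ι) ∧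
    (∀ x ∈ localField q M ι, (τ ^ p) x = x) ∧
    (∃ x ∈ localField q M ι, τ x ≠ x) := by
  have hτι : ∀ m : M, τ (ι m) = ι (γ m) := by
    intro m
    have := congrArg (fun κ : Emb q M => κ m) h
    exact this.symm
  refine ⟨?_, ?_, ?_⟩
  · -- `τ` maps the generators `ι M` into `ι M`
    intro x hx
    have hle : localField q M ι ≤ (localField q M ι).comap (τ : PadicAlgCl q →ₐ[ℚ_[q]] PadicAlgCl q) := by
      unfold localField
      rw [IntermediateField.adjoin_le_iff]
      rintro _ ⟨m, rfl⟩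
      show τ (ι m) ∈ IntermediateField.adjoin ℚ_[q] (Set.range ι)
      rw [hτι]
      exact IntermediateField.subset_adjoin _ _ ⟨γ m, rfl⟩
    exact hle hx
  · intro x hx
    have hfix : τ ^ p ∈ (localField q M ι).fixingSubgroup := by
      rw [← Emb.smul_eq_self_iff]
      ext m
      rw [Emb.smul_apply]
      have hpow : ∀ n : ℕ, ∀ m : M, (τ ^ n) (ι m) = ι ((γ ^ n) m) := by
        intro n
        induction n with
        | zero => intro m; rfl
        | succ n ih =>
          intro m
          rw [pow_succ, AlgEquiv.mul_apply, hτι, ih, pow_succ, AlgEquiv.mul_apply]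
      rw [hpow, hγ]
      rfl
    rw [IntermediateField.mem_fixingSubgroup_iff] at hfix
    exact hfix x hx
  · by_contra hcon0
    have hcon : ∀ x ∈ localField q M ι, τ x = x := fun x hx =>
      by_contra fun hne => hcon0 ⟨x, hx, hne⟩
    apply hγ1
    ext m
    have h1 := hcon (ι m) (IntermediateField.subset_adjoin _ _ ⟨m, rfl⟩)
    rw [hτι] at h1
    exact ι.injective h1

end Local

section FiniteDim

variable {q : ℕ} [Fact q.Prime] {M : Type*} [Field M] [NumberField M]

theorem localField_finiteDimensional (ι : Emb q M) :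
    FiniteDimensional ℚ_[q] (localField q M ι) := by
  obtain ⟨α, hα⟩ := Field.exists_primitive_element ℚ M
  have hint : IsIntegral ℚ α := Algebra.IsIntegral.isIntegral α
  have hint' : IsIntegral ℚ_[q] (ι α) := (hint.map ι).tower_top
  have h1 : localField q M ι = IntermediateField.adjoin ℚ_[q] {ι α} := by
    apply le_antisymm
    · unfold localField
      rw [IntermediateField.adjoin_le_iff]
      rintro _ ⟨m, rfl⟩
      have hm : m ∈ Algebra.adjoin ℚ {α} := by
        have h2 : (IntermediateField.adjoin ℚ {α}).toSubalgebra = Algebra.adjoin ℚ {α} :=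
          IntermediateField.adjoin_simple_toSubalgebra_of_isAlgebraic hint.isAlgebraic
        rw [← h2, hα]
        trivial
      induction hm using Algebra.adjoin_induction with
      | mem x hx =>
        rw [Set.mem_singleton_iff] at hx
        rw [hx]
        exact IntermediateField.subset_adjoin _ _ (Set.mem_singleton _)
      | algebraMap r =>
        rw [AlgHom.commutes, IsScalarTower.algebraMap_apply ℚ ℚ_[q] (PadicAlgCl q)]
        exact IntermediateField.algebraMap_mem _ _
      | add x y _ _ hx hy =>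
        rw [map_add]
        exact add_mem hx hy
      | mul x y _ _ hx hy =>
        rw [map_mul]
        exact mul_mem hx hy
    · rw [IntermediateField.adjoin_le_iff, Set.singleton_subset_iff]
      exact IntermediateField.subset_adjoin _ _ ⟨α, rfl⟩
  rw [h1]
  exact IntermediateField.adjoin.finiteDimensional hint'

end FiniteDim

section Global

open NumberField IsDedekindDomain Module GSet

/-- **Local class field theory input** at the prime `q` for cyclic extensions of degree `p`:
for a finite extension `E'` of `ℚ_q` inside `ℚ̄_q` and `τ ∈ G_q` inducing an automorphism of order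
`p` of `E'`: `[(E'^τ)ˣ : N E'ˣ] = p` and Hilbert 90. -/
def LocalCyclic (q : ℕ) [Fact q.Prime] (p : ℕ) : Prop :=
  ∀ (E' : IntermediateField ℚ_[q] (PadicAlgCl q)) (τ : GalQq q), FiniteDimensional ℚ_[q] E' →
    (∀ x ∈ E', τ x ∈ E') → (∀ x ∈ E', (τ ^ p) x = x) → (∃ x ∈ E', τ x ≠ x) →
    hIdxSub (dOp (rhoQ q τ).toMonoidHom) (nOp p (rhoQ q τ).toMonoidHom) (unitsOf q E') = p ∧
    hIdxSub (nOp p (rhoQ q τ).toMonoidHom) (dOp (rhoQ q τ).toMonoidHom) (unitsOf q E') = 1

variable {ι : Type*} [Fintype ι] (qq : ι → ℕ) [∀ i, Fact (qq i).Prime]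
variable {K L : Type*} [Field K] [NumberField K] [Field L] [NumberField L] [Algebra K L]
variable {T : Finset (HeightOneSpectrum (𝓞 K))} (TL : Finset (HeightOneSpectrum (𝓞 L)))

/-- the semilocal module `∏_i J_{q_i}(L)` (as equivariant functions). -/
abbrev JFam (L : Type*) [Field L] [Algebra ℚ L] : Type _ :=
  semilocSet (fun i => Emb (qq i) L) (fun i => rhoQ (qq i))

/-- the action of `γ ∈ Aut(L/ℚ)` on the semilocal module. -/
noncomputable def sigmaJ (γ : L ≃ₐ[ℚ] L) : JFam qq L →* JFam qq L :=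
  semilocSetShift (fun i => rhoQ (qq i)) (fun i => sEmb (qq i) L γ) (fun _ => sEmb_smul γ)

/-- the `TL`-units inside the semilocal module `∏_i J_{q_i}(L)`. -/
noncomputable def unitsToJ : sUnit TL →* JFam qq L :=
  MonoidHom.pi fun i => (diagE (qq i) L).comp (sUnit TL).subtype

instance instNonemptyEmb (q : ℕ) [Fact q.Prime] : Nonempty (Emb q L) :=
  ⟨IsAlgClosed.lift⟩

theorem unitsToJ_injective [Nonempty ι] : Function.Injective (unitsToJ qq TL) := by
  intro x y h
  obtain ⟨i⟩ := ‹Nonempty ι›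
  have h1 := congrFun h i
  exact Subtype.ext (diagE_injective h1)

variable {TL}

set_option maxHeartbeats 1600000 in
/-- **The first inequality in the intrinsic semilocal model**, for a cyclic extension `L/K` of
number fields of odd prime degree `p`, any finite nonempty family of primes `q_i`, `T`/`TL` the
primes of `K`/`L` above them; local class field theory and the orbit count are hypotheses. -/
theorem first_inequality_Jq [Nonempty ι] [IsGalois K L] (p : ℕ) [hp : Fact p.Prime] (hp2 : p ≠ 2)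
    (hdeg : finrank K L = p) (hTL : IsAbove T TL) (σ : L ≃ₐ[K] L)
    (hσ : ∀ τ : L ≃ₐ[K] L, τ ∈ Subgroup.zpowers σ)
    (hloc : ∀ i, LocalCyclic (qq i) p)
    (hcount : ∑ i, Nat.card (FixO (D := GalQq (qq i)) (X := Emb (qq i) L)
      (sEmb (qq i) L (autToQ K σ))) = nonsplitCount T TL) :
    hIdxQuot (dOp (sigmaJ qq (autToQ K σ))) (nOp p (sigmaJ qq (autToQ K σ)))
        (unitsToJ qq TL).range =
      p * hIdxQuot (nOp p (sigmaJ qq (autToQ K σ))) (dOp (sigmaJ qq (autToQ K σ)))
        (unitsToJ qq TL).range ∧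
    hIdxQuot (dOp (sigmaJ qq (autToQ K σ))) (nOp p (sigmaJ qq (autToQ K σ)))
        (unitsToJ qq TL).range ≠ 0 ∧
    hIdxQuot (nOp p (sigmaJ qq (autToQ K σ))) (dOp (sigmaJ qq (autToQ K σ)))
        (unitsToJ qq TL).range ≠ 0 := by
  have hσp : σ ^ p = 1 := by
    rw [← hdeg, ← IsGalois.card_aut_eq_finrank K L]
    exact pow_card_eq_one'
  have hγp : (autToQ K σ) ^ p = 1 := by rw [← map_pow, hσp, map_one]
  have hγ1 : autToQ K σ ≠ 1 := by
    intro h
    have hσ1 : σ = 1 := by
      ext x
      have := congrArg (fun γ : L ≃ₐ[ℚ] L => γ x) h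
      exact this
    have hcard : Nat.card (L ≃ₐ[K] L) = 1 := by
      rw [Nat.card_eq_one_iff_unique]
      refine ⟨⟨fun a b => ?_⟩, ⟨1⟩⟩
      have ha := hσ a
      have hb := hσ b
      rw [hσ1, Subgroup.zpowers_one_eq_bot, Subgroup.mem_bot] at ha hb
      rw [ha, hb]
    rw [IsGalois.card_aut_eq_finrank K L, hdeg] at hcard
    exact hp.out.one_lt.ne' hcard
  have hsp : ∀ i, ∀ x, ((sEmb (qq i) L (autToQ K σ))^[p]) x = x :=
    fun i x => iterate_sEmb_of_pow_eq_one _ hγp x
  have key : ∀ i, ∀ (x : Emb (qq i) L) (τ : GalQq (qq i)), sEmb (qq i) L (autToQ K σ) x = τ • x →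
      hIdxSub (dOp (rhoQ (qq i) τ).toMonoidHom) (nOp p (rhoQ (qq i) τ).toMonoidHom)
        (fixedSub (rhoQ (qq i)) x) = p ∧
      hIdxSub (nOp p (rhoQ (qq i) τ).toMonoidHom) (dOp (rhoQ (qq i) τ).toMonoidHom)
        (fixedSub (rhoQ (qq i)) x) = 1 := by
    intro i x τ h
    obtain ⟨ha, hb, hc⟩ := local_data_of_stable (autToQ K σ) hγp hγ1 x τ h
    rw [fixedSub_rhoQ]
    exact hloc i _ τ (localField_finiteDimensional x) ha hb hc
  refine first_inequality_sUnit (fun i => rhoQ (qq i)) (fun i => sEmb (qq i) L (autToQ K σ))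
    (fun i => sEmb_smul (autToQ K σ)) p hsp hp2 hdeg hTL σ hσ (unitsToJ qq TL)
    (unitsToJ_injective qq TL) ?_ hcount (fun i x τ h => (key i x τ h).2)
    (fun i x τ h => (key i x τ h).1)
  intro e
  funext i
  exact diagE_equivariant (autToQ K σ) (e : Lˣ)

end Global

end Fermat.Agent.S55lib.FirstIneq
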