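/-
S55 sprint, block (IV) FIRST INEQUALITY (helper2).  File 11: the orbit count.

`card_FixO_eq`: for a `D`-set `X` with commuting map `s`, and a map `π : X → W` whose fibres are
the `D`-orbits and which intertwines `s` with `sW : W → W`, the number of `s`-stable orbits is the
number of `w ∈ range π` fixed by `sW`.

`count_of_placeDict`: hence, given a dictionary `primeOf : Emb q L → {primes of L}` (fibres =
`G_q`-orbits, image = primes above `q`, compatible with `σ`) at each of finitely many distinct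
primes `q_i`, the hypothesis `hcount` of `first_inequality_Jq`.
-/
import Mathlib
import Fermat.Agent.S55lib.FirstIneq.Inst

set_option autoImplicit false
set_option linter.unusedSectionVars false

namespace Fermat.Agent.S55lib.FirstIneq.GSet

section Abstract

variable {D : Type*} [Group D] {X : Type*} [MulAction D X] (s : X → X)

theorem card_FixO_eq {W : Type*} (π : X → W) (hπ : ∀ x y, π x = π y ↔ ∃ d : D, y = d • x)
    (sW : W → W) (hsW : ∀ x, π (s x) = sW (π x)) :
    Nat.card (FixO (D := D) (X := X) s) = Nat.card {w : W // w ∈ Set.range π ∧ sW w = w} := by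
  have hfix : ∀ O : Orb D X, rep D O ∈ Zfix D s ↔ sW (π (rep D O)) = π (rep D O) := by
    intro O
    rw [mem_Zfix, ← hsW, eq_comm, hπ]
  refine Nat.card_congr (Equiv.ofBijective
    (fun O => ⟨π (rep D O.1), ⟨rep D O.1, rfl⟩, (hfix O.1).mp O.2⟩) ⟨?_, ?_⟩)
  · intro O O' h
    have h1 : π (rep D O.1) = π (rep D O'.1) := congrArg Subtype.val h
    obtain ⟨d, hd⟩ := (hπ _ _).mp h1
    apply Subtype.ext
    rw [← orbOf_rep D O.1, ← orbOf_rep D O'.1, hd, orbOf_smul]
  · rintro ⟨w, ⟨x, rfl⟩, hw⟩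
    have h1 : π (rep D (orbOf D x)) = π x := by
      rw [hπ]
      exact ⟨delta D x, (delta_smul_rep D x).symm⟩
    refine ⟨⟨orbOf D x, ?_⟩, ?_⟩
    · rw [hfix, h1]
      exact hw
    · exact Subtype.ext h1

end Abstract

end Fermat.Agent.S55lib.FirstIneq.GSet

namespace Fermat.Agent.S55lib.FirstIneq

open Fermat.Agent.S55lib Fermat.Agent.S55lib.LocalH NumberField IsDedekindDomain Module

section Dict

variable (q : ℕ) [Fact q.Prime] (L : Type*) [Field L] [NumberField L]

/-- a dictionary between the embeddings `L → ℚ̄_q` and the primes of `L` above `q`: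
the fibres of `primeOf` are the `G_q`-orbits, its image is the set of primes containing `q`,
and precomposition with `γ ∈ Aut(L)` corresponds to the pull-back of primes under `γ`. -/
def IsPlaceDict (primeOf : Emb q L → HeightOneSpectrum (𝓞 L)) : Prop :=
  (∀ ι ι' : Emb q L, primeOf ι = primeOf ι' ↔ ∃ d : GalQq q, ι' = d • ι) ∧
  (∀ w : HeightOneSpectrum (𝓞 L), (∃ ι, primeOf ι = w) ↔ ((q : ℕ) : 𝓞 L) ∈ w.asIdeal) ∧
  (∀ (γ : L ≃ₐ[ℚ] L) (ι : Emb q L),
    primeOf (sEmb q L γ ι) = placeComap (intAut γ) (primeOf ι))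

variable {q L}

theorem card_FixO_of_placeDict {primeOf : Emb q L → HeightOneSpectrum (𝓞 L)}
    (h : IsPlaceDict q L primeOf) (γ : L ≃ₐ[ℚ] L) :
    Nat.card (GSet.FixO (D := GalQq q) (X := Emb q L) (sEmb q L γ)) =
      Nat.card {w : HeightOneSpectrum (𝓞 L) //
        ((q : ℕ) : 𝓞 L) ∈ w.asIdeal ∧ placeComap (intAut γ) w = w} := by
  rw [GSet.card_FixO_eq (sEmb q L γ) primeOf h.1 (placeComap (intAut γ)) (h.2.2 γ)]
  refine Nat.card_congr (Equiv.subtypeEquivRight fun w => ?_)
  rw [Set.mem_range, h.2.1 w]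

end Dict

section Sum

variable {ι : Type*} [Fintype ι] (qq : ι → ℕ) [∀ i, Fact (qq i).Prime]
variable {K L : Type*} [Field K] [NumberField K] [Field L] [NumberField L] [Algebra K L]
variable {T : Finset (HeightOneSpectrum (𝓞 K))} {TL : Finset (HeightOneSpectrum (𝓞 L))}

theorem intAut_autToQ (σ : L ≃ₐ[K] L) : intAut (autToQ K σ) = intAut σ := rfl

/-- **the orbit count** `hcount` of `first_inequality_Jq` from place dictionaries. -/
theorem count_of_placeDict [IsGalois K L] (hqq : Function.Injective qq)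
    (primeOf : ∀ i, Emb (qq i) L → HeightOneSpectrum (𝓞 L))
    (hdict : ∀ i, IsPlaceDict (qq i) L (primeOf i))
    (hTLmem : ∀ w : HeightOneSpectrum (𝓞 L), w ∈ TL ↔ ∃ i, ((qq i : ℕ) : 𝓞 L) ∈ w.asIdeal)
    (hTL : IsAbove T TL) (σ : L ≃ₐ[K] L) (hσ : ∀ τ : L ≃ₐ[K] L, τ ∈ Subgroup.zpowers σ) :
    ∑ i, Nat.card (GSet.FixO (D := GalQq (qq i)) (X := Emb (qq i) L)
      (sEmb (qq i) L (autToQ K σ))) = nonsplitCount T TL := by
  classical
  rw [← card_fixedPlaces hTL σ hσ]
  have h1 : ∀ i, Nat.card (GSet.FixO (D := GalQq (qq i)) (X := Emb (qq i) L)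
      (sEmb (qq i) L (autToQ K σ))) =
      (TL.filter (fun w => ((qq i : ℕ) : 𝓞 L) ∈ w.asIdeal ∧
        placeComap (intAut σ) w = w)).card := by
    intro i
    rw [card_FixO_of_placeDict (hdict i) (autToQ K σ), intAut_autToQ]
    rw [← Fintype.card_coe, ← Nat.card_eq_fintype_card]
    refine Nat.card_congr (Equiv.subtypeEquivRight fun w => ?_)
    rw [Finset.mem_filter, hTLmem]
    constructor
    · intro h
      exact ⟨⟨i, h.1⟩, h⟩
    · intro h
      exact h.2
  rw [Finset.sum_congr rfl (fun i _ => h1 i), ← Finset.card_biUnion]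
  · congr 1
    ext w
    rw [Finset.mem_biUnion, mem_fixedPlaces]
    constructor
    · rintro ⟨i, _, hi⟩
      rw [Finset.mem_filter] at hi
      exact ⟨hi.1, hi.2.2⟩
    · rintro ⟨hw1, hw2⟩
      obtain ⟨i, hi⟩ := (hTLmem w).mp hw1
      exact ⟨i, Finset.mem_univ i, Finset.mem_filter.mpr ⟨hw1, hi, hw2⟩⟩
  · intro i _ j _ hij
    rw [Function.onFun, Finset.disjoint_left]
    intro w hwi hwj
    rw [Finset.mem_filter] at hwi hwj
    have hne : qq i ≠ qq j := fun h => hij (hqq h)
    have hcop : Nat.Coprime (qq i) (qq j) :=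
      (Nat.coprime_primes (Fact.out : (qq i).Prime) (Fact.out : (qq j).Prime)).mpr hne
    have hone : (1 : 𝓞 L) ∈ w.asIdeal := by
      have hb := Nat.Coprime.isCoprime hcop
      obtain ⟨a, b, hab⟩ := hb
      have h2 : ((a : ℤ) : 𝓞 L) * ((qq i : ℕ) : 𝓞 L) + ((b : ℤ) : 𝓞 L) * ((qq j : ℕ) : 𝓞 L) = 1 := by
        have := congrArg (fun z : ℤ => (z : 𝓞 L)) hab
        push_cast at this
        exact this
      rw [← h2]
      exact w.asIdeal.add_mem (w.asIdeal.mul_mem_left _ hwi.2.1) (w.asIdeal.mul_mem_left _ hwj.2.1)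
    exact w.isPrime.ne_top ((Ideal.eq_top_iff_one _).mpr hone)

end Sum

end Fermat.Agent.S55lib.FirstIneq
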