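/-
S55 sprint, block (IV) FIRST INEQUALITY (helper2).  File 12: the quotient form of `hIdxQuot`.

For a surjective homomorphism `π : J →* Q` intertwining `(f, g)` on `J` with `(f', g')` on `Q`:
`hIdx f' g' = hIdxQuot f g (ker π)`  (`[ker f' : range g'] = [f⁻¹(B) : range g · B]`, `B = ker π`).
Also the additive version for `AddSubgroup`s of modules (the shape used for `Rep ℤ C`).
-/
import Mathlib
import Fermat.Agent.S55lib.FirstIneq.Hexagon

set_option autoImplicit false

namespace Fermat.Agent.S55lib.FirstIneq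

open Fermat.Agent.S55lib.LocalH

section Mul

variable {J Q : Type*} [CommGroup J] [CommGroup Q]

theorem hIdx_of_surjective (π : J →* Q) (hπ : Function.Surjective π) (f g : J →* J)
    (f' g' : Q →* Q) (hf : ∀ x, π (f x) = f' (π x)) (hg : ∀ x, π (g x) = g' (π x)) :
    hIdx f' g' = hIdxQuot f g π.ker := by
  unfold hIdx hIdxQuot
  have h1 : g'.range.comap π = g.range ⊔ π.ker := by
    ext x
    rw [Subgroup.mem_comap, Subgroup.mem_sup]
    constructor
    · rintro ⟨y', hy'⟩
      obtain ⟨y, rfl⟩ := hπ y'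
      refine ⟨g y, ⟨y, rfl⟩, (g y)⁻¹ * x, ?_, by group⟩
      rw [MonoidHom.mem_ker, map_mul, map_inv, hg, hy', inv_mul_cancel]
    · rintro ⟨_, ⟨y, rfl⟩, b, hb, rfl⟩
      refine ⟨π y, ?_⟩
      rw [map_mul, MonoidHom.mem_ker.mp hb, mul_one, hg]
  have h2 : f'.ker.comap π = π.ker.comap f := by
    ext x
    rw [Subgroup.mem_comap, Subgroup.mem_comap, MonoidHom.mem_ker, MonoidHom.mem_ker, hf]
  rw [← h1, ← h2, Subgroup.relIndex_comap, Subgroup.map_comap_eq_self_of_surjective hπ]

end Mul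

section Add

variable {J Q : Type*} [AddCommGroup J] [AddCommGroup Q]

/-- additive version, for `ℤ`-linear maps: `[ker F' : range G'] = [F⁻¹(ker π) : range G + ker π]`. -/
theorem relIndex_of_surjective (π : J →+ Q) (hπ : Function.Surjective π) (F G : J →+ J)
    (F' G' : Q →+ Q) (hF : ∀ x, π (F x) = F' (π x)) (hG : ∀ x, π (G x) = G' (π x)) :
    G'.range.relIndex F'.ker = (G.range ⊔ π.ker).relIndex (π.ker.comap F) := by
  have h1 : G'.range.comap π = G.range ⊔ π.ker := by
    ext x
    rw [AddSubgroup.mem_comap, AddSubgroup.mem_sup]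
    constructor
    · rintro ⟨y', hy'⟩
      obtain ⟨y, rfl⟩ := hπ y'
      refine ⟨G y, ⟨y, rfl⟩, -(G y) + x, ?_, by abel⟩
      rw [AddMonoidHom.mem_ker, map_add, map_neg, hG, hy', neg_add_cancel]
    · rintro ⟨_, ⟨y, rfl⟩, b, hb, rfl⟩
      refine ⟨π y, ?_⟩
      rw [map_add, AddMonoidHom.mem_ker.mp hb, add_zero, hG]
  have h2 : F'.ker.comap π = π.ker.comap F := by
    ext x
    rw [AddSubgroup.mem_comap, AddSubgroup.mem_comap, AddMonoidHom.mem_ker, AddMonoidHom.mem_ker,
      hF]
  rw [← h1, ← h2, AddSubgroup.relIndex_comap, AddSubgroup.map_comap_eq_self_of_surjective hπ]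

end Add

end Fermat.Agent.S55lib.FirstIneq
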