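/-
S55 sprint, block (IV) FIRST INEQUALITY (helper2).  File 14: the abstract passage from the semilocal
`T`-idele class group `J_T / E_T` to the full idele class group `C = I / P`.

* `hIdxQuot_comap_of_surjective`: `hIdxQuot` is invariant under pull back along a surjection.
* `hIdxQuot_sup_acyclic` (Lemma Q): enlarging `E` by a disjoint stable subgroup `U` which is acyclic
  for `(f, g)` and `(g, f)` does not change `hIdxQuot f g`.
* `hIdx_passage`: for `X = I_T` (the `T`-ideles), `πC : X ↠ C` (kernel `E` = principal `T`-ideles),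
  `pr : X ↠ J_T` (kernel `U = U^T`, acyclic), `pr⁻¹(E_T) = E ⊔ U`:
  `hIdx` on `C` is `hIdxQuot` on `J_T` modulo `E_T`.
-/
import Mathlib
import Fermat.Agent.S55lib.FirstIneq.QuotBridge

set_option autoImplicit false

namespace Fermat.Agent.S55lib.FirstIneq

open Fermat.Agent.S55lib.LocalH

section Comap

variable {X Y : Type*} [CommGroup X] [CommGroup Y]

/-- `hIdxQuot` is invariant under pull back along a surjective intertwining homomorphism. -/
theorem hIdxQuot_comap_of_surjective (ψ : X →* Y) (hψ : Function.Surjective ψ) (f g : X →* X)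
    (f' g' : Y →* Y) (hf : ∀ x, ψ (f x) = f' (ψ x)) (hg : ∀ x, ψ (g x) = g' (ψ x))
    (B' : Subgroup Y) :
    hIdxQuot f g (B'.comap ψ) = hIdxQuot f' g' B' := by
  unfold hIdxQuot
  have h1 : (g'.range ⊔ B').comap ψ = g.range ⊔ B'.comap ψ := by
    ext x
    rw [Subgroup.mem_comap, Subgroup.mem_sup, Subgroup.mem_sup]
    constructor
    · rintro ⟨_, ⟨y', rfl⟩, b, hb, hyb⟩
      obtain ⟨y, rfl⟩ := hψ y'
      refine ⟨g y, ⟨y, rfl⟩, (g y)⁻¹ * x, ?_, by group⟩
      rw [Subgroup.mem_comap, map_mul, map_inv, hg, ← hyb]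
      simpa using hb
    · rintro ⟨_, ⟨y, rfl⟩, b, hb, rfl⟩
      refine ⟨g' (ψ y), ⟨ψ y, rfl⟩, ψ b, hb, ?_⟩
      rw [map_mul, hg]
  have h2 : (B'.comap f').comap ψ = (B'.comap ψ).comap f := by
    ext x
    rw [Subgroup.mem_comap, Subgroup.mem_comap, Subgroup.mem_comap, Subgroup.mem_comap, hf]
  rw [← h1, ← h2, Subgroup.relIndex_comap, Subgroup.map_comap_eq_self_of_surjective hψ]

end Comap

section LemmaQ

variable {X : Type*} [CommGroup X]

/-- **Lemma Q.** Let `E, U ≤ X` be stable under `f, g` (with `f ∘ g = g ∘ f = 1`), `E ∩ U = 1`, and `U`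
acyclic (`U ∩ ker f = g U`, `U ∩ ker g = f U`). Then `[f⁻¹(EU) : im g · EU] = [f⁻¹E : im g · E]`. -/
theorem hIdxQuot_sup_acyclic (f g : X →* X) (hfg : ∀ x, f (g x) = 1) (hgf : ∀ x, g (f x) = 1)
    (E U : Subgroup X) (hfE : ∀ e ∈ E, f e ∈ E) (hgE : ∀ e ∈ E, g e ∈ E)
    (hfU : ∀ u ∈ U, f u ∈ U) (hgU : ∀ u ∈ U, g u ∈ U)
    (hEU : ∀ x, x ∈ E → x ∈ U → x = 1)
    (hU0 : ∀ u ∈ U, f u = 1 → ∃ u' ∈ U, g u' = u)
    (hU1 : ∀ u ∈ U, g u = 1 → ∃ u' ∈ U, f u' = u) :
    hIdxQuot f g (E ⊔ U) = hIdxQuot f g E := by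
  unfold hIdxQuot
  -- Claim 1
  have h1 : (E ⊔ U).comap f = E.comap f ⊔ U := by
    apply le_antisymm
    · intro x hx
      rw [Subgroup.mem_comap, Subgroup.mem_sup] at hx
      obtain ⟨e, he, u, hu, heu⟩ := hx
      have hgu : g u = 1 := by
        have h : g e * g u = 1 := by rw [← map_mul, heu, hgf]
        have h' : g u = (g e)⁻¹ := eq_inv_of_mul_eq_one_right h
        apply hEU
        · rw [h']
          exact E.inv_mem (hgE e he)
        · exact hgU u hu
      obtain ⟨u', hu', hfu'⟩ := hU1 u hu hgu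
      rw [Subgroup.mem_sup]
      refine ⟨x * u'⁻¹, ?_, u', hu', by group⟩
      rw [Subgroup.mem_comap, map_mul, map_inv, hfu', ← heu]
      simpa using he
    · refine sup_le ?_ ?_
      · intro x hx
        exact Subgroup.mem_sup_left (Subgroup.mem_comap.mp hx)
      · intro u hu
        exact Subgroup.mem_comap.mpr (Subgroup.mem_sup_right (hfU u hu))
  have hHK : g.range ⊔ E ≤ E.comap f := by
    refine sup_le ?_ ?_
    · rintro _ ⟨y, rfl⟩
      rw [Subgroup.mem_comap, hfg]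
      exact E.one_mem
    · intro e he
      exact Subgroup.mem_comap.mpr (hfE e he)
  -- Claim 2
  have h2 : (g.range ⊔ E ⊔ U) ⊓ E.comap f = g.range ⊔ E := by
    apply le_antisymm
    · intro x hx
      obtain ⟨hx1, hx2⟩ := Subgroup.mem_inf.mp hx
      obtain ⟨h, hh, u, hu, rfl⟩ := Subgroup.mem_sup.mp hx1
      have hu2 : u ∈ E.comap f := by
        have : u = h⁻¹ * (h * u) := by group
        rw [this]
        exact (E.comap f).mul_mem ((E.comap f).inv_mem (hHK hh)) hx2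
      have hfu : f u = 1 := hEU _ (Subgroup.mem_comap.mp hu2) (hfU u hu)
      obtain ⟨u', _, hgu'⟩ := hU0 u hu hfu
      refine (g.range ⊔ E).mul_mem hh (Subgroup.mem_sup_left ⟨u', hgu'⟩)
    · exact le_inf le_sup_left hHK
  have h3 : g.range ⊔ (E ⊔ U) = g.range ⊔ E ⊔ U := (sup_assoc _ _ _).symm
  have h4 : E.comap f ⊔ U = E.comap f ⊔ (g.range ⊔ E ⊔ U) := by
    apply le_antisymm
    · exact sup_le le_sup_left (le_sup_of_le_right le_sup_right)
    · exact sup_le le_sup_left (sup_le (le_sup_of_le_left hHK) le_sup_right)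
  rw [h1, h3, h4, Subgroup.relIndex_sup_right, ← Subgroup.inf_relIndex_right, h2]

end LemmaQ

section Passage

variable {X C J : Type*} [CommGroup X] [CommGroup C] [CommGroup J]

/-- **The abstract passage** from `J_T / E_T` to the idele class group `C`. -/
theorem hIdx_passage (f g : X →* X) (hfg : ∀ x, f (g x) = 1) (hgf : ∀ x, g (f x) = 1)
    (πC : X →* C) (hπC : Function.Surjective πC) (fC gC : C →* C)
    (hfC : ∀ x, πC (f x) = fC (πC x)) (hgC : ∀ x, πC (g x) = gC (πC x))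
    (pr : X →* J) (hpr : Function.Surjective pr) (fJ gJ : J →* J)
    (hfJ : ∀ x, pr (f x) = fJ (pr x)) (hgJ : ∀ x, pr (g x) = gJ (pr x))
    (BJ : Subgroup J) (hker : BJ.comap pr = πC.ker ⊔ pr.ker)
    (hEU : ∀ x, x ∈ πC.ker → x ∈ pr.ker → x = 1)
    (hU0 : ∀ u ∈ pr.ker, f u = 1 → ∃ u' ∈ pr.ker, g u' = u)
    (hU1 : ∀ u ∈ pr.ker, g u = 1 → ∃ u' ∈ pr.ker, f u' = u) :
    hIdx fC gC = hIdxQuot fJ gJ BJ := by
  have hfE : ∀ e ∈ πC.ker, f e ∈ πC.ker := fun e he => by
    rw [MonoidHom.mem_ker] at he ⊢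
    rw [hfC, he, map_one]
  have hgE : ∀ e ∈ πC.ker, g e ∈ πC.ker := fun e he => by
    rw [MonoidHom.mem_ker] at he ⊢
    rw [hgC, he, map_one]
  have hfU : ∀ e ∈ pr.ker, f e ∈ pr.ker := fun e he => by
    rw [MonoidHom.mem_ker] at he ⊢
    rw [hfJ, he, map_one]
  have hgU : ∀ e ∈ pr.ker, g e ∈ pr.ker := fun e he => by
    rw [MonoidHom.mem_ker] at he ⊢
    rw [hgJ, he, map_one]
  rw [hIdx_of_surjective πC hπC f g fC gC hfC hgC,
    ← hIdxQuot_sup_acyclic f g hfg hgf πC.ker pr.ker hfE hgE hfU hgU hEU hU0 hU1, ← hker,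
    hIdxQuot_comap_of_surjective pr hpr f g fJ gJ hfJ hgJ BJ]

end Passage

end Fermat.Agent.S55lib.FirstIneq
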