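/-
S55 sprint, block (IV) FIRST INEQUALITY (helper2).  File 16: the semilocal unit group `U_q(M)` at a
prime `q` unramified in `M` is acyclic for a cyclic group `⟨γ⟩ ≤ Aut(M/ℚ)` of prime order `p`:
`U_q ∩ ker(γ - 1) = N U_q` and `U_q ∩ ker N = (γ - 1) U_q`.
(`G_q`-set reduction of `SemilocalSet.lean` with coefficients the norm-one units of `ℚ̄_q`, local
input `UnitsLocal.unitsAcyclic_local`.)
-/
import Mathlib
import Fermat.Agent.S55lib.FirstIneq.UnitsLocal

set_option autoImplicit false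

namespace Fermat.Agent.S55lib.FirstIneq

open Fermat.Agent.S55lib Fermat.Agent.S55lib.LocalH GSet

section NormOne

variable (q : ℕ) [Fact q.Prime]

theorem norm_galQq (d : GalQq q) (y : PadicAlgCl q) : ‖d y‖ = ‖y‖ :=
  (spectralNorm_eq_of_equiv d y).symm

/-- the units of norm one of `ℚ̄_q`. -/
def normOne : Subgroup (PadicAlgCl q)ˣ where
  carrier := {a | ‖(a : PadicAlgCl q)‖ = 1}
  one_mem' := by simp
  mul_mem' := fun {a b} ha hb => by
    show ‖((a * b : (PadicAlgCl q)ˣ) : PadicAlgCl q)‖ = 1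
    rw [Units.val_mul, norm_mul, ha, hb, mul_one]
  inv_mem' := fun {a} ha => by
    show ‖((a⁻¹ : (PadicAlgCl q)ˣ) : PadicAlgCl q)‖ = 1
    rw [Units.val_inv_eq_inv_val, norm_inv, ha, inv_one]

theorem mem_normOne {a : (PadicAlgCl q)ˣ} : a ∈ normOne q ↔ ‖(a : PadicAlgCl q)‖ = 1 := Iff.rfl

theorem rhoQ_mem_normOne (d : GalQq q) {a : (PadicAlgCl q)ˣ} (ha : a ∈ normOne q) :
    rhoQ q d a ∈ normOne q := by
  rw [mem_normOne, coe_rhoQ_apply, norm_galQq]
  exact ha

/-- the action of `G_q` on the norm-one units. -/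
noncomputable def rhoU : GalQq q →* MulAut (normOne q) where
  toFun d :=
    { toFun := fun a => ⟨rhoQ q d a.1, rhoQ_mem_normOne q d a.2⟩
      invFun := fun a => ⟨rhoQ q d⁻¹ a.1, rhoQ_mem_normOne q d⁻¹ a.2⟩
      left_inv := fun a => Subtype.ext (by
        show rhoQ q d⁻¹ (rhoQ q d a.1) = a.1
        rw [← MulAut.mul_apply, ← map_mul, inv_mul_cancel, map_one]
        rfl)
      right_inv := fun a => Subtype.ext (by
        show rhoQ q d (rhoQ q d⁻¹ a.1) = a.1
        rw [← MulAut.mul_apply, ← map_mul, mul_inv_cancel, map_one]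
        rfl)
      map_mul' := fun a b => Subtype.ext (map_mul (rhoQ q d) a.1 b.1) }
  map_one' := by
    apply MulEquiv.ext
    intro a
    apply Subtype.ext
    show rhoQ q 1 a.1 = a.1
    rw [map_one]
    rfl
  map_mul' d d' := by
    apply MulEquiv.ext
    intro a
    apply Subtype.ext
    show rhoQ q (d * d') a.1 = rhoQ q d (rhoQ q d' a.1)
    rw [map_mul]
    rfl

theorem coe_rhoU_apply (d : GalQq q) (a : normOne q) :
    ((rhoU q d a : normOne q) : (PadicAlgCl q)ˣ) = rhoQ q d a.1 := rfl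

end NormOne

section LocalInput

variable {q : ℕ} [Fact q.Prime] {M : Type*} [Field M] [NumberField M]

/-- the norm-one units fixed by the stabiliser of `ι` are the integral units of the local field. -/
theorem map_fixedSub_rhoU (ι : Emb q M) :
    (fixedSub (rhoU q) ι).map (normOne q).subtype = intUnitsOf q (localField q M ι) := by
  ext a
  rw [mem_intUnitsOf, ← mem_unitsOf, ← fixedSub_rhoQ]
  constructor
  · rintro ⟨b, hb, rfl⟩
    refine ⟨?_, b.2⟩
    rw [mem_fixedSub]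
    intro d hd
    exact congrArg Subtype.val ((mem_fixedSub (rhoU q)).mp hb d hd)
  · rintro ⟨ha, ha1⟩
    refine ⟨⟨a, ha1⟩, ?_, rfl⟩
    rw [SetLike.mem_coe, mem_fixedSub]
    intro d hd
    exact Subtype.ext ((mem_fixedSub (rhoQ q)).mp ha d hd)

theorem hIdxSub_fixedSub_rhoU (p : ℕ) [Fact p.Prime] (γ : M ≃ₐ[ℚ] M) (hγ : γ ^ p = 1)
    (hγ1 : γ ≠ 1) (ι : Emb q M) (τ : GalQq q) (h : sEmb q M γ ι = τ • ι)
    (hur : UnramAt q (localField q M ι)) :
    hIdxSub (dOp (rhoU q τ).toMonoidHom) (nOp p (rhoU q τ).toMonoidHom)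
      (fixedSub (rhoU q) ι) = 1 ∧
    hIdxSub (nOp p (rhoU q τ).toMonoidHom) (dOp (rhoU q τ).toMonoidHom)
      (fixedSub (rhoU q) ι) = 1 := by
  obtain ⟨ha, hb, hc⟩ := local_data_of_stable γ hγ hγ1 ι τ h
  have hfd : FiniteDimensional ℚ_[q] (localField q M ι) := localField_finiteDimensional ι
  have hcomm : ∀ x : normOne q, (normOne q).subtype ((rhoU q τ).toMonoidHom x) =
      (rhoQ q τ).toMonoidHom ((normOne q).subtype x) := fun _ => rfl
  have hd := map_dOp (normOne q).subtype (rhoU q τ).toMonoidHom (rhoQ q τ).toMonoidHom hcomm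
  have hn := map_nOp p (normOne q).subtype (rhoU q τ).toMonoidHom (rhoQ q τ).toMonoidHom hcomm
  have key := unitsAcyclic_local q (localField q M ι) p τ ha hb hc hur
  rw [← map_fixedSub_rhoU,
    hIdxSub_map (normOne q).subtype Subtype.val_injective _ _ _ _ hd hn,
    hIdxSub_map (normOne q).subtype Subtype.val_injective _ _ _ _ hn hd] at key
  exact key

end LocalInput

namespace GSet

variable {D : Type*} [Group D] {X : Type*} [MulAction D X] {A : Type*} [CommGroup A]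
  (ρ : D →* MulAut A) (s : X → X) (hs : ∀ (d : D) (x : X), s (d • x) = d • s x)
  (p : ℕ) [hp : Fact p.Prime] (hsp : ∀ x, (s^[p]) x = x) [Finite (Orb D X)]

include hsp in
/-- semilocal `Ĥ⁰ = 1` when all the local `Ĥ⁰` at the stable orbits are trivial. -/
theorem hIdx_eqFun_H0_one
    (h0 : ∀ (x : X) (τ : D), s x = τ • x →
      hIdxSub (dOp (ρ τ).toMonoidHom) (nOp p (ρ τ).toMonoidHom) (fixedSub ρ x) = 1) :
    hIdx (dOp (shift ρ s hs)) (nOp p (shift ρ s hs)) = 1 := by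
  have := Fintype.ofFinite (FixO (D := D) (X := X) s)
  rw [hIdx_eqFun_H0_eq ρ s hs p hsp]
  unfold Tfix Bfix
  rw [nOp_piMap, dOp_piMap, hIdxSub_pi]
  exact Finset.prod_eq_one fun O _ => h0 _ _ (tau_spec s O)

end GSet

section Semilocal

variable {q : ℕ} [Fact q.Prime] {M : Type*} [Field M] [NumberField M]

variable (q M) in
/-- the action of `γ ∈ Aut(M/ℚ)` on `J_q(M)` as an endomorphism. -/
noncomputable def sigmaJq (γ : M ≃ₐ[ℚ] M) : Jq q M →* Jq q M :=
  MulDistribMulAction.toMonoidHom (Jq q M) γ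

theorem sigmaJq_apply (γ : M ≃ₐ[ℚ] M) (f : Jq q M) (ι : Emb q M) :
    (sigmaJq q M γ f).1 ι = f.1 (sEmb q M γ ι) := rfl

variable (q M) in
/-- the shift by `γ` on the norm-one equivariant functions. -/
noncomputable def shiftU (γ : M ≃ₐ[ℚ] M) :
    eqFun (X := Emb q M) (rhoU q) →* eqFun (X := Emb q M) (rhoU q) :=
  GSet.shift (rhoU q) (sEmb q M γ) (sEmb_smul γ)

variable (q M) in
/-- norm-one equivariant functions as elements of `J_q(M)`. -/
noncomputable def unitsToJq : eqFun (X := Emb q M) (rhoU q) →* Jq q M where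
  toFun f := ⟨fun ι => (f.1 ι).1, fun d ι => by
    have := congrArg Subtype.val (f.2 d ι)
    exact congrArg Units.val this⟩
  map_one' := rfl
  map_mul' _ _ := rfl

theorem unitsToJq_apply (f : eqFun (X := Emb q M) (rhoU q)) (ι : Emb q M) :
    (unitsToJq q M f).1 ι = (f.1 ι).1 := rfl

theorem unitsToJq_injective : Function.Injective (unitsToJq q M) := by
  intro f f' h
  apply Subtype.ext
  funext ι
  apply Subtype.ext
  exact congrFun (congrArg Subtype.val h) ι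

theorem unitsToJq_mem_Uq (f : eqFun (X := Emb q M) (rhoU q)) : unitsToJq q M f ∈ Uq q M :=
  fun ι => (f.1 ι).2

theorem exists_unitsToJq_eq {u : Jq q M} (hu : u ∈ Uq q M) :
    ∃ f : eqFun (X := Emb q M) (rhoU q), unitsToJq q M f = u := by
  refine ⟨⟨fun ι => ⟨u.1 ι, hu ι⟩, fun d ι => ?_⟩, ?_⟩
  · apply Subtype.ext
    apply Units.ext
    exact u.2 d ι
  · apply Subtype.ext
    rfl

theorem unitsToJq_shift (γ : M ≃ₐ[ℚ] M) (f : eqFun (X := Emb q M) (rhoU q)) :
    unitsToJq q M (shiftU q M γ f) = sigmaJq q M γ (unitsToJq q M f) := rfl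

variable (p : ℕ) [Fact p.Prime] (γ : M ≃ₐ[ℚ] M) (hγ : γ ^ p = 1) (hγ1 : γ ≠ 1)
  (hur : ∀ ι : Emb q M, UnramAt q (localField q M ι))

include hγ hγ1 hur

/-- **`Ĥ⁰(⟨γ⟩, U_q(M)) = 1`** at an unramified prime. -/
theorem Uq_acyclic_H0 {u : Jq q M} (hu : u ∈ Uq q M) (h : dOp (sigmaJq q M γ) u = 1) :
    ∃ u' ∈ Uq q M, nOp p (sigmaJq q M γ) u' = u := by
  have hsp : ∀ x, ((sEmb q M γ)^[p]) x = x := fun x => iterate_sEmb_of_pow_eq_one γ hγ x
  have key : hIdx (dOp (shiftU q M γ)) (nOp p (shiftU q M γ)) = 1 :=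
    hIdx_eqFun_H0_one (rhoU q) (sEmb q M γ) (sEmb_smul γ) p hsp
    (fun ι τ hτ => (hIdxSub_fixedSub_rhoU p γ hγ hγ1 ι τ hτ (hur ι)).1)
  unfold hIdx at key
  rw [Subgroup.relIndex_eq_one] at key
  obtain ⟨f, rfl⟩ := exists_unitsToJq_eq hu
  have hf : f ∈ (dOp (shiftU q M γ)).ker := by
    rw [MonoidHom.mem_ker]
    apply unitsToJq_injective (q := q) (M := M)
    rw [map_dOp (unitsToJq q M) (shiftU q M γ) (sigmaJq q M γ) (unitsToJq_shift γ), h, map_one]
  obtain ⟨f', hf'⟩ := key hf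
  refine ⟨unitsToJq q M f', unitsToJq_mem_Uq f', ?_⟩
  rw [← map_nOp p (unitsToJq q M) (shiftU q M γ) (sigmaJq q M γ) (unitsToJq_shift γ), hf']

/-- **`H¹(⟨γ⟩, U_q(M)) = 1`** at an unramified prime. -/
theorem Uq_acyclic_H1 {u : Jq q M} (hu : u ∈ Uq q M) (h : nOp p (sigmaJq q M γ) u = 1) :
    ∃ u' ∈ Uq q M, dOp (sigmaJq q M γ) u' = u := by
  have hsp : ∀ x, ((sEmb q M γ)^[p]) x = x := fun x => iterate_sEmb_of_pow_eq_one γ hγ x
  have key : hIdx (nOp p (shiftU q M γ)) (dOp (shiftU q M γ)) = 1 :=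
    hIdx_eqFun_H1 (rhoU q) (sEmb q M γ) (sEmb_smul γ) p hsp
    (fun ι τ hτ => (hIdxSub_fixedSub_rhoU p γ hγ hγ1 ι τ hτ (hur ι)).2)
  unfold hIdx at key
  rw [Subgroup.relIndex_eq_one] at key
  obtain ⟨f, rfl⟩ := exists_unitsToJq_eq hu
  have hf : f ∈ (nOp p (shiftU q M γ)).ker := by
    rw [MonoidHom.mem_ker]
    apply unitsToJq_injective (q := q) (M := M)
    rw [map_nOp p (unitsToJq q M) (shiftU q M γ) (sigmaJq q M γ) (unitsToJq_shift γ), h, map_one]
  obtain ⟨f', hf'⟩ := key hf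
  refine ⟨unitsToJq q M f', unitsToJq_mem_Uq f', ?_⟩
  rw [← map_dOp (unitsToJq q M) (shiftU q M γ) (sigmaJq q M γ) (unitsToJq_shift γ), hf']

end Semilocal

end Fermat.Agent.S55lib.FirstIneq
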