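/-
S55 sprint, block (IV) FIRST INEQUALITY (helper2).  File 17: **the first inequality on the finite
idele class group `ClassGrp M`** of helper5's `Dev/Idele.lean` (K6 in the shape consumed by K8):
for `M/F` cyclic of odd prime degree `p` with generator `σ`, `S := autToQ F σ • ·` on `C(M)`:
`[ker(S-1) : im N_S] = p · [ker N_S : im(S-1)]`, both nonzero.
Inputs: `first_inequality_Jq_of_count` + lead's place dictionary and class group finiteness (P8),
`Uq_acyclic_H0/H1` at the primes outside `T`, and the abstract passage `hIdx_passage`.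
Hypothesis: `M` is unramified outside a finite set of primes (`UnramAt`).
-/
import Mathlib
import Fermat.Agent.S55lib.FirstIneq.UnitsSemilocal
import Fermat.Agent.S55lib.FirstIneq.Passage
import Fermat.Agent.S55lib.FirstIneq.Count
import Fermat.Agent.S55lib.Places.Dict
import Fermat.Agent.S55lib.Places.ClassFin
import Fermat.Agent.S55lib.Places.SUnit
import Fermat.Agent.S55lib.Dev.Idele

set_option autoImplicit false

namespace Fermat.Agent.S55lib.FirstIneq

open Fermat.Agent.S55lib Fermat.Agent.S55lib.LocalH Fermat.Agent.S55lib.Dev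
open NumberField IsDedekindDomain Module

section PrimesAbove

variable (M : Type*) [Field M] [NumberField M]

theorem finite_setOf_natCast_mem (q : ℕ) (hq : q ≠ 0) :
    {w : HeightOneSpectrum (𝓞 M) | ((q : ℕ) : 𝓞 M) ∈ w.asIdeal}.Finite := by
  have h0 : Ideal.span {((q : ℕ) : 𝓞 M)} ≠ 0 := by
    rw [Ne, Ideal.zero_eq_bot, Ideal.span_singleton_eq_bot]
    exact_mod_cast hq
  refine (Ideal.finite_factors h0).subset ?_
  intro w hw
  rw [Set.mem_ofPred_eq] at hw ⊢
  rw [Ideal.dvd_iff_le, Ideal.span_singleton_le_iff_mem]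
  exact hw

/-- the primes of `M` above the rational primes in `T`. -/
noncomputable def primesAbove (T : Finset Nat.Primes) : Finset (HeightOneSpectrum (𝓞 M)) :=
  (Set.Finite.biUnion T.finite_toSet
    (fun q _ => finite_setOf_natCast_mem M (q : ℕ) q.2.ne_zero)).toFinset

variable {M}

theorem mem_primesAbove {T : Finset Nat.Primes} {w : HeightOneSpectrum (𝓞 M)} :
    w ∈ primesAbove M T ↔ ∃ q ∈ T, (((q : Nat.Primes) : ℕ) : 𝓞 M) ∈ w.asIdeal := by
  unfold primesAbove
  rw [Set.Finite.mem_toFinset]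
  simp only [Set.mem_iUnion, Set.mem_ofPred_eq, Finset.mem_coe, exists_prop]

omit [NumberField M] in
/-- a prime of `𝓞 M` contains at most one rational prime. -/
theorem natPrime_eq_of_mem {w : HeightOneSpectrum (𝓞 M)} {q q' : ℕ} (hq : q.Prime)
    (hq' : q'.Prime) (h : ((q : ℕ) : 𝓞 M) ∈ w.asIdeal) (h' : ((q' : ℕ) : 𝓞 M) ∈ w.asIdeal) :
    q = q' := by
  by_contra hne
  have hcop : Nat.Coprime q q' := (Nat.coprime_primes hq hq').mpr hne
  obtain ⟨a, b, hab⟩ := Nat.Coprime.isCoprime hcop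
  have h2 : ((a : ℤ) : 𝓞 M) * ((q : ℕ) : 𝓞 M) + ((b : ℤ) : 𝓞 M) * ((q' : ℕ) : 𝓞 M) = 1 := by
    have := congrArg (fun z : ℤ => (z : 𝓞 M)) hab
    push_cast at this
    exact this
  have hone : (1 : 𝓞 M) ∈ w.asIdeal := by
    rw [← h2]
    exact w.asIdeal.add_mem (w.asIdeal.mul_mem_left _ h) (w.asIdeal.mul_mem_left _ h')
  exact w.isPrime.ne_top ((Ideal.eq_top_iff_one _).mpr hone)

variable {F : Type*} [Field F] [NumberField F] [Algebra F M]

theorem isAbove_primesAbove (T : Finset Nat.Primes) :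
    IsAbove (primesAbove F T) (primesAbove M T) := by
  intro w
  rw [mem_primesAbove, mem_primesAbove]
  refine exists_congr fun q => and_congr_right fun _ => ?_
  rw [HeightOneSpectrum.under_asIdeal, Ideal.under_def, Ideal.mem_comap, map_natCast]

end PrimesAbove

section Family

/-- the family of rational primes in `T`. -/
def qqT (T : Finset Nat.Primes) : ↥T → ℕ := fun i => ((i : Nat.Primes) : ℕ)

instance factQqT (T : Finset Nat.Primes) (i : ↥T) : Fact (qqT T i).Prime := ⟨i.1.2⟩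

theorem qqT_injective (T : Finset Nat.Primes) : Function.Injective (qqT T) := by
  intro i j h
  exact Subtype.ext (Subtype.ext h)

end Family

section Maps

variable {M : Type*} [Field M] [NumberField M]

/-- `J_q(M)` in the `eqFun` model. -/
noncomputable def toE (q : ℕ) [Fact q.Prime] : Jq q M ≃* GSet.eqFun (X := Emb q M) (rhoQ q) :=
  MulEquiv.subgroupCongr (Jq_eq_eqFun q M)

theorem toE_apply (q : ℕ) [Fact q.Prime] (f : Jq q M) (ι : Emb q M) : (toE q f).1 ι = f.1 ι := rfl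

theorem toE_symm_apply (q : ℕ) [Fact q.Prime] (f : GSet.eqFun (X := Emb q M) (rhoQ q))
    (ι : Emb q M) : ((toE q).symm f).1 ι = f.1 ι := rfl

theorem toE_diag (q : ℕ) [Fact q.Prime] (u : Mˣ) : toE q (diag q M u) = diagE q M u := rfl

theorem toE_smul (q : ℕ) [Fact q.Prime] (γ : M ≃ₐ[ℚ] M) (f : Jq q M) :
    toE q (γ • f) = GSet.shift (rhoQ q) (sEmb q M γ) (sEmb_smul γ) (toE q f) := rfl

variable (T : Finset Nat.Primes)

variable (M) in
/-- the action of `γ` on the `T`-ideles. -/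
noncomputable def sigmaX (γ : M ≃ₐ[ℚ] M) : ideleS M (T : Set Nat.Primes) →* ideleS M (T : Set Nat.Primes) :=
  ((MulDistribMulAction.toMonoidHom (Idele M) γ).comp (ideleS M (T : Set Nat.Primes)).subtype).codRestrict
    (ideleS M (T : Set Nat.Primes)) (fun x => smul_mem_ideleS γ x.2)

theorem coe_sigmaX (γ : M ≃ₐ[ℚ] M) (x : ideleS M (T : Set Nat.Primes)) :
    ((sigmaX M T γ x : ideleS M (T : Set Nat.Primes)) : Idele M) = γ • (x : Idele M) := rfl

variable (M) in
/-- the action of `γ` on the idele class group. -/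
noncomputable def sigmaC (γ : M ≃ₐ[ℚ] M) : ClassGrp M →* ClassGrp M :=
  MulDistribMulAction.toMonoidHom (ClassGrp M) γ

theorem sigmaC_mk (γ : M ≃ₐ[ℚ] M) (x : Idele M) :
    sigmaC M γ (QuotientGroup.mk x : ClassGrp M) = QuotientGroup.mk (γ • x) := rfl

variable (M) in
/-- the class of a `T`-idele. -/
noncomputable def piC : ideleS M (T : Set Nat.Primes) →* ClassGrp M :=
  (QuotientGroup.mk' (principal M)).comp (ideleS M (T : Set Nat.Primes)).subtype

theorem piC_sigmaX (γ : M ≃ₐ[ℚ] M) (x : ideleS M (T : Set Nat.Primes)) :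
    piC M T (sigmaX M T γ x) = sigmaC M γ (piC M T x) := rfl

variable (M) in
/-- the `q`-component of a `T`-idele. -/
noncomputable def projX (q : Nat.Primes) : ideleS M (T : Set Nat.Primes) →* Jq (q : ℕ) M :=
  (Idele.proj M q).comp (ideleS M (T : Set Nat.Primes)).subtype

theorem projX_apply (q : Nat.Primes) (x : ideleS M (T : Set Nat.Primes)) :
    projX M T q x = (x : Idele M).1 q := rfl

theorem projX_sigmaX (γ : M ≃ₐ[ℚ] M) (q : Nat.Primes) (x : ideleS M (T : Set Nat.Primes)) :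
    projX M T q (sigmaX M T γ x) = sigmaJq (q : ℕ) M γ (projX M T q x) := rfl

variable (M) in
/-- the components at `T` of a `T`-idele, in the semilocal module. -/
noncomputable def prT : ideleS M (T : Set Nat.Primes) →* JFam (qqT T) M :=
  MonoidHom.pi fun i => (toE (qqT T i)).toMonoidHom.comp (projX M T (i : Nat.Primes))

theorem prT_apply (x : ideleS M (T : Set Nat.Primes)) (i : ↥T) :
    prT M T x i = toE (qqT T i) ((x : Idele M).1 (i : Nat.Primes)) := rfl

theorem prT_sigmaX (γ : M ≃ₐ[ℚ] M) (x : ideleS M (T : Set Nat.Primes)) :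
    prT M T (sigmaX M T γ x) = sigmaJ (L := M) (qqT T) γ (prT M T x) := rfl

open Classical in
/-- a family supported in `T`, extended by `1`. -/
noncomputable def famT (y : JFam (qqT T) M) (q : Nat.Primes) : Jq (q : ℕ) M :=
  if h : q ∈ T then (toE (qqT T ⟨q, h⟩)).symm (y ⟨q, h⟩) else 1

theorem famT_of_mem (y : JFam (qqT T) M) {q : Nat.Primes} (h : q ∈ T) :
    famT T y q = (toE (qqT T ⟨q, h⟩)).symm (y ⟨q, h⟩) := dif_pos h

theorem famT_of_notMem (y : JFam (qqT T) M) {q : Nat.Primes} (h : q ∉ T) :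
    famT T y q = 1 := dif_neg h

theorem famT_mem_Uq (y : JFam (qqT T) M) {q : Nat.Primes} (h : q ∉ T) :
    famT T y q ∈ Uq (q : ℕ) M := by
  rw [famT_of_notMem T y h]
  exact (Uq (q : ℕ) M).one_mem

/-- a family supported in `T` as a `T`-idele. -/
noncomputable def ofFamT (y : JFam (qqT T) M) : ideleS M (T : Set Nat.Primes) :=
  ⟨⟨famT T y, by
      rw [mem_Idele_iff]
      refine T.finite_toSet.subset ?_
      intro q hq
      by_contra hqT
      exact hq (famT_mem_Uq T y hqT)⟩, fun q hq => famT_mem_Uq T y hq⟩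

theorem prT_ofFamT (y : JFam (qqT T) M) : prT M T (ofFamT T y) = y := by
  funext i
  rw [prT_apply]
  show toE (qqT T i) (famT T y (i : Nat.Primes)) = y i
  rw [famT_of_mem T y i.2]
  exact (toE (qqT T i)).apply_symm_apply (y i)

theorem prT_surjective : Function.Surjective (prT M T) :=
  fun y => ⟨ofFamT T y, prT_ofFamT T y⟩

theorem mem_ker_prT {x : ideleS M (T : Set Nat.Primes)} :
    x ∈ (prT M T).ker ↔ ∀ q ∈ T, (x : Idele M).1 q = 1 := by
  rw [MonoidHom.mem_ker]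
  constructor
  · intro h q hq
    have h1 := congrFun h ⟨q, hq⟩
    rw [prT_apply] at h1
    exact (toE (qqT T ⟨q, hq⟩)).map_eq_one_iff.mp h1
  · intro h
    funext i
    rw [prT_apply, h i i.2]
    exact map_one (toE (qqT T i))

/-- class group finiteness: the `T`-ideles surject onto the class group if `T ⊇ T₀`. -/
theorem piC_surjective {T₀ : Finset Nat.Primes}
    (hT₀ : ∀ x : (∀ q : Nat.Primes, Jq (q : ℕ) M), {q : Nat.Primes | x q ∉ Uq (q : ℕ) M}.Finite →
      ∃ a : Mˣ, ∀ q : Nat.Primes, q ∉ T₀ → x q * diag (q : ℕ) M a ∈ Uq (q : ℕ) M)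
    (hsub : T₀ ⊆ T) : Function.Surjective (piC M T) := by
  intro c
  obtain ⟨x₀, rfl⟩ := QuotientGroup.mk_surjective c
  obtain ⟨a, ha⟩ := hT₀ x₀.1 x₀.2
  have hmem : x₀ * diagI M a ∈ ideleS M (T : Set Nat.Primes) := by
    intro q hq
    exact ha q (fun h => hq (hsub h))
  refine ⟨⟨x₀ * diagI M a, hmem⟩, ?_⟩
  show (QuotientGroup.mk (x₀ * diagI M a) : ClassGrp M) = QuotientGroup.mk x₀
  rw [QuotientGroup.eq]
  have : (x₀ * diagI M a)⁻¹ * x₀ = (diagI M a)⁻¹ := by group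
  rw [this]
  exact (principal M).inv_mem ⟨a, rfl⟩

/-- a family of local units, trivial at `T`, as a `T`-idele. -/
noncomputable def ofUnits (v : ∀ q : Nat.Primes, Jq (q : ℕ) M)
    (hv : ∀ q : Nat.Primes, v q ∈ Uq (q : ℕ) M) : ideleS M (T : Set Nat.Primes) :=
  ⟨⟨v, by
      rw [mem_Idele_iff]
      have : {q : Nat.Primes | v q ∉ Uq (q : ℕ) M} = ∅ := by
        ext q
        simp only [Set.mem_ofPred_eq, Set.mem_empty_iff_false, iff_false, not_not]
        exact hv q
      rw [this]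
      exact Set.finite_empty⟩, fun q _ => hv q⟩

theorem projX_ofUnits (v : ∀ q : Nat.Primes, Jq (q : ℕ) M)
    (hv : ∀ q : Nat.Primes, v q ∈ Uq (q : ℕ) M) (q : Nat.Primes) :
    projX M T q (ofUnits T v hv) = v q := rfl

theorem ext_projX {x y : ideleS M (T : Set Nat.Primes)} (h : ∀ q, projX M T q x = projX M T q y) :
    x = y :=
  Subtype.ext (Idele.ext h)

section Acyclic

variable (p : ℕ) [Fact p.Prime] (γ : M ≃ₐ[ℚ] M) (hγ : γ ^ p = 1) (hγ1 : γ ≠ 1)
  (hur : ∀ q : Nat.Primes, q ∉ T → ∀ ι : Emb (q : ℕ) M, UnramAt (q : ℕ) (localField (q : ℕ) M ι))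

include hγ hγ1 hur

theorem ker_prT_acyclic_H0 (u : ideleS M (T : Set Nat.Primes)) (hu : u ∈ (prT M T).ker)
    (hfu : dOp (sigmaX M T γ) u = 1) :
    ∃ u' ∈ (prT M T).ker, nOp p (sigmaX M T γ) u' = u := by
  rw [mem_ker_prT] at hu
  have hq : ∀ q : Nat.Primes, ∃ v : Jq (q : ℕ) M, (q ∈ T → v = 1) ∧ v ∈ Uq (q : ℕ) M ∧
      nOp p (sigmaJq (q : ℕ) M γ) v = projX M T q u := by
    intro q
    by_cases hqT : q ∈ T
    · refine ⟨1, fun _ => rfl, (Uq (q : ℕ) M).one_mem, ?_⟩
      rw [map_one, projX_apply, hu q hqT]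
    · have h1 : projX M T q u ∈ Uq (q : ℕ) M := u.2 q hqT
      have h2 : dOp (sigmaJq (q : ℕ) M γ) (projX M T q u) = 1 := by
        rw [← map_dOp (projX M T q) (sigmaX M T γ) (sigmaJq (q : ℕ) M γ) (projX_sigmaX T γ q), hfu,
          map_one]
      obtain ⟨v, hv, hv'⟩ := Uq_acyclic_H0 p γ hγ hγ1 (hur q hqT) h1 h2
      exact ⟨v, fun h => absurd h hqT, hv, hv'⟩
  choose v hv1 hv2 hv3 using hq
  refine ⟨ofUnits T v hv2, ?_, ?_⟩
  · rw [mem_ker_prT]
    intro q hqT
    exact hv1 q hqT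
  · apply ext_projX
    intro q
    rw [map_nOp p (projX M T q) (sigmaX M T γ) (sigmaJq (q : ℕ) M γ) (projX_sigmaX T γ q),
      projX_ofUnits, hv3]

theorem ker_prT_acyclic_H1 (u : ideleS M (T : Set Nat.Primes)) (hu : u ∈ (prT M T).ker)
    (hfu : nOp p (sigmaX M T γ) u = 1) :
    ∃ u' ∈ (prT M T).ker, dOp (sigmaX M T γ) u' = u := by
  rw [mem_ker_prT] at hu
  have hq : ∀ q : Nat.Primes, ∃ v : Jq (q : ℕ) M, (q ∈ T → v = 1) ∧ v ∈ Uq (q : ℕ) M ∧
      dOp (sigmaJq (q : ℕ) M γ) v = projX M T q u := by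
    intro q
    by_cases hqT : q ∈ T
    · refine ⟨1, fun _ => rfl, (Uq (q : ℕ) M).one_mem, ?_⟩
      rw [map_one, projX_apply, hu q hqT]
    · have h1 : projX M T q u ∈ Uq (q : ℕ) M := u.2 q hqT
      have h2 : nOp p (sigmaJq (q : ℕ) M γ) (projX M T q u) = 1 := by
        rw [← map_nOp p (projX M T q) (sigmaX M T γ) (sigmaJq (q : ℕ) M γ) (projX_sigmaX T γ q), hfu,
          map_one]
      obtain ⟨v, hv, hv'⟩ := Uq_acyclic_H1 p γ hγ hγ1 (hur q hqT) h1 h2
      exact ⟨v, fun h => absurd h hqT, hv, hv'⟩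
  choose v hv1 hv2 hv3 using hq
  refine ⟨ofUnits T v hv2, ?_, ?_⟩
  · rw [mem_ker_prT]
    intro q hqT
    exact hv1 q hqT
  · apply ext_projX
    intro q
    rw [map_dOp (projX M T q) (sigmaX M T γ) (sigmaJq (q : ℕ) M γ) (projX_sigmaX T γ q),
      projX_ofUnits, hv3]

end Acyclic

section Kernel

theorem diag_mem_Uq_of_sUnit {e : Mˣ} (he : e ∈ sUnit (primesAbove M T)) {q : Nat.Primes}
    (hq : q ∉ T) : diag (q : ℕ) M e ∈ Uq (q : ℕ) M := by
  intro ι
  rw [diag_apply]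
  refine (Places.mem_unit_iff _ e).mp he (q : ℕ) ι ?_
  intro hmem
  obtain ⟨q', hq'T, hq'⟩ := mem_primesAbove.mp (Finset.mem_coe.mp hmem)
  have h1 := natPrime_eq_of_mem q.2 q'.2 (Places.natCast_mem_primeOf ι) hq'
  have h2 : q = q' := Subtype.ext h1
  exact hq (h2 ▸ hq'T)

theorem sUnit_of_diagI_mem {u : Mˣ} (hu : diagI M u ∈ ideleS M (T : Set Nat.Primes)) :
    u ∈ sUnit (primesAbove M T) := by
  rw [Places.mem_unit_iff]
  intro q hqF ι hι
  have hq' : (⟨q, hqF.out⟩ : Nat.Primes) ∉ T := by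
    intro h
    apply hι
    rw [Finset.mem_coe, mem_primesAbove]
    exact ⟨⟨q, hqF.out⟩, h, Places.natCast_mem_primeOf ι⟩
  have h1 := hu ⟨q, hqF.out⟩ hq'
  exact h1 ι

theorem comap_range_unitsToJ :
    (unitsToJ (qqT T) (primesAbove M T)).range.comap (prT M T) =
      (piC M T).ker ⊔ (prT M T).ker := by
  apply le_antisymm
  · intro x hx
    obtain ⟨e, he⟩ := Subgroup.mem_comap.mp hx
    have hd : diagI M (e : Mˣ) ∈ ideleS M (T : Set Nat.Primes) :=
      fun q hq => diag_mem_Uq_of_sUnit T e.2 hq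
    have h1 : (⟨diagI M (e : Mˣ), hd⟩ : ideleS M (T : Set Nat.Primes)) ∈ (piC M T).ker := by
      rw [MonoidHom.mem_ker]
      exact (QuotientGroup.eq_one_iff _).mpr ⟨(e : Mˣ), rfl⟩
    have h2 : prT M T ⟨diagI M (e : Mˣ), hd⟩ = unitsToJ (qqT T) (primesAbove M T) e := rfl
    have h3 : x * (⟨diagI M (e : Mˣ), hd⟩ : ideleS M (T : Set Nat.Primes))⁻¹ ∈ (prT M T).ker := by
      rw [MonoidHom.mem_ker, map_mul, map_inv, h2, he, mul_inv_cancel]
    rw [Subgroup.mem_sup]
    exact ⟨_, h1, _, h3, by rw [mul_comm x, mul_inv_cancel_left]⟩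
  · refine sup_le ?_ ?_
    · intro x hx
      rw [MonoidHom.mem_ker] at hx
      obtain ⟨u, hu⟩ := (QuotientGroup.eq_one_iff _).mp hx
      have hmem : diagI M u ∈ ideleS M (T : Set Nat.Primes) := by
        rw [hu]
        exact x.2
      refine Subgroup.mem_comap.mpr ⟨⟨u, sUnit_of_diagI_mem T hmem⟩, ?_⟩
      funext i
      rw [prT_apply]
      have h4 : ((x : Idele M)).1 (i : Nat.Primes) = diag ((i : Nat.Primes) : ℕ) M u := by
        have h5 : (↑x : Idele M) = diagI M u := hu.symm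
        rw [h5]
        rfl
      rw [h4]
      rfl
    · intro x hx
      rw [MonoidHom.mem_ker] at hx
      rw [Subgroup.mem_comap, hx]
      exact Subgroup.one_mem _

theorem eq_one_of_mem_ker_of_mem_ker (hT : T.Nonempty) (x : ideleS M (T : Set Nat.Primes))
    (h1 : x ∈ (piC M T).ker) (h2 : x ∈ (prT M T).ker) : x = 1 := by
  rw [MonoidHom.mem_ker] at h1
  obtain ⟨u, hu⟩ := (QuotientGroup.eq_one_iff _).mp h1
  obtain ⟨q₀, hq₀⟩ := hT
  have h3 := (mem_ker_prT T).mp h2 q₀ hq₀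
  have h5 : (↑x : Idele M) = diagI M u := hu.symm
  rw [h5, diagI_apply] at h3
  have h4 : u = 1 := by
    apply diag_injective (q := (q₀ : ℕ)) (M := M)
    rw [h3, map_one]
  apply Subtype.ext
  rw [h5, h4, map_one]
  rfl

end Kernel

theorem iterate_sigmaX (γ : M ≃ₐ[ℚ] M) (i : ℕ) (x : ideleS M (T : Set Nat.Primes)) :
    ((((sigmaX M T γ)^[i]) x : ideleS M (T : Set Nat.Primes)) : Idele M) =
      γ ^ i • (x : Idele M) := by
  induction i generalizing x with
  | zero => rw [Function.iterate_zero, id, pow_zero, one_smul]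
  | succ i ih =>
    rw [Function.iterate_succ_apply, ih, coe_sigmaX, pow_succ, mul_smul]

section PassageT

variable (T : Finset Nat.Primes) (p : ℕ) (γ : M ≃ₐ[ℚ] M)

theorem iterate_sigmaX_of_pow_eq_one (hγp : γ ^ p = 1) (x : ideleS M (T : Set Nat.Primes)) :
    ((sigmaX M T γ)^[p]) x = x := by
  apply Subtype.ext
  rw [iterate_sigmaX, hγp, one_smul]

theorem dOp_nOp_sigmaX (hγp : γ ^ p = 1) (x : ideleS M (T : Set Nat.Primes)) :
    dOp (sigmaX M T γ) (nOp p (sigmaX M T γ) x) = 1 := by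
  rw [dOp_nOp_apply, iterate_sigmaX_of_pow_eq_one T p γ hγp, div_self']

theorem nOp_dOp_sigmaX (hγp : γ ^ p = 1) (x : ideleS M (T : Set Nat.Primes)) :
    nOp p (sigmaX M T γ) (dOp (sigmaX M T γ) x) = 1 := by
  rw [nOp_dOp_apply, iterate_sigmaX_of_pow_eq_one T p γ hγp, div_self']

theorem piC_dOp (x : ideleS M (T : Set Nat.Primes)) :
    piC M T (dOp (sigmaX M T γ) x) = dOp (E := ClassGrp M) (sigmaC M γ) (piC M T x) :=
  map_dOp (E' := ClassGrp M) (piC M T) (sigmaX M T γ) (sigmaC M γ) (piC_sigmaX T γ) x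

theorem piC_nOp (x : ideleS M (T : Set Nat.Primes)) :
    piC M T (nOp p (sigmaX M T γ) x) = nOp (E := ClassGrp M) p (sigmaC M γ) (piC M T x) :=
  map_nOp (E' := ClassGrp M) p (piC M T) (sigmaX M T γ) (sigmaC M γ) (piC_sigmaX T γ) x

theorem prT_dOp (x : ideleS M (T : Set Nat.Primes)) :
    prT M T (dOp (sigmaX M T γ) x) = dOp (sigmaJ (L := M) (qqT T) γ) (prT M T x) :=
  map_dOp (prT M T) (sigmaX M T γ) (sigmaJ (L := M) (qqT T) γ) (prT_sigmaX T γ) x

theorem prT_nOp (x : ideleS M (T : Set Nat.Primes)) :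
    prT M T (nOp p (sigmaX M T γ) x) = nOp p (sigmaJ (L := M) (qqT T) γ) (prT M T x) :=
  map_nOp p (prT M T) (sigmaX M T γ) (sigmaJ (L := M) (qqT T) γ) (prT_sigmaX T γ) x

variable [hp : Fact p.Prime] (hT : T.Nonempty) (hπC : Function.Surjective (piC M T))
  (hγp : γ ^ p = 1) (hγ1 : γ ≠ 1)
  (hur : ∀ q : Nat.Primes, q ∉ T → ∀ ι : Emb (q : ℕ) M, UnramAt (q : ℕ) (localField (q : ℕ) M ι))

include hT hπC hγp hγ1 hur

/-- `Ĥ⁰` of the idele class group is the one of `J_T / E_T`. -/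
theorem hIdx_classGrp_H0 :
    hIdx (dOp (E := ClassGrp M) (sigmaC M γ)) (nOp (E := ClassGrp M) p (sigmaC M γ)) =
      hIdxQuot (dOp (sigmaJ (L := M) (qqT T) γ)) (nOp p (sigmaJ (L := M) (qqT T) γ))
        (unitsToJ (qqT T) (primesAbove M T)).range :=
  @hIdx_passage (ideleS M (T : Set Nat.Primes)) (ClassGrp M) (JFam (qqT T) M) _
    (QuotientGroup.Quotient.commGroup (principal M)) _
    (dOp (sigmaX M T γ)) (nOp p (sigmaX M T γ)) (dOp_nOp_sigmaX T p γ hγp)
    (nOp_dOp_sigmaX T p γ hγp) (piC M T) hπC (dOp (E := ClassGrp M) (sigmaC M γ))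
    (nOp (E := ClassGrp M) p (sigmaC M γ)) (piC_dOp T γ) (piC_nOp T p γ) (prT M T)
    (prT_surjective T) (dOp (sigmaJ (L := M) (qqT T) γ)) (nOp p (sigmaJ (L := M) (qqT T) γ))
    (prT_dOp T γ) (prT_nOp T p γ)
    (unitsToJ (qqT T) (primesAbove M T)).range (comap_range_unitsToJ T)
    (eq_one_of_mem_ker_of_mem_ker T hT) (ker_prT_acyclic_H0 T p γ hγp hγ1 hur)
    (ker_prT_acyclic_H1 T p γ hγp hγ1 hur)

/-- `H¹` of the idele class group is the one of `J_T / E_T`. -/
theorem hIdx_classGrp_H1 :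
    hIdx (nOp (E := ClassGrp M) p (sigmaC M γ)) (dOp (E := ClassGrp M) (sigmaC M γ)) =
      hIdxQuot (nOp p (sigmaJ (L := M) (qqT T) γ)) (dOp (sigmaJ (L := M) (qqT T) γ))
        (unitsToJ (qqT T) (primesAbove M T)).range :=
  @hIdx_passage (ideleS M (T : Set Nat.Primes)) (ClassGrp M) (JFam (qqT T) M) _
    (QuotientGroup.Quotient.commGroup (principal M)) _
    (nOp p (sigmaX M T γ)) (dOp (sigmaX M T γ)) (nOp_dOp_sigmaX T p γ hγp)
    (dOp_nOp_sigmaX T p γ hγp) (piC M T) hπC (nOp (E := ClassGrp M) p (sigmaC M γ))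
    (dOp (E := ClassGrp M) (sigmaC M γ)) (piC_nOp T p γ) (piC_dOp T γ) (prT M T)
    (prT_surjective T) (nOp p (sigmaJ (L := M) (qqT T) γ)) (dOp (sigmaJ (L := M) (qqT T) γ))
    (prT_nOp T p γ) (prT_dOp T γ)
    (unitsToJ (qqT T) (primesAbove M T)).range (comap_range_unitsToJ T)
    (eq_one_of_mem_ker_of_mem_ker T hT) (ker_prT_acyclic_H1 T p γ hγp hγ1 hur)
    (ker_prT_acyclic_H0 T p γ hγp hγ1 hur)

end PassageT

end Maps

section Main

variable {F M : Type*} [Field F] [NumberField F] [Field M] [NumberField M] [Algebra F M]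

theorem autToQ_pow_eq_one [IsGalois F M] {p : ℕ} (hdeg : finrank F M = p) (σ : M ≃ₐ[F] M) :
    (autToQ F σ) ^ p = 1 := by
  have hσp : σ ^ p = 1 := by
    rw [← hdeg, ← IsGalois.card_aut_eq_finrank F M]
    exact pow_card_eq_one'
  rw [← map_pow, hσp, map_one]

theorem autToQ_ne_one [IsGalois F M] {p : ℕ} [hp : Fact p.Prime] (hdeg : finrank F M = p)
    (σ : M ≃ₐ[F] M) (hσ : ∀ τ : M ≃ₐ[F] M, τ ∈ Subgroup.zpowers σ) : autToQ F σ ≠ 1 := by
  intro h
  have hσ1 : σ = 1 := by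
    ext x
    have := congrArg (fun γ : M ≃ₐ[ℚ] M => γ x) h
    exact this
  have hcard : Nat.card (M ≃ₐ[F] M) = 1 := by
    rw [Nat.card_eq_one_iff_unique]
    refine ⟨⟨fun a b => ?_⟩, ⟨1⟩⟩
    have ha := hσ a
    have hb := hσ b
    rw [hσ1, Subgroup.zpowers_one_eq_bot, Subgroup.mem_bot] at ha hb
    rw [ha, hb]
  rw [IsGalois.card_aut_eq_finrank F M, hdeg] at hcard
  exact hp.out.one_lt.ne' hcard

/-- **The first inequality on the finite idele class group** `C(M) = I(M)/Mˣ`, for `M/F` cyclic of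
odd prime degree `p` with generator `σ`, `M` unramified outside the finite set `T₁`:
`[ker(σ-1) : im N] = p · [ker N : im(σ-1)]` on `C(M)`, both indices nonzero. -/
theorem first_inequality_classGrp [IsGalois F M] (p : ℕ) [hp : Fact p.Prime] (hp2 : p ≠ 2)
    (hdeg : finrank F M = p) (σ : M ≃ₐ[F] M) (hσ : ∀ τ : M ≃ₐ[F] M, τ ∈ Subgroup.zpowers σ)
    (T₁ : Finset Nat.Primes)
    (hur : ∀ q : Nat.Primes, q ∉ T₁ → ∀ ι : Emb (q : ℕ) M,
      UnramAt (q : ℕ) (localField (q : ℕ) M ι)) :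
    hIdx (dOp (E := ClassGrp M) (sigmaC M (autToQ F σ)))
        (nOp (E := ClassGrp M) p (sigmaC M (autToQ F σ))) =
      p * hIdx (nOp (E := ClassGrp M) p (sigmaC M (autToQ F σ)))
        (dOp (E := ClassGrp M) (sigmaC M (autToQ F σ))) ∧
    hIdx (dOp (E := ClassGrp M) (sigmaC M (autToQ F σ)))
        (nOp (E := ClassGrp M) p (sigmaC M (autToQ F σ))) ≠ 0 ∧
    hIdx (nOp (E := ClassGrp M) p (sigmaC M (autToQ F σ)))
        (dOp (E := ClassGrp M) (sigmaC M (autToQ F σ))) ≠ 0 := by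
  classical
  obtain ⟨T₀, hT₀⟩ := Places.exists_finset_mul_diag_mem_Uq M
  set T : Finset Nat.Primes := T₁ ∪ T₀ ∪ {⟨2, Nat.prime_two⟩} with hTdef
  have hT : T.Nonempty := ⟨⟨2, Nat.prime_two⟩, by
    rw [hTdef]
    exact Finset.mem_union_right _ (Finset.mem_singleton_self _)⟩
  have hsub₀ : T₀ ⊆ T := fun q hq =>
    Finset.mem_union_left _ (Finset.mem_union_right _ hq)
  have hur' : ∀ q : Nat.Primes, q ∉ T → ∀ ι : Emb (q : ℕ) M,
      UnramAt (q : ℕ) (localField (q : ℕ) M ι) := fun q hq =>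
    hur q (fun h => hq (Finset.mem_union_left _ (Finset.mem_union_left _ h)))
  have hγp := autToQ_pow_eq_one hdeg σ
  have hγ1 := autToQ_ne_one hdeg σ hσ
  have hπC := piC_surjective (M := M) T hT₀ hsub₀
  have key0 := hIdx_classGrp_H0 T p (autToQ F σ) hT hπC hγp hγ1 hur'
  have key1 := hIdx_classGrp_H1 T p (autToQ F σ) hT hπC hγp hγ1 hur'
  have : Nonempty ↥T := ⟨⟨_, hT.choose_spec⟩⟩
  have hTLmem : ∀ w : HeightOneSpectrum (𝓞 M), w ∈ primesAbove M T ↔
      ∃ i : ↥T, ((qqT T i : ℕ) : 𝓞 M) ∈ w.asIdeal := by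
    intro w
    rw [mem_primesAbove]
    constructor
    · rintro ⟨q, hq, hqw⟩
      exact ⟨⟨q, hq⟩, hqw⟩
    · rintro ⟨i, hi⟩
      exact ⟨i.1, i.2, hi⟩
  have hcount := count_of_placeDict (qqT T) (qqT_injective T)
    (fun i => fun ι : Emb (qqT T i) M => Places.primeOf ι)
    (fun i => Places.isPlaceDict_primeOf (qqT T i) M) hTLmem
    (isAbove_primesAbove (F := F) (M := M) T) σ hσ
  have FI := first_inequality_Jq_of_count (qqT T) p hp2 hdeg
    (isAbove_primesAbove (F := F) (M := M) T) σ hσ hcount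
  rw [key0, key1]
  exact FI

end Main

section GeneralInstance

/-- **K6 in helper5's shape, for arbitrary `ℚ`-algebra instances** on `F` and `M` (such instances
are unique, but e.g. `IntermediateField`s carry a syntactically different one):
`S c = autToQ F σ • c` on `ClassGrp M`. -/
theorem first_inequality_classGrp_general {F M : Type*} [Field F] [Field M] [Algebra F M]
    [iF : Algebra ℚ F] [iM : Algebra ℚ M] [IsScalarTower ℚ F M] [NumberField F] [NumberField M]
    [Algebra.IsAlgebraic ℚ M] [IsGalois F M] (p : ℕ) [hp : Fact p.Prime] (hp2 : p ≠ 2)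
    (hdeg : finrank F M = p) (σ : M ≃ₐ[F] M) (hσ : ∀ τ : M ≃ₐ[F] M, τ ∈ Subgroup.zpowers σ)
    (T₁ : Finset Nat.Primes)
    (hur : ∀ q : Nat.Primes, q ∉ T₁ → ∀ ι : Emb (q : ℕ) M,
      UnramAt (q : ℕ) (localField (q : ℕ) M ι)) :
    hIdx (dOp (E := ClassGrp M) (MulDistribMulAction.toMonoidHom (ClassGrp M) (autToQ F σ)))
        (nOp (E := ClassGrp M) p (MulDistribMulAction.toMonoidHom (ClassGrp M) (autToQ F σ))) =
      p * hIdx (nOp (E := ClassGrp M) p
          (MulDistribMulAction.toMonoidHom (ClassGrp M) (autToQ F σ)))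
        (dOp (E := ClassGrp M) (MulDistribMulAction.toMonoidHom (ClassGrp M) (autToQ F σ))) ∧
    hIdx (dOp (E := ClassGrp M) (MulDistribMulAction.toMonoidHom (ClassGrp M) (autToQ F σ)))
        (nOp (E := ClassGrp M) p
          (MulDistribMulAction.toMonoidHom (ClassGrp M) (autToQ F σ))) ≠ 0 ∧
    hIdx (nOp (E := ClassGrp M) p (MulDistribMulAction.toMonoidHom (ClassGrp M) (autToQ F σ)))
        (dOp (E := ClassGrp M)
          (MulDistribMulAction.toMonoidHom (ClassGrp M) (autToQ F σ))) ≠ 0 := by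
  obtain rfl : iF = DivisionRing.toRatAlgebra := Subsingleton.elim _ _
  obtain rfl : iM = DivisionRing.toRatAlgebra := Subsingleton.elim _ _
  exact first_inequality_classGrp p hp2 hdeg σ hσ T₁ hur

end GeneralInstance

end Fermat.Agent.S55lib.FirstIneq
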