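/-
S55 sprint, block K9 (reciprocity), arithmetic input (C2-arith) (helper2).

For `N ≥ 1`: `natUnit N m ∈ (ℤ/N)ˣ` the class of `m` (`1` if `m` is not prime to `N`), and
`theta N : ℚ → (ℤ/N)ˣ`, `a ↦ ∏_{q prime} (q mod N)^{v_q(a)}` (product over the primes `q ∤ N`), the
class of the prime-to-`N` part of `|a|`.
* `theta_mul`, `theta_neg`, `theta_inv`, `theta_natCast` (`= natUnit N m` for `m` prime to `N`);
* `chi_theta_eq_sum` : `χ (theta N a) = ∑_{q ∈ S} v_q(a) • χ (q mod N)` for every additive `χ`;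
* `theta_eq_of_eq_zpow_mul_pow` : for `N = q^k`, if `a = q^j · y^n` in `ℚ_q` with `y ∈ ℤ_qˣ` then
  `theta N a = ± (y mod q^k)^n`;
* `sum_eq_zero_of_eq_zpow_mul_pow` : hence `∑_{q' ≠ q} v_{q'}(a) • χ (q' mod N) = 0` for every additive
  `χ` killed by `n` with `χ (-1) = 0` (the "tame/wild trick" of the reciprocity law);
* `autEquivPow_eq_natUnit` : an automorphism of `ℚ(ζ_N)` with `τ ζ = ζ ^ m` corresponds to
  `natUnit N m` under Mathlib's `IsCyclotomicExtension.autEquivPow`.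
-/
import Mathlib
import Fermat.Agent.S55lib.Places.PadicPow

set_option autoImplicit false

noncomputable section

namespace Fermat.Agent.S55lib.CycloArith

open Fermat.Agent.S55lib.Places

/-- primes as a `Fact` -/
local instance factPrimes (q : Nat.Primes) : Fact ((q : ℕ).Prime) := ⟨q.2⟩

section NatUnit

variable (N : ℕ)

/-- the class of `m` in `(ℤ/N)ˣ` (`1` if `m` is not prime to `N`) -/
def natUnit (m : ℕ) : (ZMod N)ˣ :=
  if h : Nat.Coprime m N then ZMod.unitOfCoprime m h else 1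

variable {N}

theorem natUnit_of_coprime {m : ℕ} (h : Nat.Coprime m N) :
    natUnit N m = ZMod.unitOfCoprime m h := dif_pos h

theorem natUnit_of_not_coprime {m : ℕ} (h : ¬ Nat.Coprime m N) : natUnit N m = 1 := dif_neg h

theorem coe_natUnit {m : ℕ} (h : Nat.Coprime m N) :
    ((natUnit N m : (ZMod N)ˣ) : ZMod N) = (m : ZMod N) := by
  rw [natUnit_of_coprime h]
  rfl

/-- a unit of `ℤ/N` whose value is the class of `m` is `natUnit N m` -/
theorem eq_natUnit_of_coe_eq {u : (ZMod N)ˣ} {m : ℕ} (h : (u : ZMod N) = (m : ZMod N)) :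
    u = natUnit N m := by
  have hcop : Nat.Coprime m N := by
    rw [← ZMod.isUnit_iff_coprime, ← h]
    exact u.isUnit
  apply Units.ext
  rw [coe_natUnit hcop, h]

theorem natUnit_mul {m₁ m₂ : ℕ} (h₁ : Nat.Coprime m₁ N) (h₂ : Nat.Coprime m₂ N) :
    natUnit N (m₁ * m₂) = natUnit N m₁ * natUnit N m₂ := by
  symm
  apply eq_natUnit_of_coe_eq
  rw [Units.val_mul, coe_natUnit h₁, coe_natUnit h₂, Nat.cast_mul]

theorem natUnit_one : natUnit N 1 = 1 := by
  symm
  apply eq_natUnit_of_coe_eq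
  rw [Units.val_one, Nat.cast_one]

theorem natUnit_prime_of_dvd {q : ℕ} (hq : q.Prime) (h : q ∣ N) : natUnit N q = 1 := by
  apply natUnit_of_not_coprime
  intro hcop
  exact hq.one_lt.ne' (Nat.eq_one_of_dvd_coprimes hcop (dvd_refl q) h)

end NatUnit

section Theta

variable (N : ℕ)

/-- the class in `(ℤ/N)ˣ` of the prime-to-`N` part of `|a|`: `∏_q (q mod N)^{v_q(a)}` -/
def theta (a : ℚ) : (ZMod N)ˣ := ∏ᶠ q : Nat.Primes, natUnit N q ^ padicValRat q a

variable {N}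

/-- only finitely many primes divide a nonzero rational -/
theorem finite_padicValRat_ne_zero (a : ℚ) : {q : Nat.Primes | padicValRat q a ≠ 0}.Finite := by
  by_cases ha : a = 0
  · subst ha
    refine Set.finite_empty.subset ?_
    intro q hq
    exact (hq padicValRat.zero).elim
  · have hm : a.num.natAbs * a.den ≠ 0 :=
      mul_ne_zero (Int.natAbs_ne_zero.2 (Rat.num_ne_zero.2 ha)) a.den_ne_zero
    have hfin : {n : ℕ | n ∣ a.num.natAbs * a.den}.Finite :=
      (Finset.finite_toSet (Nat.divisors (a.num.natAbs * a.den))).subset fun n hn =>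
        Finset.mem_coe.2 (Nat.mem_divisors.2 ⟨hn, hm⟩)
    refine (hfin.preimage (f := fun q : Nat.Primes => (q : ℕ))
      (fun a _ b _ hab => Subtype.ext hab)).subset ?_
    intro q hq
    by_contra hcon
    apply hq
    have h1 : ¬ (q : ℕ) ∣ a.num.natAbs := fun h => hcon (Dvd.dvd.mul_right h _)
    have h2 : ¬ (q : ℕ) ∣ a.den := fun h => hcon (Dvd.dvd.mul_left h _)
    rw [padicValRat_def, padicValInt, padicValNat.eq_zero_of_not_dvd h1,
      padicValNat.eq_zero_of_not_dvd h2]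
    simp

theorem mulSupport_theta_finite (a : ℚ) :
    (Function.mulSupport fun q : Nat.Primes => natUnit N q ^ padicValRat q a).Finite := by
  refine (finite_padicValRat_ne_zero a).subset ?_
  intro q hq hcon
  apply hq
  show natUnit N q ^ padicValRat q a = 1
  rw [hcon, zpow_zero]

theorem theta_mul {a b : ℚ} (ha : a ≠ 0) (hb : b ≠ 0) :
    theta N (a * b) = theta N a * theta N b := by
  unfold theta
  rw [← finprod_mul_distrib (mulSupport_theta_finite a) (mulSupport_theta_finite b)]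
  refine finprod_congr fun q => ?_
  rw [padicValRat.mul ha hb, zpow_add]

theorem theta_one : theta N 1 = 1 := by
  unfold theta
  exact finprod_eq_one_of_forall_eq_one fun q => by rw [padicValRat.one, zpow_zero]

theorem theta_neg (a : ℚ) : theta N (-a) = theta N a := by
  unfold theta
  refine finprod_congr fun q => ?_
  rw [padicValRat.neg]

theorem theta_inv (a : ℚ) : theta N a⁻¹ = (theta N a)⁻¹ := by
  unfold theta
  rw [← finprod_inv_distrib]
  refine finprod_congr fun q => ?_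
  rw [padicValRat.inv, zpow_neg]

theorem theta_pow {a : ℚ} (ha : a ≠ 0) (e : ℕ) : theta N (a ^ e) = theta N a ^ e := by
  induction e with
  | zero => rw [pow_zero, pow_zero, theta_one]
  | succ e ih => rw [pow_succ, pow_succ, theta_mul (pow_ne_zero e ha) ha, ih]

/-- `theta` of a prime `q` is the class of `q` -/
theorem theta_prime (q : Nat.Primes) : theta N ((q : ℕ) : ℚ) = natUnit N q := by
  unfold theta
  rw [finprod_eq_single _ q]
  · rw [padicValRat.of_nat, padicValNat_self, Nat.cast_one, zpow_one]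
  · intro q' hq'
    have hne : (q' : ℕ) ≠ (q : ℕ) := fun h => hq' (Subtype.ext h)
    rw [padicValRat.of_nat, padicValNat_primes hne, Nat.cast_zero, zpow_zero]

/-- `theta` of a natural number prime to `N` is its class -/
theorem theta_natCast {m : ℕ} (hm : Nat.Coprime m N) (hm0 : m ≠ 0) :
    theta N (m : ℚ) = natUnit N m := by
  induction m using Nat.recOnMul with
  | zero => exact (hm0 rfl).elim
  | one => rw [Nat.cast_one, theta_one, natUnit_one]
  | prime q hq => exact theta_prime ⟨q, hq⟩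
  | mul a b iha ihb =>
    have ha0 : a ≠ 0 := fun h => hm0 (by rw [h, zero_mul])
    have hb0 : b ≠ 0 := fun h => hm0 (by rw [h, mul_zero])
    have hca : Nat.Coprime a N := Nat.Coprime.coprime_mul_right hm
    have hcb : Nat.Coprime b N := Nat.Coprime.coprime_mul_left hm
    rw [Nat.cast_mul, theta_mul (Nat.cast_ne_zero.2 ha0) (Nat.cast_ne_zero.2 hb0), iha hca ha0,
      ihb hcb hb0, natUnit_mul hca hcb]

/-- `theta` kills the primes dividing `N` -/
theorem theta_prime_of_dvd {q : ℕ} (hq : q.Prime) (h : q ∣ N) : theta N (q : ℚ) = 1 := by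
  have := theta_prime (N := N) ⟨q, hq⟩
  rw [this]
  exact natUnit_prime_of_dvd hq h

end Theta

section Character

variable {N : ℕ} {A : Type*} [AddCommGroup A] (χ : (ZMod N)ˣ → A)
  (hχ : ∀ u v, χ (u * v) = χ u + χ v)

/-- an additive character as an additive homomorphism -/
def chiHom : Additive (ZMod N)ˣ →+ A where
  toFun u := χ (Additive.toMul u)
  map_zero' := by
    have h := hχ 1 1
    rw [mul_one] at h
    have h2 : χ 1 + 0 = χ 1 + χ 1 := by rw [add_zero]; exact h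
    exact (add_left_cancel h2).symm
  map_add' u v := hχ _ _

include hχ in
theorem chi_one : χ 1 = 0 := (chiHom χ hχ).map_zero

include hχ in
theorem chi_zpow (u : (ZMod N)ˣ) (z : ℤ) : χ (u ^ z) = z • χ u :=
  map_zsmul (chiHom χ hχ) z (Additive.ofMul u)

include hχ in
theorem chi_pow (u : (ZMod N)ˣ) (n : ℕ) : χ (u ^ n) = n • χ u :=
  map_nsmul (chiHom χ hχ) n (Additive.ofMul u)

include hχ in
theorem chi_inv (u : (ZMod N)ˣ) : χ u⁻¹ = -χ u :=
  (chiHom χ hχ).map_neg (Additive.ofMul u)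

include hχ in
/-- **(C2-arith), additive form**: `χ (theta N a) = ∑_q v_q(a) • χ (q mod N)`. -/
theorem chi_theta_eq_sum (a : ℚ) (S : Finset Nat.Primes)
    (hS : ∀ q : Nat.Primes, padicValRat q a ≠ 0 → q ∈ S) :
    χ (theta N a) = ∑ q ∈ S, padicValRat q a • χ (natUnit N q) := by
  have h1 : theta N a = ∏ q ∈ S, natUnit N q ^ padicValRat q a := by
    unfold theta
    apply finprod_eq_prod_of_mulSupport_subset
    intro q hq
    apply Finset.mem_coe.2
    apply hS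
    intro hcon
    apply hq
    show natUnit N q ^ padicValRat q a = 1
    rw [hcon, zpow_zero]
  rw [h1]
  have h2 : χ (∏ q ∈ S, natUnit N q ^ padicValRat q a) =
      ∑ q ∈ S, χ (natUnit N q ^ padicValRat q a) :=
    map_sum (chiHom χ hχ) (fun q : Nat.Primes => Additive.ofMul (natUnit N q ^ padicValRat q a)) S
  rw [h2]
  exact Finset.sum_congr rfl fun q _ => chi_zpow χ hχ _ _

end Character

section Bridge

variable {q : ℕ} [hq : Fact q.Prime] {k : ℕ}

/-- `theta (q^k)` of a natural number is the class of its prime-to-`q` part -/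
theorem exists_theta_natCast_eq (hk : k ≠ 0) {m : ℕ} (hm : m ≠ 0) :
    ∃ e m' : ℕ, ¬ q ∣ m' ∧ m = q ^ e * m' ∧ theta (q ^ k) (m : ℚ) = natUnit (q ^ k) m' := by
  obtain ⟨e, m', hnd, hm'⟩ := Nat.exists_eq_pow_mul_and_not_dvd hm q hq.out.one_lt.ne'
  refine ⟨e, m', hnd, hm', ?_⟩
  have hm'0 : m' ≠ 0 := fun h => hnd (by rw [h]; exact dvd_zero q)
  have hcop : Nat.Coprime m' (q ^ k) :=
    Nat.Coprime.pow_right k ((Nat.Prime.coprime_iff_not_dvd hq.out).2 hnd).symm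
  have hq0 : ((q : ℕ) : ℚ) ≠ 0 := Nat.cast_ne_zero.2 hq.out.ne_zero
  rw [hm', Nat.cast_mul, Nat.cast_pow,
    theta_mul (pow_ne_zero e hq0) (Nat.cast_ne_zero.2 hm'0), theta_pow hq0,
    theta_prime_of_dvd hq.out (dvd_pow_self q hk), one_pow, one_mul, theta_natCast hcop hm'0]

theorem norm_natCast_padic_of_not_dvd {m : ℕ} (h : ¬ q ∣ m) : ‖(m : ℚ_[q])‖ = 1 := by
  have h1 : ‖(m : ℤ_[q])‖ = 1 :=
    PadicInt.norm_natCast_eq_one_iff.mpr ((Nat.Prime.coprime_iff_not_dvd hq.out).mpr h)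
  rw [← h1, PadicInt.norm_def, PadicInt.coe_natCast]

/-- **the bridge**: if `a = q^j · y^n` in `ℚ_q` with `y ∈ ℤ_qˣ`, then the class of the prime-to-`q`
part of `|a|` modulo `q^k` is `± (y mod q^k)^n`. -/
theorem theta_eq_of_eq_zpow_mul_pow (hk : k ≠ 0) {a : ℚ} (ha : a ≠ 0) (j : ℤ) (y : ℤ_[q]ˣ) (n : ℕ)
    (h : ((a : ℚ) : ℚ_[q]) = (q : ℚ_[q]) ^ j * (((y ^ n : ℤ_[q]ˣ) : ℤ_[q]) : ℚ_[q])) :
    theta (q ^ k) a = unitsRed k y ^ n ∨ theta (q ^ k) a = -(unitsRed k y ^ n) := by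
  have hm₁ : a.num.natAbs ≠ 0 := Int.natAbs_ne_zero.2 (Rat.num_ne_zero.2 ha)
  have hm₂ : a.den ≠ 0 := a.den_ne_zero
  obtain ⟨e₁, m₁, hnd₁, hm₁', ht₁⟩ := exists_theta_natCast_eq (q := q) hk hm₁
  obtain ⟨e₂, m₂, hnd₂, hm₂', ht₂⟩ := exists_theta_natCast_eq (q := q) hk hm₂
  have hcop₁ : Nat.Coprime m₁ (q ^ k) :=
    Nat.Coprime.pow_right k ((Nat.Prime.coprime_iff_not_dvd hq.out).2 hnd₁).symm
  have hcop₂ : Nat.Coprime m₂ (q ^ k) :=
    Nat.Coprime.pow_right k ((Nat.Prime.coprime_iff_not_dvd hq.out).2 hnd₂).symm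
  -- the sign
  have hsign : ∃ s : ℤ, (s = 1 ∨ s = -1) ∧ a.num = s * (a.num.natAbs : ℤ) := by
    rcases Int.natAbs_eq a.num with h1 | h1
    · exact ⟨1, Or.inl rfl, by rw [one_mul]; exact h1⟩
    · exact ⟨-1, Or.inr rfl, by rw [neg_one_mul]; exact h1⟩
  obtain ⟨s, hs, hnum⟩ := hsign
  -- the equation in `ℚ`
  have hQ : a * (a.den : ℚ) = (s : ℚ) * (a.num.natAbs : ℚ) := by
    rw [Rat.mul_den_eq_num]
    have := congrArg (fun z : ℤ => (z : ℚ)) hnum
    simp only [Int.cast_mul, Int.cast_natCast] at this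
    exact this
  have hs0 : (s : ℚ) ≠ 0 := by
    rcases hs with rfl | rfl <;> norm_num
  have hts : theta (q ^ k) (s : ℚ) = 1 := by
    rcases hs with rfl | rfl
    · rw [Int.cast_one, theta_one]
    · rw [Int.cast_neg, Int.cast_one, theta_neg, theta_one]
  -- `theta a = natUnit m₁ / natUnit m₂`
  have hθ : theta (q ^ k) a * natUnit (q ^ k) m₂ = natUnit (q ^ k) m₁ := by
    have h1 := congrArg (theta (q ^ k)) hQ
    rw [theta_mul ha (Nat.cast_ne_zero.2 hm₂), theta_mul hs0 (Nat.cast_ne_zero.2 hm₁), hts, one_mul,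
      ht₁, ht₂] at h1
    exact h1
  -- the equation in `ℚ_q`
  have hq0 : (q : ℚ_[q]) ≠ 0 := by exact_mod_cast hq.out.ne_zero
  have hP : (q : ℚ_[q]) ^ (j + e₂) * ((((y ^ n : ℤ_[q]ˣ) : ℤ_[q]) : ℚ_[q]) * (m₂ : ℚ_[q])) =
      (q : ℚ_[q]) ^ (e₁ : ℤ) * ((s : ℚ_[q]) * (m₁ : ℚ_[q])) := by
    have h1 := congrArg (fun z : ℚ => (z : ℚ_[q])) hQ
    simp only [Rat.cast_mul, Rat.cast_natCast, Rat.cast_intCast] at h1
    rw [h, hm₁', hm₂'] at h1
    simp only [Nat.cast_mul, Nat.cast_pow] at h1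
    rw [zpow_add₀ hq0, zpow_natCast, zpow_natCast]
    linear_combination h1
  have hy1 : ‖(((y ^ n : ℤ_[q]ˣ) : ℤ_[q]) : ℚ_[q])‖ = 1 := by
    rw [← PadicInt.norm_def]
    exact PadicInt.norm_units _
  have hs1 : ‖(s : ℚ_[q])‖ = 1 := by
    rcases hs with rfl | rfl
    · rw [Int.cast_one, norm_one]
    · rw [Int.cast_neg, Int.cast_one, norm_neg, norm_one]
  have hexp : j + e₂ = e₁ := by
    have h1 := congrArg (fun z : ℚ_[q] => ‖z‖) hP
    simp only [norm_mul, norm_zpow, hy1, hs1, norm_natCast_padic_of_not_dvd hnd₁,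
      norm_natCast_padic_of_not_dvd hnd₂, mul_one, Padic.norm_p] at h1
    have hqinv_pos : (0 : ℝ) < (q : ℝ)⁻¹ := inv_pos.mpr (by exact_mod_cast hq.out.pos)
    have hqinv_ne : ((q : ℝ)⁻¹) ≠ 1 := by
      have : (1 : ℝ) < q := by exact_mod_cast hq.out.one_lt
      exact (inv_lt_one_of_one_lt₀ this).ne
    exact zpow_right_injective₀ hqinv_pos hqinv_ne h1
  -- cancel the power of `q`
  have hU : (((y ^ n : ℤ_[q]ˣ) : ℤ_[q]) : ℚ_[q]) * (m₂ : ℚ_[q]) = (s : ℚ_[q]) * (m₁ : ℚ_[q]) := by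
    rw [hexp] at hP
    exact mul_left_cancel₀ (zpow_ne_zero _ hq0) hP
  -- in `ℤ_q`
  have hZ : ((y ^ n : ℤ_[q]ˣ) : ℤ_[q]) * (m₂ : ℤ_[q]) = (s : ℤ_[q]) * (m₁ : ℤ_[q]) := by
    apply Subtype.ext
    rw [PadicInt.coe_mul, PadicInt.coe_mul, PadicInt.coe_natCast, PadicInt.coe_natCast,
      PadicInt.coe_intCast]
    exact hU
  -- modulo `q^k`
  have hM : ((unitsRed k y ^ n : (ZMod (q ^ k))ˣ) : ZMod (q ^ k)) * (m₂ : ZMod (q ^ k)) =
      (s : ZMod (q ^ k)) * (m₁ : ZMod (q ^ k)) := by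
    have h1 := congrArg (PadicInt.toZModPow (p := q) k) hZ
    rw [map_mul, map_mul, map_natCast, map_natCast, map_intCast] at h1
    rw [← map_pow, coe_unitsRed]
    exact h1
  have hfin : unitsRed k y ^ n * natUnit (q ^ k) m₂ = natUnit (q ^ k) m₁ ∨
      unitsRed k y ^ n * natUnit (q ^ k) m₂ = -natUnit (q ^ k) m₁ := by
    rcases hs with rfl | rfl
    · left
      apply Units.ext
      rw [Units.val_mul, coe_natUnit hcop₂, coe_natUnit hcop₁, hM, Int.cast_one, one_mul]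
    · right
      apply Units.ext
      rw [Units.val_mul, Units.val_neg, coe_natUnit hcop₂, coe_natUnit hcop₁, hM, Int.cast_neg,
        Int.cast_one, neg_one_mul]
  rcases hfin with h1 | h1
  · left
    have : theta (q ^ k) a * natUnit (q ^ k) m₂ = unitsRed k y ^ n * natUnit (q ^ k) m₂ := by
      rw [hθ, h1]
    exact mul_right_cancel this
  · right
    have : theta (q ^ k) a * natUnit (q ^ k) m₂ = -(unitsRed k y ^ n) * natUnit (q ^ k) m₂ := by
      rw [hθ, neg_mul, h1, neg_neg]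
    exact mul_right_cancel this

/-- the same with the hypothesis in the shape of `Places.exists_eq_zpow_mul_pow_of_mem` -/
theorem theta_eq_of_units_eq (hk : k ≠ 0) {a : ℚ} (ha : a ≠ 0) (a' : ℚ_[q]ˣ)
    (ha' : (a' : ℚ_[q]) = ((a : ℚ) : ℚ_[q])) (j : ℤ) (y : ℤ_[q]ˣ) (n : ℕ)
    (h : a' = (unifQ : ℚ_[q]ˣ) ^ j * unitsIncl (y ^ n)) :
    theta (q ^ k) a = unitsRed k y ^ n ∨ theta (q ^ k) a = -(unitsRed k y ^ n) := by
  apply theta_eq_of_eq_zpow_mul_pow hk ha j y n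
  rw [← ha', h, Units.val_mul, Units.val_zpow_eq_zpow_val, coe_unifQ, coe_unitsIncl]

variable {A : Type*} [AddCommGroup A] (χ : (ZMod (q ^ k))ˣ → A)
  (hχ : ∀ u v, χ (u * v) = χ u + χ v)

omit hq in
include hχ in
/-- a character of odd exponent kills `-1` -/
theorem chi_neg_one_eq_zero {n : ℕ} (hn : Odd n) (hkill : ∀ u, n • χ u = 0) : χ (-1) = 0 := by
  have h2 : (2 : ℕ) • χ (-1) = 0 := by
    rw [two_nsmul, ← hχ, neg_mul_neg, one_mul]
    exact chi_one χ hχ
  obtain ⟨t, rfl⟩ := hn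
  have h3 := hkill (-1)
  rw [add_smul, mul_smul, smul_comm, h2, smul_zero, zero_add, one_smul] at h3
  exact h3

include hχ in
/-- **the tame/wild trick**: if `a ∈ ℚˣ` is `q^j · y^n` in `ℚ_q` (`y ∈ ℤ_qˣ`), then
`∑_{q'} v_{q'}(a) • χ (q' mod q^k) = 0` for every additive character `χ` of `(ℤ/q^k)ˣ` killed by `n`
with `χ (-1) = 0` (the term `q' = q` vanishes by itself). -/
theorem sum_eq_zero_of_eq_zpow_mul_pow (hk : k ≠ 0) {n : ℕ} (hkill : ∀ u, n • χ u = 0)
    (hneg : χ (-1) = 0) {a : ℚ} (ha : a ≠ 0) (j : ℤ) (y : ℤ_[q]ˣ)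
    (h : ((a : ℚ) : ℚ_[q]) = (q : ℚ_[q]) ^ j * (((y ^ n : ℤ_[q]ˣ) : ℤ_[q]) : ℚ_[q]))
    (S : Finset Nat.Primes) (hS : ∀ q' : Nat.Primes, padicValRat q' a ≠ 0 → q' ∈ S) :
    ∑ q' ∈ S, padicValRat q' a • χ (natUnit (q ^ k) q') = 0 := by
  rw [← chi_theta_eq_sum χ hχ a S hS]
  rcases theta_eq_of_eq_zpow_mul_pow hk ha j y n h with h1 | h1
  · rw [h1, chi_pow χ hχ]
    exact hkill _
  · have : -(unitsRed k y ^ n) = (-1) * unitsRed k y ^ n := by rw [neg_one_mul]
    rw [h1, this, hχ, hneg, zero_add, chi_pow χ hχ]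
    exact hkill _

end Bridge

section Cyclotomic

variable {N : ℕ} [NeZero N] {L : Type*} [Field L] [Algebra ℚ L] [IsCyclotomicExtension {N} ℚ L]

omit [Algebra ℚ L] [IsCyclotomicExtension {N} ℚ L] in
theorem natCast_eq_of_pow_eq {ζ : L} (hζ : IsPrimitiveRoot ζ N) {a b : ℕ} (h : ζ ^ a = ζ ^ b) :
    (a : ZMod N) = (b : ZMod N) := by
  have key : ∀ a c : ℕ, ζ ^ a = ζ ^ (a + c) → (a : ZMod N) = ((a + c : ℕ) : ZMod N) := by
    intro a c hac
    have hζ0 : ζ ≠ 0 := hζ.ne_zero (NeZero.ne N)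
    have h1 : ζ ^ c = 1 := by
      rw [pow_add] at hac
      have h2 : ζ ^ a * 1 = ζ ^ a * ζ ^ c := by rw [mul_one]; exact hac
      exact (mul_left_cancel₀ (pow_ne_zero a hζ0) h2).symm
    have h3 : N ∣ c := (hζ.pow_eq_one_iff_dvd c).1 h1
    rw [Nat.cast_add, (ZMod.natCast_eq_zero_iff c N).2 h3, add_zero]
  rcases le_total a b with hab | hab
  · obtain ⟨c, rfl⟩ := Nat.exists_eq_add_of_le hab
    exact key a c h
  · obtain ⟨c, rfl⟩ := Nat.exists_eq_add_of_le hab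
    exact (key b c h.symm).symm

/-- an automorphism of `ℚ(ζ_N)` with `τ ζ = ζ ^ m` (for one primitive `N`-th root of unity `ζ`)
corresponds to the class of `m` under `IsCyclotomicExtension.autEquivPow`. -/
theorem autEquivPow_eq_natUnit (h : Irreducible (Polynomial.cyclotomic N ℚ)) {ζ : L}
    (hζ : IsPrimitiveRoot ζ N) (τ : L ≃ₐ[ℚ] L) (m : ℕ) (hτ : τ ζ = ζ ^ m) :
    IsCyclotomicExtension.autEquivPow L h τ = natUnit N m := by
  set z := IsCyclotomicExtension.zeta N ℚ L with hz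
  have hzs : IsPrimitiveRoot z N := IsCyclotomicExtension.zeta_spec N ℚ L
  set u : (ZMod N)ˣ := IsCyclotomicExtension.autEquivPow L h τ with hu
  have hspec : z ^ (u : ZMod N).val = τ z := hzs.autToPow_spec ℚ τ
  obtain ⟨t, -, ht⟩ := hzs.eq_pow_of_pow_eq_one hζ.pow_eq_one
  have h1 : τ ζ = ζ ^ (u : ZMod N).val := by
    rw [← ht, map_pow, ← hspec, ← pow_mul, ← pow_mul, mul_comm]
  have h2 : ζ ^ (u : ZMod N).val = ζ ^ m := by rw [← h1, hτ]
  apply eq_natUnit_of_coe_eq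
  rw [← natCast_eq_of_pow_eq hζ h2, ZMod.natCast_zmod_val]

/-- the automorphism `σ_m : ζ ↦ ζ ^ m` of `ℚ(ζ_N)` (`1` if `m` is not prime to `N`) -/
def sigmaNat (N : ℕ) [NeZero N] (L : Type*) [Field L] [Algebra ℚ L]
    [IsCyclotomicExtension {N} ℚ L] (m : ℕ) : L ≃ₐ[ℚ] L :=
  (IsCyclotomicExtension.autEquivPow L
    (Polynomial.cyclotomic.irreducible_rat (NeZero.pos N))).symm (natUnit N m)

theorem eq_sigmaNat {ζ : L} (hζ : IsPrimitiveRoot ζ N) (τ : L ≃ₐ[ℚ] L) (m : ℕ)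
    (hτ : τ ζ = ζ ^ m) : τ = sigmaNat N L m := by
  unfold sigmaNat
  rw [MulEquiv.eq_symm_apply]
  exact autEquivPow_eq_natUnit _ hζ τ m hτ

theorem sigmaNat_apply {ζ : L} (hζ : IsPrimitiveRoot ζ N) {m : ℕ} (hm : Nat.Coprime m N) :
    sigmaNat N L m ζ = ζ ^ m := by
  set z := IsCyclotomicExtension.zeta N ℚ L with hz
  have hzs : IsPrimitiveRoot z N := IsCyclotomicExtension.zeta_spec N ℚ L
  have hspec : z ^ ((IsCyclotomicExtension.autEquivPow L
      (Polynomial.cyclotomic.irreducible_rat (NeZero.pos N)) (sigmaNat N L m) : (ZMod N)ˣ) :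
        ZMod N).val = sigmaNat N L m z := hzs.autToPow_spec ℚ (sigmaNat N L m)
  have hval : IsCyclotomicExtension.autEquivPow L
      (Polynomial.cyclotomic.irreducible_rat (NeZero.pos N)) (sigmaNat N L m) = natUnit N m := by
    unfold sigmaNat
    rw [MulEquiv.apply_symm_apply]
  rw [hval, coe_natUnit hm] at hspec
  obtain ⟨t, -, ht⟩ := hzs.eq_pow_of_pow_eq_one hζ.pow_eq_one
  have hpow : z ^ (m : ZMod N).val = z ^ m := by
    have h1 : ((m : ZMod N).val : ZMod N) = (m : ZMod N) := ZMod.natCast_zmod_val _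
    have h2 : (m : ZMod N).val ≡ m [MOD N] := (ZMod.natCast_eq_natCast_iff _ _ _).1 h1
    obtain ⟨c, hc⟩ : ∃ c : ℤ, ((m : ZMod N).val : ℤ) = m + N * c := by
      have := h2.symm.dvd
      obtain ⟨c, hc⟩ := this
      exact ⟨c, by linarith⟩
    have hzu : IsUnit z := hzs.isUnit (NeZero.ne N)
    obtain ⟨zu, hzu'⟩ := hzu
    have h3 : (zu : L) ^ N = 1 := by rw [hzu']; exact hzs.pow_eq_one
    have h4 : zu ^ N = 1 := Units.ext (by rw [Units.val_pow_eq_pow_val, h3, Units.val_one])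
    have h5 : zu ^ ((m : ZMod N).val : ℤ) = zu ^ (m : ℤ) := by
      rw [hc, zpow_add, zpow_mul, zpow_natCast, zpow_natCast, h4, one_zpow, mul_one]
    rw [zpow_natCast, zpow_natCast] at h5
    rw [← hzu', ← Units.val_pow_eq_pow_val, ← Units.val_pow_eq_pow_val, h5]
  rw [← ht, map_pow, ← hspec, hpow, ← pow_mul, ← pow_mul, mul_comm]

end Cyclotomic

section Final

variable {q : ℕ} [hq : Fact q.Prime] {k : ℕ} [NeZero (q ^ k)] {L : Type*} [Field L] [Algebra ℚ L]
  [IsCyclotomicExtension {q ^ k} ℚ L] {A : Type*} [AddCommGroup A]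

/-- **(C2) for `ℚ(ζ_{q^k})`**: let `χ` be an additive character of `Gal(ℚ(ζ_{q^k})/ℚ)` of odd
exponent `n`, and `a ∈ ℚˣ` with `a = q^j · y^n` in `ℚ_q`, `y ∈ ℤ_qˣ` (e.g. `a` a local norm at `q` from
the fixed field of `ker χ`, by `Places.exists_eq_zpow_mul_pow_of_mem_tame/_wild`).  Then
`∑_{q' ≠ q} v_{q'}(a) • χ (σ_{q'}) = 0`, `σ_{q'} : ζ ↦ ζ ^ q'` the Frobenius at `q'`. -/
theorem sum_chi_sigmaNat_eq_zero (hk : k ≠ 0) (χ : (L ≃ₐ[ℚ] L) → A)
    (hχ : ∀ g h, χ (g * h) = χ g + χ h) {n : ℕ} (hn : Odd n) (hkill : ∀ g, n • χ g = 0)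
    {a : ℚ} (ha : a ≠ 0) (j : ℤ) (y : ℤ_[q]ˣ)
    (h : ((a : ℚ) : ℚ_[q]) = (q : ℚ_[q]) ^ j * (((y ^ n : ℤ_[q]ˣ) : ℤ_[q]) : ℚ_[q]))
    (S : Finset Nat.Primes) (hS : ∀ q' : Nat.Primes, padicValRat q' a ≠ 0 → q' ∈ S) :
    ∑ q' ∈ S, padicValRat q' a • χ (sigmaNat (q ^ k) L q') = 0 := by
  set e := (IsCyclotomicExtension.autEquivPow L
    (Polynomial.cyclotomic.irreducible_rat (NeZero.pos (q ^ k)))).symm with he
  have hψ : ∀ u v, (fun u => χ (e u)) (u * v) = (fun u => χ (e u)) u + (fun u => χ (e u)) v := by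
    intro u v
    show χ (e (u * v)) = χ (e u) + χ (e v)
    rw [map_mul, hχ]
  have hkill' : ∀ u, n • (fun u => χ (e u)) u = 0 := fun u => hkill _
  have hneg := chi_neg_one_eq_zero (fun u => χ (e u)) hψ hn hkill'
  exact sum_eq_zero_of_eq_zpow_mul_pow (fun u => χ (e u)) hψ hk hkill' hneg ha j y h S hS

end Final

end Fermat.Agent.S55lib.CycloArith
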